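/-
# S55 / 13c-LOC-TAME (helper89): tame Kummer facts in the local-field model `LF q`

`Ω = PadicAlgCl q`, `K : IntermediateField ℚ_[q] Ω`, `m` prime to `q`.  No Hensel, no completeness:
a root of `X ^ m = u` close to `1` is unique, hence fixed by `Gal(Ω/K)` when `u ∈ K`.

* `exists_root_near_one`, `root_near_one_unique` : roots of `1`-units close to `1`, in `Ω`;
* `one_unit_pow` : a `1`-unit of `K` is the `m`-th power of a `1`-unit of `K`;
* `isPow_iff_residue` : a unit of `K` is an `m`-th power in `K` iff it is one modulo the maximal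
  ideal;
* `root_mem_unr` : for a unit `a ∈ K` and `α ^ m = a`, `α` lies in some unramified extension `K_n`.
-/
import Fermat.Agent.S55.UnrExt93.BaseChange

set_option autoImplicit false
set_option linter.style.haveILetI false

namespace Fermat.Agent.S55.LocUnr89.Tame

open Polynomial Fermat.Agent.S55.UnrExt93

variable {q : ℕ} [Fact q.Prime]

theorem norm_sub_le_max' (x y : PadicAlgCl q) : ‖x - y‖ ≤ max ‖x‖ ‖y‖ := by
  rw [sub_eq_add_neg]
  exact (IsUltrametricDist.norm_add_le_max x (-y)).trans (by rw [norm_neg])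

theorem norm_sub_eq_max' {x y : PadicAlgCl q} (h : ‖x‖ ≠ ‖y‖) : ‖x - y‖ = max ‖x‖ ‖y‖ := by
  rw [sub_eq_add_neg, IsUltrametricDist.norm_add_eq_max_of_norm_ne_norm (by rwa [norm_neg]),
    norm_neg]

/-- a product of elements of norm `≥ 1` has norm `≥ 1` -/
theorem one_le_norm_multiset_prod (s : Multiset (PadicAlgCl q)) (h : ∀ x ∈ s, 1 ≤ ‖x‖) :
    1 ≤ ‖s.prod‖ := by
  induction s using Multiset.induction_on with
  | empty => simp
  | cons a s ih =>
    rw [Multiset.prod_cons, norm_mul]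
    exact one_le_mul_of_one_le_of_one_le (h a (Multiset.mem_cons_self a s))
      (ih fun x hx => h x (Multiset.mem_cons_of_mem hx))

/-- an element whose `m`-th power is close to `1` is close to an `m`-th root of unity -/
theorem exists_root_of_unity_near {m : ℕ} (hm0 : m ≠ 0) {w : PadicAlgCl q}
    (h : ‖w ^ m - 1‖ < 1) : ∃ r : PadicAlgCl q, r ^ m = 1 ∧ ‖w - r‖ < 1 := by
  by_contra hcon
  push Not at hcon
  set f : (PadicAlgCl q)[X] := X ^ m - C 1 with hf
  have hmonic : f.Monic := monic_X_pow_sub_C 1 hm0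
  have hf0 : f ≠ 0 := hmonic.ne_zero
  have hprod := Splits.eq_prod_roots_of_monic (IsAlgClosed.splits f) hmonic
  have heval : w ^ m - 1 = (f.roots.map fun r => w - r).prod := by
    have h1 : f.eval w = w ^ m - 1 := by simp [hf]
    rw [← h1]
    conv_lhs => rw [hprod]
    rw [eval_multiset_prod, Multiset.map_map]
    congr 1
    refine Multiset.map_congr rfl fun r _ => ?_
    simp
  have hge : 1 ≤ ‖(f.roots.map fun r => w - r).prod‖ := by
    refine one_le_norm_multiset_prod _ fun x hx => ?_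
    obtain ⟨r, hr, rfl⟩ := Multiset.mem_map.1 hx
    have hr1 : r ^ m = 1 := by
      have := (mem_roots hf0).1 hr
      rw [IsRoot.def, hf, eval_sub, eval_pow, eval_X, eval_C, sub_eq_zero] at this
      exact this
    exact hcon r hr1
  rw [← heval] at hge
  exact absurd h (not_lt.2 hge)

/-- **Roots of `1`-units close to `1` exist in `Ω`.** -/
theorem exists_root_near_one {m : ℕ} (hm : ¬ q ∣ m) {u : PadicAlgCl q} (hu : ‖u - 1‖ < 1) :
    ∃ w : PadicAlgCl q, ‖w - 1‖ < 1 ∧ w ^ m = u := by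
  have hm0 : m ≠ 0 := by rintro rfl; exact hm (dvd_zero q)
  obtain ⟨w₀, hw₀⟩ := IsAlgClosed.exists_pow_nat_eq u (Nat.pos_of_ne_zero hm0)
  obtain ⟨r, hr, hwr⟩ := exists_root_of_unity_near hm0 (w := w₀) (by rw [hw₀]; exact hu)
  have hr1 : ‖r‖ = 1 := norm_eq_one_of_pow_eq_one hm0 hr
  have hr0 : r ≠ 0 := by
    intro h; rw [h, norm_zero] at hr1; exact zero_ne_one hr1
  refine ⟨w₀ / r, ?_, ?_⟩
  · have : w₀ / r - 1 = (w₀ - r) / r := by rw [sub_div, div_self hr0]
    rw [this, norm_div, hr1, div_one]; exact hwr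
  · rw [div_pow, hw₀, hr, div_one]

/-- a `1`-unit has norm one -/
theorem norm_eq_one_of_norm_sub_one_lt {w : PadicAlgCl q} (h : ‖w - 1‖ < 1) : ‖w‖ = 1 := by
  have h1 : w = (w - 1) + 1 := by ring
  rw [h1]
  have := IsUltrametricDist.norm_add_eq_max_of_norm_ne_norm
    (x := w - 1) (y := (1 : PadicAlgCl q)) (by rw [norm_one]; exact h.ne)
  rw [this, norm_one]
  exact max_eq_right h.le

/-- **Roots close to `1` are unique.** -/
theorem root_near_one_unique {m : ℕ} (hm : ¬ q ∣ m) {w w' : PadicAlgCl q} (h : ‖w - 1‖ < 1)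
    (h' : ‖w' - 1‖ < 1) (e : w ^ m = w' ^ m) : w = w' := by
  have hw' : ‖w'‖ = 1 := norm_eq_one_of_norm_sub_one_lt h'
  have hw'0 : w' ≠ 0 := by
    intro h0; rw [h0, norm_zero] at hw'; exact zero_ne_one hw'
  have hz : (w / w') ^ m = 1 := by rw [div_pow, e, div_self (pow_ne_zero _ hw'0)]
  have hclose : ‖w / w' - 1‖ < 1 := by
    have h1 : w / w' - 1 = ((w - 1) - (w' - 1)) / w' := by
      field_simp
      ring
    rw [h1, norm_div, hw', div_one]
    exact lt_of_le_of_lt (norm_sub_le_max' _ _) (max_lt h h')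
  have := eq_of_pow_eq_one_of_norm_sub_lt hm hz (one_pow m) hclose
  rw [div_eq_one_iff_eq hw'0] at this
  exact this

variable {K : IntermediateField ℚ_[q] (PadicAlgCl q)}

/-- **(T1) `1`-units of `K` are `m`-th powers of `1`-units of `K`** (`q ∤ m`). -/
theorem one_unit_pow {m : ℕ} (hm : ¬ q ∣ m) {u : PadicAlgCl q} (huK : u ∈ K) (hu : ‖u - 1‖ < 1) :
    ∃ w ∈ K, ‖w - 1‖ < 1 ∧ w ^ m = u := by
  obtain ⟨w, hw, hwu⟩ := exists_root_near_one hm hu
  refine ⟨w, mem_of_fixed fun σ hσ => ?_, hw, hwu⟩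
  have hσu : σ u = u := (IntermediateField.mem_fixingSubgroup_iff _ _).1 hσ u huK
  refine root_near_one_unique hm ?_ hw ?_
  · have : σ w - 1 = σ (w - 1) := by rw [map_sub, map_one]
    rw [this, UnrExt93.norm_map]; exact hw
  · rw [← map_pow, hwu, hσu]

/-- **(T2) a unit of `K` is an `m`-th power in `K` iff it is one modulo the maximal ideal**
(`q ∤ m`). -/
theorem isPow_iff_residue {m : ℕ} (hm : ¬ q ∣ m) {a : PadicAlgCl q} (haK : a ∈ K)
    (ha : ‖a‖ = 1) :
    (∃ b ∈ K, b ^ m = a) ↔ ∃ c ∈ K, ‖c‖ ≤ 1 ∧ ‖c ^ m - a‖ < 1 := by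
  have hm0 : m ≠ 0 := by rintro rfl; exact hm (dvd_zero q)
  constructor
  · rintro ⟨b, hbK, hb⟩
    have hb1 : ‖b‖ = 1 := by
      have h1 : ‖b‖ ^ m = 1 := by rw [← norm_pow, hb, ha]
      exact (pow_eq_one_iff_of_nonneg (norm_nonneg b) hm0).1 h1
    exact ⟨b, hbK, hb1.le, by rw [hb, sub_self, norm_zero]; exact zero_lt_one⟩
  · rintro ⟨c, hcK, hc1, hca⟩
    have hc : ‖c‖ = 1 := by
      rcases lt_or_eq_of_le hc1 with hlt | heq
      · exfalso
        have h1 : ‖c ^ m‖ < 1 := by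
          rw [norm_pow]; exact pow_lt_one₀ (norm_nonneg _) hlt hm0
        have h2 : ‖c ^ m - a‖ = 1 := by
          have := norm_sub_eq_max' (x := c ^ m) (y := a) (by rw [ha]; exact h1.ne)
          rw [this, ha]; exact max_eq_right h1.le
        rw [h2] at hca
        exact lt_irrefl _ hca
      · exact heq
    have hc0 : c ≠ 0 := by
      intro h; rw [h, norm_zero] at hc; exact zero_ne_one hc
    have hcm0 : c ^ m ≠ 0 := pow_ne_zero _ hc0
    have hu : ‖a / c ^ m - 1‖ < 1 := by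
      have h1 : a / c ^ m - 1 = (a - c ^ m) / c ^ m := by rw [sub_div, div_self hcm0]
      rw [h1, norm_div, norm_pow, hc, one_pow, div_one, norm_sub_rev]
      exact hca
    obtain ⟨w, hwK, -, hw⟩ := one_unit_pow hm (K.div_mem haK (pow_mem hcK m)) hu
    exact ⟨c * w, K.mul_mem hcK hwK, by rw [mul_pow, hw, mul_div_cancel₀ _ hcm0]⟩

variable [FiniteDimensional ℚ_[q] K]

/-- **(T3) tame Kummer extensions with unit radicand are unramified**: if `a ∈ K` is a unit and
`α ^ m = a` with `q ∤ m`, then `α ∈ K_n` for some `n > 0`. -/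
theorem root_mem_unr {m : ℕ} (hm : ¬ q ∣ m) {a α : PadicAlgCl q} (haK : a ∈ K) (ha : ‖a‖ = 1)
    (hα : α ^ m = a) : ∃ n, 0 < n ∧ α ∈ unr q K n := by
  have hm0 : m ≠ 0 := by rintro rfl; exact hm (dvd_zero q)
  have hα1 : ‖α‖ = 1 := by
    have h1 : ‖α‖ ^ m = 1 := by rw [← norm_pow, hα, ha]
    exact (pow_eq_one_iff_of_nonneg (norm_nonneg α) hm0).1 h1
  have hα0 : α ≠ 0 := by
    intro h; rw [h, norm_zero] at hα1; exact zero_ne_one hα1
  -- the finite extension `K' = K(α)`
  have hint : IsIntegral ℚ_[q] α := (Algebra.IsAlgebraic.isAlgebraic α).isIntegral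
  haveI : FiniteDimensional ℚ_[q] (IntermediateField.adjoin ℚ_[q] {α}) :=
    IntermediateField.adjoin.finiteDimensional hint
  set K' : IntermediateField ℚ_[q] (PadicAlgCl q) := K ⊔ IntermediateField.adjoin ℚ_[q] {α}
    with hK'
  haveI : FiniteDimensional ℚ_[q] K' := IntermediateField.finiteDimensional_sup _ _
  have hKK' : K ≤ K' := le_sup_left
  have hαK' : α ∈ K' :=
    (le_sup_right : IntermediateField.adjoin ℚ_[q] {α} ≤ K')
      (IntermediateField.mem_adjoin_simple_self ℚ_[q] α)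
  obtain ⟨n, hn, hcard⟩ := exists_resDeg (q := q) hKK'
  refine ⟨n, hn, ?_⟩
  haveI : FiniteDimensional ℚ_[q] (unr q K n) := finiteDimensional_unr hn
  -- Frobenius congruence for `α` and a representative in `K_n`
  have hfrob : ‖α ^ resCard q (unr q K n) - α‖ < 1 := by
    rw [resCard_unr hn, ← hcard]
    exact frob_congr hαK' hα1.le
  obtain ⟨x, hxKn, hx1, hαx⟩ := exists_of_frob (K := unr q K n) hα1.le hfrob
  have hx : ‖x‖ = 1 := by
    rcases lt_or_eq_of_le hx1 with hlt | heq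
    · exfalso
      have h2 : ‖α - x‖ = 1 := by
        have := norm_sub_eq_max' (x := α) (y := x) (by rw [hα1]; exact hlt.ne')
        rw [this, hα1]; exact max_eq_left hlt.le
      rw [h2] at hαx
      exact lt_irrefl _ hαx
    · exact heq
  have hx0 : x ≠ 0 := by
    intro h; rw [h, norm_zero] at hx; exact zero_ne_one hx
  have hxm0 : x ^ m ≠ 0 := pow_ne_zero _ hx0
  -- `u = α / x` is a `1`-unit whose `m`-th power lies in `K_n`
  have hu : ‖α / x - 1‖ < 1 := by
    have h1 : α / x - 1 = (α - x) / x := by rw [sub_div, div_self hx0]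
    rw [h1, norm_div, hx, div_one]; exact hαx
  have hum : (α / x) ^ m = a / x ^ m := by rw [div_pow, hα]
  have humKn : a / x ^ m ∈ unr q K n :=
    (unr q K n).div_mem (le_unr K n haK) (pow_mem hxKn m)
  have hum1 : ‖a / x ^ m - 1‖ < 1 := by
    rw [← hum]
    -- `‖u^m - 1‖ < 1` since `u ≡ 1`
    have hu1 : ‖α / x‖ = 1 := norm_eq_one_of_norm_sub_one_lt hu
    have h2 : ‖(α / x) ^ m‖ ≤ 1 := by rw [norm_pow, hu1, one_pow]
    rw [← red_eq_iff h2 (by rw [norm_one]), red_pow hu1.le, red_one,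
      (red_eq_iff hu1.le (by rw [norm_one])).2 hu, red_one, one_pow]
  obtain ⟨w, hwKn, hw1, hwm⟩ := one_unit_pow (K := unr q K n) hm humKn hum1
  have huw : α / x = w := root_near_one_unique hm hu hw1 (by rw [hum, hwm])
  have : α = x * w := by rw [← huw, mul_div_cancel₀ _ hx0]
  rw [this]
  exact (unr q K n).mul_mem hxKn hwKn

end Fermat.Agent.S55.LocUnr89.Tame
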