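/-
# S55 / 13-LOC-UNR (helper89), file 3: norm, trace and Hilbert 90 for `𝔽_{Q^n} / 𝔽_Q`

Mathlib only.  `l` a finite field with `Q ^ n` elements, `Q = p ^ a` a power of the characteristic.
The "Frobenius" is `x ↦ x ^ Q`, the fixed field is `{x | x ^ Q = x}`, and

* `frobNorm Q n x = ∏ i < n, x ^ Q ^ i`, `frobTrace Q n x = ∑ i < n, x ^ Q ^ i`.

Results:

* `exists_frobNorm_eq`  : the norm is onto the fixed units;
* `exists_frobTrace_eq` : the trace is onto the fixed field;
* `exists_pow_div_of_frobNorm_eq_one` : multiplicative Hilbert 90, `N x = 1 ⇒ x = y ^ Q / y`;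
* `exists_pow_sub_of_frobTrace_eq_zero` : additive Hilbert 90, `Tr x = 0 ⇒ x = y ^ Q - y`.
-/
import Mathlib

set_option autoImplicit false

namespace Fermat.Agent.S55.LocUnr89

open Finset Polynomial

section Cyclic

variable {C : Type*} [CommGroup C] [Fintype C] [IsCyclic C]

/-- In a cyclic group of order `m * d`, an element killed by `d` is an `m`-th power. -/
theorem exists_pow_eq_of_pow_eq_one {m d : ℕ} (hcard : Fintype.card C = m * d) (hd : 0 < d)
    (c : C) (hc : c ^ d = 1) : ∃ x : C, x ^ m = c := by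
  obtain ⟨g, hg⟩ := IsCyclic.exists_generator (α := C)
  obtain ⟨j, rfl⟩ : ∃ j : ℕ, g ^ j = c := by
    obtain ⟨j, hj⟩ := (Subgroup.mem_zpowers_iff.1 (hg c))
    refine ⟨(j % (orderOf g : ℤ)).toNat, ?_⟩
    rw [← zpow_natCast, Int.toNat_of_nonneg (Int.emod_nonneg _ (by
      have := orderOf_pos g; omega)), zpow_mod_orderOf, hj]
  have hord : orderOf g = m * d := by
    rw [orderOf_eq_card_of_forall_mem_zpowers hg, Nat.card_eq_fintype_card, hcard]
  rw [← pow_mul] at hc
  have hdvd : m * d ∣ j * d := by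
    rw [← hord]; exact orderOf_dvd_of_pow_eq_one hc
  have hmj : m ∣ j := Nat.dvd_of_mul_dvd_mul_right hd hdvd
  obtain ⟨t, rfl⟩ := hmj
  exact ⟨g ^ t, by rw [← pow_mul, mul_comm]⟩

end Cyclic

variable {l : Type*} [Field l] [Fintype l]

/-- the norm `∏ i < n, x ^ Q ^ i` -/
def frobNorm (Q n : ℕ) (x : l) : l := ∏ i ∈ range n, x ^ Q ^ i

/-- the trace `∑ i < n, x ^ Q ^ i` -/
def frobTrace (Q n : ℕ) (x : l) : l := ∑ i ∈ range n, x ^ Q ^ i

/-- `∑ i < n, Q ^ i` -/
def geomSum (Q n : ℕ) : ℕ := ∑ i ∈ range n, Q ^ i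

theorem frobNorm_eq_pow (Q n : ℕ) (x : l) : frobNorm Q n x = x ^ geomSum Q n := by
  rw [frobNorm, geomSum, prod_pow_eq_pow_sum]

theorem geomSum_mul (Q n : ℕ) (hQ : 1 ≤ Q) : geomSum Q n * (Q - 1) = Q ^ n - 1 := by
  have h := Nat.geomSum_eq (m := Q) (n := n)
  rcases Nat.lt_or_ge Q 2 with h2 | h2
  · have hQ1 : Q = 1 := by omega
    subst hQ1; simp
  · rw [geomSum, Nat.geomSum_eq h2 n]
    exact Nat.div_mul_cancel (Nat.sub_one_dvd_pow_sub_one Q n)

variable {Q n : ℕ}

section Mult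

/-- **The norm is onto the fixed units.** -/
theorem exists_frobNorm_eq (hcard : Fintype.card l = Q ^ n) (hQ : 2 ≤ Q) (c : l) (hc0 : c ≠ 0)
    (hc : c ^ Q = c) : ∃ x : l, x ≠ 0 ∧ frobNorm Q n x = c := by
  classical
  have hcardU : Fintype.card lˣ = geomSum Q n * (Q - 1) := by
    rw [Fintype.card_units, hcard, geomSum_mul Q n (by omega)]
  have hcu : (Units.mk0 c hc0) ^ (Q - 1) = 1 := by
    apply Units.ext
    rw [Units.val_pow_eq_pow_val, Units.val_mk0, Units.val_one]
    have h1 : c ^ (Q - 1) * c = c := by rw [← pow_succ, Nat.sub_add_cancel (by omega), hc]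
    exact mul_right_cancel₀ hc0 (by rw [h1, one_mul])
  obtain ⟨x, hx⟩ := exists_pow_eq_of_pow_eq_one hcardU (by omega) (Units.mk0 c hc0) hcu
  refine ⟨(x : l), x.ne_zero, ?_⟩
  rw [frobNorm_eq_pow, ← Units.val_pow_eq_pow_val, hx, Units.val_mk0]

/-- **Multiplicative Hilbert 90.** -/
theorem exists_pow_div_of_frobNorm_eq_one (hcard : Fintype.card l = Q ^ n) (hQ : 2 ≤ Q)
    (hn : 0 < n) (x : l) (hx0 : x ≠ 0) (hx : frobNorm Q n x = 1) :
    ∃ y : l, y ≠ 0 ∧ x = y ^ Q / y := by
  classical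
  have hcardU : Fintype.card lˣ = (Q - 1) * geomSum Q n := by
    rw [Fintype.card_units, hcard, mul_comm, geomSum_mul Q n (by omega)]
  have hgpos : 0 < geomSum Q n := by
    rw [geomSum]
    exact sum_pos (fun i _ => pow_pos (by omega) i) (nonempty_range_iff.2 hn.ne')
  have hxu : (Units.mk0 x hx0) ^ geomSum Q n = 1 := by
    apply Units.ext
    rw [Units.val_pow_eq_pow_val, Units.val_mk0, Units.val_one, ← frobNorm_eq_pow, hx]
  obtain ⟨y, hy⟩ := exists_pow_eq_of_pow_eq_one hcardU hgpos (Units.mk0 x hx0) hxu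
  refine ⟨(y : l), y.ne_zero, ?_⟩
  have h1 : x = (y : l) ^ (Q - 1) := by
    rw [← Units.val_pow_eq_pow_val, hy, Units.val_mk0]
  rw [h1, eq_div_iff y.ne_zero, ← pow_succ, Nat.sub_add_cancel (by omega)]

end Mult

section Add

variable {p a : ℕ} [Fact p.Prime] [CharP l p]

omit [Fintype l] in
theorem add_pow_Q (hQp : Q = p ^ a) (x y : l) : (x + y) ^ Q = x ^ Q + y ^ Q := by
  rw [hQp]; exact add_pow_char_pow x y p a

omit [Fintype l] in
theorem add_pow_Q_pow (hQp : Q = p ^ a) (i : ℕ) (x y : l) :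
    (x + y) ^ Q ^ i = x ^ Q ^ i + y ^ Q ^ i := by
  rw [hQp, ← pow_mul]; exact add_pow_char_pow x y p (a * i)

omit [Fintype l] in
theorem sub_pow_Q_pow (hQp : Q = p ^ a) (i : ℕ) (x y : l) :
    (x - y) ^ Q ^ i = x ^ Q ^ i - y ^ Q ^ i := by
  rw [hQp, ← pow_mul]; exact sub_pow_char_pow x y (a * i)

omit [Fintype l] in
theorem frobTrace_add (hQp : Q = p ^ a) (x y : l) :
    frobTrace Q n (x + y) = frobTrace Q n x + frobTrace Q n y := by
  simp only [frobTrace, add_pow_Q_pow hQp, sum_add_distrib]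

omit [Fintype l] in
theorem frobTrace_sub (hQp : Q = p ^ a) (x y : l) :
    frobTrace Q n (x - y) = frobTrace Q n x - frobTrace Q n y := by
  simp only [frobTrace, sub_pow_Q_pow hQp, sum_sub_distrib]

omit [Fintype l] [Fact p.Prime] [CharP l p] in
theorem pow_Q_pow_of_fixed {c : l} (hc : c ^ Q = c) (i : ℕ) : c ^ Q ^ i = c := by
  induction i with
  | zero => simp
  | succ i ih => rw [pow_succ, pow_mul, ih, hc]

omit [Fintype l] [Fact p.Prime] [CharP l p] in
theorem frobTrace_mul_of_fixed {c : l} (hc : c ^ Q = c) (x : l) :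
    frobTrace Q n (c * x) = c * frobTrace Q n x := by
  simp only [frobTrace, mul_pow, pow_Q_pow_of_fixed hc, mul_sum]

omit [Fact p.Prime] [CharP l p] in
theorem pow_card_eq (hcard : Fintype.card l = Q ^ n) (x : l) : x ^ Q ^ n = x := by
  rw [← hcard]; exact FiniteField.pow_card x

/-- the trace of `x ^ Q - x` vanishes -/
theorem frobTrace_pow_sub (hcard : Fintype.card l = Q ^ n) (hQp : Q = p ^ a) (y : l) :
    frobTrace Q n (y ^ Q - y) = 0 := by
  rw [frobTrace_sub hQp]
  have h1 : frobTrace Q n (y ^ Q) = ∑ i ∈ range n, y ^ Q ^ (i + 1) := by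
    simp only [frobTrace, ← pow_mul, ← pow_succ']
  rw [h1, frobTrace, ← sum_sub_distrib, Finset.sum_range_sub (fun i => y ^ Q ^ i)]
  rw [pow_card_eq hcard, pow_zero, pow_one, sub_self]

/-- the trace is fixed by `x ↦ x ^ Q` -/
theorem frobTrace_pow (hcard : Fintype.card l = Q ^ n) (hQp : Q = p ^ a) (x : l) :
    frobTrace Q n x ^ Q = frobTrace Q n x := by
  have h := frobTrace_pow_sub hcard hQp x
  rw [frobTrace_sub hQp, sub_eq_zero] at h
  conv_rhs => rw [← h]
  -- `(Tr x)^Q = Tr (x^Q)`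
  simp only [frobTrace]
  have : ∀ (s : Finset ℕ) (f : ℕ → l), (∑ i ∈ s, f i) ^ Q = ∑ i ∈ s, f i ^ Q := by
    intro s f
    induction s using Finset.induction_on with
    | empty =>
      have hQ0 : Q ≠ 0 := by
        rw [hQp]; exact pow_ne_zero _ (Fact.out : p.Prime).ne_zero
      simp [hQ0]
    | insert i s hi ih => rw [sum_insert hi, sum_insert hi, add_pow_Q hQp, ih]
  rw [this]
  refine sum_congr rfl fun i _ => ?_
  rw [← pow_mul, ← pow_mul, mul_comm]

/-- the trace polynomial -/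
noncomputable def tracePoly (l : Type*) [Field l] (Q n : ℕ) : l[X] := ∑ i ∈ range n, X ^ Q ^ i

omit [Fintype l] [Fact p.Prime] [CharP l p] in
theorem eval_tracePoly (x : l) : (tracePoly l Q n).eval x = frobTrace Q n x := by
  simp only [tracePoly, frobTrace, eval_finsetSum, eval_pow, eval_X]

omit [Fintype l] [Fact p.Prime] [CharP l p] in
theorem natDegree_tracePoly_le (hQ : 2 ≤ Q) (hn : 0 < n) :
    (tracePoly l Q n).natDegree ≤ Q ^ (n - 1) := by
  rw [tracePoly]
  refine natDegree_sum_le_of_forall_le _ _ fun i hi => ?_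
  rw [natDegree_X_pow]
  exact Nat.pow_le_pow_right (by omega) (by have := mem_range.1 hi; omega)

omit [Fintype l] [Fact p.Prime] [CharP l p] in
theorem tracePoly_ne_zero (hQ : 2 ≤ Q) (hn : 0 < n) : tracePoly l Q n ≠ 0 := by
  intro h
  have hcoeff : (tracePoly l Q n).coeff 1 = 1 := by
    rw [tracePoly, finsetSum_coeff]
    rw [sum_eq_single 0]
    · simp
    · intro i _ hi0
      rw [coeff_X_pow, if_neg]
      have : 1 < Q ^ i := Nat.one_lt_pow hi0 (by omega)
      omega
    · intro h0; exact absurd (mem_range.2 hn) h0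
  rw [h, coeff_zero] at hcoeff
  exact zero_ne_one hcoeff

/-- number of zeros of the trace is at most `Q ^ (n - 1)` -/
theorem card_frobTrace_eq_zero_le (hQ : 2 ≤ Q) (hn : 0 < n) [DecidableEq l] :
    (univ.filter fun x : l => frobTrace Q n x = 0).card ≤ Q ^ (n - 1) := by
  refine (card_le_degree_of_subset_roots (p := tracePoly l Q n) ?_).trans
    (natDegree_tracePoly_le hQ hn)
  intro x hx
  rw [Finset.mem_val, mem_filter] at hx
  rw [mem_roots (tracePoly_ne_zero hQ hn), IsRoot.def, eval_tracePoly]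
  exact hx.2

/-- **The trace is onto the fixed field.** -/
theorem exists_frobTrace_eq (hcard : Fintype.card l = Q ^ n) (hQp : Q = p ^ a) (hQ : 2 ≤ Q)
    (hn : 0 < n) (c : l) (hc : c ^ Q = c) : ∃ x : l, frobTrace Q n x = c := by
  classical
  -- some element has nonzero trace
  have hex : ∃ x₀ : l, frobTrace Q n x₀ ≠ 0 := by
    by_contra h
    push Not at h
    have hall : (univ.filter fun x : l => frobTrace Q n x = 0) = univ := by
      ext x; simp [h x]
    have := card_frobTrace_eq_zero_le (l := l) hQ hn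
    rw [hall, card_univ, hcard] at this
    have hlt : Q ^ (n - 1) < Q ^ n := Nat.pow_lt_pow_right (by omega) (by omega)
    omega
  obtain ⟨x₀, hx₀⟩ := hex
  set t := frobTrace Q n x₀ with ht
  have htQ : t ^ Q = t := frobTrace_pow hcard hQp x₀
  have hfix : (c / t) ^ Q = c / t := by rw [div_pow, hc, htQ]
  refine ⟨c / t * x₀, ?_⟩
  rw [frobTrace_mul_of_fixed hfix, ← ht, div_mul_cancel₀ _ hx₀]

/-- number of fixed points of `x ↦ x ^ Q` is at most `Q` -/
theorem card_fixed_le (hQ : 2 ≤ Q) [DecidableEq l] :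
    (univ.filter fun x : l => x ^ Q = x).card ≤ Q := by
  have hne : (X ^ Q - X : l[X]) ≠ 0 := FiniteField.X_pow_card_sub_X_ne_zero l (by omega)
  have hdeg : (X ^ Q - X : l[X]).natDegree = Q :=
    FiniteField.X_pow_card_sub_X_natDegree_eq l (by omega)
  refine (card_le_degree_of_subset_roots (p := (X ^ Q - X : l[X])) ?_).trans hdeg.le
  intro x hx
  rw [Finset.mem_val, mem_filter] at hx
  rw [mem_roots hne, IsRoot.def, eval_sub, eval_pow, eval_X, hx.2, sub_self]

/-- **Additive Hilbert 90.** -/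
theorem exists_pow_sub_of_frobTrace_eq_zero (hcard : Fintype.card l = Q ^ n) (hQp : Q = p ^ a)
    (hQ : 2 ≤ Q) (hn : 0 < n) (x : l) (hx : frobTrace Q n x = 0) : ∃ y : l, x = y ^ Q - y := by
  classical
  -- the additive map `y ↦ y ^ Q - y`
  let ψ : l →+ l :=
    { toFun := fun y => y ^ Q - y
      map_zero' := by
        have hQ0 : Q ≠ 0 := by omega
        simp [hQ0]
      map_add' := fun y z => by rw [add_pow_Q hQp]; ring }
  -- its image lies in the kernel of the trace, which has at most `Q ^ (n-1)` elements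
  let Z : Finset l := univ.filter fun x : l => frobTrace Q n x = 0
  have himage : (univ.image ψ) ⊆ Z := by
    intro z hz
    obtain ⟨y, _, rfl⟩ := mem_image.1 hz
    exact mem_filter.2 ⟨mem_univ _, frobTrace_pow_sub hcard hQp y⟩
  -- fibres of `ψ` have at most `Q` elements
  have hfib : ∀ z ∈ univ.image ψ, (univ.filter fun y : l => ψ y = z).card ≤ Q := by
    intro z hz
    obtain ⟨y₀, _, rfl⟩ := mem_image.1 hz
    refine le_trans ?_ (card_fixed_le (l := l) hQ)
    refine card_le_card_of_injOn (fun y => y - y₀) ?_ ?_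
    · intro y hy
      have hy' : ψ y = ψ y₀ := (mem_filter.1 hy).2
      refine mem_filter.2 ⟨mem_univ _, ?_⟩
      have h1 : ψ (y - y₀) = 0 := by rw [map_sub, hy', sub_self]
      have h2 : (y - y₀) ^ Q - (y - y₀) = 0 := h1
      exact sub_eq_zero.1 h2
    · intro y _ y' _ h
      exact sub_left_injective h
  have hcount : Fintype.card l ≤ (univ.image ψ).card * Q := by
    rw [← card_univ, mul_comm]
    exact card_le_mul_card_image_of_maps_to (f := ψ) (fun y _ => mem_image_of_mem ψ (mem_univ y))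
      Q hfib
  have hZ : Z.card ≤ Q ^ (n - 1) := card_frobTrace_eq_zero_le hQ hn
  have himgcard : Q ^ (n - 1) ≤ (univ.image ψ).card := by
    rw [hcard] at hcount
    have hpow : Q ^ n = Q ^ (n - 1) * Q := by
      rw [← pow_succ, Nat.sub_add_cancel hn]
    rw [hpow] at hcount
    exact Nat.le_of_mul_le_mul_right hcount (by omega)
  have heq : univ.image ψ = Z :=
    eq_of_subset_of_card_le himage (hZ.trans himgcard)
  have hxZ : x ∈ Z := mem_filter.2 ⟨mem_univ _, hx⟩
  rw [← heq] at hxZ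
  obtain ⟨y, _, hy⟩ := mem_image.1 hxZ
  exact ⟨y, hy.symm⟩

end Add

end Fermat.Agent.S55.LocUnr89
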