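/-
# S55 / 13-LOC-UNR (helper89), file 2: the norm of an unramified extension is surjective on units

Model-independent core (Mathlib only).  `L` a field with a valuation `v`, `G` a finite group of
`v`-isometric field automorphisms of `L` (think `G = Gal(L/K)`, `K = L^G`), `π` a `G`-fixed
uniformizer (this is "unramified"), `L` complete, and the two residue-field facts
"norm and trace of the residue extension are surjective" (`resNorm`, `resTrace`).

* `UnrDatum.norm_units_surjective` : every `G`-fixed unit is the norm `∏ g, g • b` of a unit.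
* `UnrDatum.mem_norm_iff` : a `G`-fixed `a ≠ 0` is a norm from `Lˣ` iff `v a = v π ^ (|G| * k)`
  for some `k : ℤ`  (i.e. `Kˣ / N Lˣ ≅ ℤ/|G|` via the valuation: the local invariant of the
  unramified class).
-/
import Mathlib

set_option autoImplicit false

namespace Fermat.Agent.S55.LocUnr89

open Finset

variable {L : Type*} [Field L] {G : Type*} [Group G] [Fintype G] [MulSemiringAction G L]
  {Γ₀ : Type*} [LinearOrderedCommGroupWithZero Γ₀]

section Generalities

variable (v : Valuation L Γ₀)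

/-- `∏ (1 + x i) = 1 + ∑ x i + O(ρ²)` when all `v (x i) ≤ ρ ≤ 1`. -/
theorem val_prod_one_add_sub {ι : Type*} (s : Finset ι) (x : ι → L) {ρ : Γ₀} (hρ : ρ ≤ 1)
    (hx : ∀ i ∈ s, v (x i) ≤ ρ) :
    v (∏ i ∈ s, (1 + x i) - 1 - ∑ i ∈ s, x i) ≤ ρ * ρ := by
  classical
  induction s using Finset.induction_on with
  | empty => simp
  | insert a s ha ih =>
    have hxa : v (x a) ≤ ρ := hx a (mem_insert_self a s)
    have hxs : ∀ i ∈ s, v (x i) ≤ ρ := fun i hi => hx i (mem_insert_of_mem hi)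
    have ih' := ih hxs
    set E := ∏ i ∈ s, (1 + x i) - 1 - ∑ i ∈ s, x i with hE
    have hsum : v (∑ i ∈ s, x i) ≤ ρ := v.map_sum_le hxs
    rw [prod_insert ha, sum_insert ha]
    have hid : (1 + x a) * ∏ i ∈ s, (1 + x i) - 1 - (x a + ∑ i ∈ s, x i) =
        E + x a * (∑ i ∈ s, x i) + x a * E := by
      rw [hE]; ring
    rw [hid]
    have h1 : v (x a * ∑ i ∈ s, x i) ≤ ρ * ρ := by
      rw [map_mul]; exact mul_le_mul' hxa hsum
    have h2 : v (x a * E) ≤ ρ * ρ := by
      rw [map_mul]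
      calc v (x a) * v E ≤ ρ * (ρ * ρ) := mul_le_mul' hxa ih'
        _ ≤ ρ * ρ := by
          calc ρ * (ρ * ρ) = (ρ * ρ) * ρ := mul_comm _ _
            _ ≤ (ρ * ρ) * 1 := mul_le_mul' le_rfl hρ
            _ = ρ * ρ := mul_one _
    exact (v.map_add _ _).trans (max_le ((v.map_add _ _).trans (max_le ih' h1)) h2)

/-- products of integral elements which are termwise `ε`-close are `ε`-close. -/
theorem val_prod_sub_prod_le {ι : Type*} (s : Finset ι) (p q : ι → L) {ε : Γ₀}
    (hp : ∀ i ∈ s, v (p i) ≤ 1) (hq : ∀ i ∈ s, v (q i) ≤ 1)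
    (hpq : ∀ i ∈ s, v (p i - q i) ≤ ε) :
    v (∏ i ∈ s, p i - ∏ i ∈ s, q i) ≤ ε := by
  classical
  induction s using Finset.induction_on with
  | empty => simp
  | insert a s ha ih =>
    have ih' := ih (fun i hi => hp i (mem_insert_of_mem hi))
      (fun i hi => hq i (mem_insert_of_mem hi)) (fun i hi => hpq i (mem_insert_of_mem hi))
    rw [prod_insert ha, prod_insert ha]
    have hid : p a * ∏ i ∈ s, p i - q a * ∏ i ∈ s, q i =
        p a * (∏ i ∈ s, p i - ∏ i ∈ s, q i) + (p a - q a) * ∏ i ∈ s, q i := by ring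
    rw [hid]
    have hq' : v (∏ i ∈ s, q i) ≤ 1 := by
      rw [map_prod]
      exact prod_le_one' fun i hi => hq i (mem_insert_of_mem hi)
    refine (v.map_add _ _).trans (max_le ?_ ?_)
    · rw [map_mul]
      calc v (p a) * v (∏ i ∈ s, p i - ∏ i ∈ s, q i) ≤ 1 * ε :=
            mul_le_mul' (hp a (mem_insert_self a s)) ih'
        _ = ε := one_mul _
    · rw [map_mul]
      calc v (p a - q a) * v (∏ i ∈ s, q i) ≤ ε * 1 :=
            mul_le_mul' (hpq a (mem_insert_self a s)) hq'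
        _ = ε := mul_one _

end Generalities

section NormTrace

variable (G)

/-- the norm `∏ g, g • x` -/
def nm (x : L) : L := ∏ g : G, g • x

/-- the trace `∑ g, g • x` -/
def tr (x : L) : L := ∑ g : G, g • x

variable {G}

theorem nm_mul (x y : L) : nm G (x * y) = nm G x * nm G y := by
  simp only [nm, smul_mul', prod_mul_distrib]

theorem nm_one : nm G (1 : L) = 1 := by simp [nm]

theorem nm_ne_zero {x : L} (hx : x ≠ 0) : nm G x ≠ 0 := by
  rw [nm]
  exact prod_ne_zero_iff.2 fun g _ => (smul_ne_zero_iff_ne g).2 hx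

theorem nm_inv (x : L) : nm G x⁻¹ = (nm G x)⁻¹ := by
  simp only [nm, smul_inv'', prod_inv_distrib]

theorem nm_div (x y : L) : nm G (x / y) = nm G x / nm G y := by
  rw [div_eq_mul_inv, nm_mul, nm_inv, div_eq_mul_inv]

theorem nm_pow (x : L) (n : ℕ) : nm G (x ^ n) = nm G x ^ n := by
  simp only [nm, smul_pow', prod_pow]

theorem nm_zpow (x : L) (n : ℤ) : nm G (x ^ n) = nm G x ^ n := by
  cases n with
  | ofNat n => simp only [Int.ofNat_eq_natCast, zpow_natCast, nm_pow]
  | negSucc n => simp only [zpow_negSucc, nm_inv, nm_pow]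

theorem smul_nm (h : G) (x : L) : h • nm G x = nm G x := by
  rw [nm, Finset.smul_prod']
  simp only [smul_smul]
  exact Fintype.prod_equiv (Equiv.mulLeft h) _ _ fun g => rfl

theorem nm_of_fixed {x : L} (hx : ∀ g : G, g • x = x) : nm G x = x ^ Fintype.card G := by
  simp only [nm, hx, prod_const, card_univ]

end NormTrace

variable (G) in
/-- **Abstract unramified extension datum.** -/
structure UnrDatum (v : Valuation L Γ₀) where
  v_smul : ∀ (g : G) (x : L), v (g • x) = v x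
  π : L
  π_fixed : ∀ g : G, g • π = π
  π_lt : v π < 1
  π_ne : π ≠ 0
  unif : ∀ x : L, v x < 1 → v x ≤ v π
  sep : ∀ x : L, (∀ N : ℕ, v x ≤ v π ^ N) → x = 0
  complete : ∀ a : ℕ → L, (∀ n, v (a n) ≤ 1) →
    ∃ s : L, ∀ N : ℕ, v (s - ∑ n ∈ range N, a n * π ^ n) ≤ v π ^ N
  resNorm : ∀ a : L, (∀ g : G, g • a = a) → v a = 1 →
    ∃ b : L, v b = 1 ∧ v (nm G b - a) < 1
  resTrace : ∀ a : L, (∀ g : G, g • a = a) → v a ≤ 1 →
    ∃ b : L, v b ≤ 1 ∧ v (tr G b - a) < 1

namespace UnrDatum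

variable {v : Valuation L Γ₀} (D : UnrDatum G v)

include D

theorem val_nm (x : L) : v (nm G x) = v x ^ Fintype.card G := by
  simp only [nm, map_prod, D.v_smul, prod_const, card_univ]

theorem val_π_pos : 0 < v D.π := by
  rw [zero_lt_iff]
  exact (v.ne_zero_iff).2 D.π_ne

theorem val_π_pow_le_one (N : ℕ) : v D.π ^ N ≤ 1 := pow_le_one' D.π_lt.le N

theorem val_π_pow_succ_le (N : ℕ) : v D.π ^ (N + 1) ≤ v D.π ^ N := by
  rw [pow_succ]
  calc v D.π ^ N * v D.π ≤ v D.π ^ N * 1 := mul_le_mul' le_rfl D.π_lt.le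
    _ = v D.π ^ N := mul_one _

theorem val_π_pow_anti {M N : ℕ} (h : M ≤ N) : v D.π ^ N ≤ v D.π ^ M := by
  induction N, h using Nat.le_induction with
  | base => exact le_rfl
  | succ N _ ih => exact (D.val_π_pow_succ_le N).trans ih

/-- closeness of norms -/
theorem val_nm_sub_nm_le {x y : L} {ε : Γ₀} (hx : v x ≤ 1) (hy : v y ≤ 1) (hxy : v (x - y) ≤ ε) :
    v (nm G x - nm G y) ≤ ε := by
  refine val_prod_sub_prod_le v univ _ _ (fun g _ => by rw [D.v_smul]; exact hx)
    (fun g _ => by rw [D.v_smul]; exact hy) (fun g _ => ?_)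
  rw [← smul_sub, D.v_smul]
  exact hxy

/-- **One approximation step** at level `m ≥ 1`. -/
theorem exists_step (m : ℕ) (hm : 1 ≤ m) (a : L) (ha : ∀ g : G, g • a = a)
    (ham : v (a - 1) ≤ v D.π ^ m) :
    ∃ b : L, v b ≤ 1 ∧ v (nm G (1 + b * D.π ^ m) - a) ≤ v D.π ^ (m + 1) := by
  have hπm0 : D.π ^ m ≠ 0 := pow_ne_zero _ D.π_ne
  set c : L := (a - 1) / D.π ^ m with hc
  have hcfix : ∀ g : G, g • c = c := by
    intro g
    rw [hc, smul_div₀', smul_sub, ha g, smul_one, smul_pow', D.π_fixed]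
  have hcv : v c ≤ 1 := by
    rw [hc, map_div₀, map_pow]
    exact div_le_one_of_le₀ ham zero_le
  obtain ⟨b, hb, hbc⟩ := D.resTrace c hcfix hcv
  refine ⟨b, hb, ?_⟩
  have hbc' : v (tr G b - c) ≤ v D.π := D.unif _ hbc
  -- expand the norm
  have hnm : nm G (1 + b * D.π ^ m) = ∏ g : G, (1 + (g • b) * D.π ^ m) := by
    simp only [nm, smul_add, smul_one, smul_mul', smul_pow', D.π_fixed]
  have hρ : v D.π ^ m ≤ 1 := D.val_π_pow_le_one m
  have hx : ∀ g ∈ (univ : Finset G), v ((g • b) * D.π ^ m) ≤ v D.π ^ m := by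
    intro g _
    rw [map_mul, map_pow, D.v_smul]
    calc v b * v D.π ^ m ≤ 1 * v D.π ^ m := mul_le_mul' hb le_rfl
      _ = v D.π ^ m := one_mul _
  have hexp := val_prod_one_add_sub v univ (fun g : G => (g • b) * D.π ^ m) hρ hx
  have hsum : ∑ g : G, (g • b) * D.π ^ m = tr G b * D.π ^ m := by
    rw [tr, sum_mul]
  have ha' : a = 1 + c * D.π ^ m := by
    rw [hc, div_mul_cancel₀ _ hπm0]; ring
  have hid : nm G (1 + b * D.π ^ m) - a =
      (∏ g : G, (1 + (g • b) * D.π ^ m) - 1 - ∑ g : G, (g • b) * D.π ^ m) +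
        (tr G b - c) * D.π ^ m := by
    rw [hnm, hsum]
    conv_lhs => rw [ha']
    ring
  rw [hid]
  refine (v.map_add _ _).trans (max_le ?_ ?_)
  · refine hexp.trans ?_
    rw [← pow_add]
    exact D.val_π_pow_anti (by omega)
  · rw [map_mul, map_pow, pow_succ, mul_comm]
    exact mul_le_mul' le_rfl hbc'

omit [Group G] [Fintype G] [MulSemiringAction G L] D in
/-- a one-unit is a unit -/
theorem val_eq_one_of_sub_one_lt {x : L} (hx : v (x - 1) < 1) : v x = 1 := by
  have h : x = (x - 1) + 1 := by ring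
  rw [h]
  rw [v.map_add_eq_of_lt_right (by rwa [map_one])]
  exact map_one v

theorem val_one_add_mul_pow {b : L} (hb : v b ≤ 1) {m : ℕ} (hm : 1 ≤ m) :
    v (1 + b * D.π ^ m) = 1 := by
  apply val_eq_one_of_sub_one_lt
  rw [add_sub_cancel_left, map_mul, map_pow]
  calc v b * v D.π ^ m ≤ 1 * v D.π ^ m := mul_le_mul' hb le_rfl
    _ = v D.π ^ m := one_mul _
    _ ≤ v D.π ^ 1 := D.val_π_pow_anti hm
    _ = v D.π := pow_one _
    _ < 1 := D.π_lt

/-- **The norm is surjective on units** (`Ĥ⁰(G, U_L) = 0`). -/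
theorem norm_units_surjective (a : L) (ha : ∀ g : G, g • a = a) (hva : v a = 1) :
    ∃ b : L, v b = 1 ∧ nm G b = a := by
  classical
  have ha0 : a ≠ 0 := by
    intro h; rw [h, map_zero] at hva; exact zero_ne_one hva
  -- step 0
  obtain ⟨b₀, hb₀, hb₀a⟩ := D.resNorm a ha hva
  have hb₀0 : b₀ ≠ 0 := by
    intro h; rw [h, map_zero] at hb₀; exact zero_ne_one hb₀
  -- the step function
  have step : ∀ (m : ℕ) (P : L), 1 ≤ m → v P = 1 → v (nm G P - a) ≤ v D.π ^ m →
      ∃ b : L, v b ≤ 1 ∧ v (nm G (P * (1 + b * D.π ^ m)) - a) ≤ v D.π ^ (m + 1) := by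
    intro m P hm hP hPa
    have hP0 : P ≠ 0 := by
      intro h; rw [h, map_zero] at hP; exact zero_ne_one hP
    have hN0 : nm G P ≠ 0 := nm_ne_zero hP0
    have hvN : v (nm G P) = 1 := by rw [D.val_nm, hP, one_pow]
    set a' : L := a / nm G P with ha'
    have ha'fix : ∀ g : G, g • a' = a' := by
      intro g; rw [ha', smul_div₀', ha g, smul_nm]
    have ha'm : v (a' - 1) ≤ v D.π ^ m := by
      have : a' - 1 = (a - nm G P) / nm G P := by
        rw [ha', sub_div, div_self hN0]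
      rw [this, map_div₀, hvN, div_one, ← Valuation.map_neg, neg_sub]
      exact hPa
    obtain ⟨b, hb, hba⟩ := D.exists_step m hm a' ha'fix ha'm
    refine ⟨b, hb, ?_⟩
    have : nm G (P * (1 + b * D.π ^ m)) - a = nm G P * (nm G (1 + b * D.π ^ m) - a') := by
      rw [nm_mul, ha', mul_sub, mul_div_cancel₀ _ hN0]
    rw [this, map_mul, hvN, one_mul]
    exact hba
  choose! bf hbf hbf' using step
  -- the sequence of partial products `P m`, `m ≥ 1` (index shifted by one)
  let P : ℕ → L := fun n => Nat.rec b₀ (fun n Pn => Pn * (1 + bf (n + 1) Pn * D.π ^ (n + 1))) n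
  have hP0 : P 0 = b₀ := rfl
  have hPs : ∀ n, P (n + 1) = P n * (1 + bf (n + 1) (P n) * D.π ^ (n + 1)) := fun n => rfl
  have hPprop : ∀ n, v (P n) = 1 ∧ v (nm G (P n) - a) ≤ v D.π ^ (n + 1) := by
    intro n
    induction n with
    | zero =>
      refine ⟨hb₀, ?_⟩
      rw [hP0, zero_add, pow_one]
      exact D.unif _ hb₀a
    | succ n ih =>
      have h1 := hbf (n + 1) (P n) (by omega) ih.1 ih.2
      have h2 := hbf' (n + 1) (P n) (by omega) ih.1 ih.2
      refine ⟨?_, ?_⟩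
      · rw [hPs, map_mul, ih.1, one_mul]
        exact D.val_one_add_mul_pow h1 (by omega)
      · rw [hPs]; exact h2
  -- convergence of `P`
  let c : ℕ → L := fun n => if n = 0 then 0 else P (n - 1) * bf n (P (n - 1))
  have hc : ∀ n, v (c n) ≤ 1 := by
    intro n
    by_cases hn : n = 0
    · simp [c, hn]
    · simp only [c, hn, if_false]
      obtain ⟨k, rfl⟩ : ∃ k, n = k + 1 := ⟨n - 1, by omega⟩
      rw [Nat.add_sub_cancel, map_mul, (hPprop k).1, one_mul]
      exact hbf (k + 1) (P k) (by omega) (hPprop k).1 (hPprop k).2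
  have hcsum : ∀ N, ∑ n ∈ range (N + 1), c n * D.π ^ n = P N - P 0 := by
    intro N
    induction N with
    | zero => simp [c]
    | succ N ih =>
      rw [sum_range_succ, ih]
      have : c (N + 1) = P N * bf (N + 1) (P N) := by
        simp only [c, Nat.succ_ne_zero, if_false, Nat.add_sub_cancel]
      rw [this, hPs]; ring
  obtain ⟨s₀, hs₀⟩ := D.complete c hc
  set s : L := s₀ + P 0 with hs
  have hsP : ∀ N, v (s - P N) ≤ v D.π ^ (N + 1) := by
    intro N
    have := hs₀ (N + 1)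
    rw [hcsum] at this
    have h2 : s - P N = s₀ - (P N - P 0) := by rw [hs]; ring
    rw [h2]; exact this
  have hvs : v s = 1 := by
    have h1 : v (s - P 0) < 1 := by
      refine (hsP 0).trans_lt ?_
      rw [zero_add, pow_one]; exact D.π_lt
    have h2 : s = (s - P 0) + P 0 := by ring
    rw [h2, v.map_add_eq_of_lt_right (by rw [(hPprop 0).1]; exact h1)]
    exact (hPprop 0).1
  refine ⟨s, hvs, ?_⟩
  have hclose : ∀ N : ℕ, v (nm G s - a) ≤ v D.π ^ N := by
    intro N
    have h1 : v (nm G s - nm G (P N)) ≤ v D.π ^ (N + 1) :=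
      D.val_nm_sub_nm_le hvs.le (hPprop N).1.le (hsP N)
    have h2 : nm G s - a = (nm G s - nm G (P N)) + (nm G (P N) - a) := by ring
    rw [h2]
    exact ((v.map_add _ _).trans (max_le h1 (hPprop N).2)).trans (D.val_π_pow_succ_le N)
  have := D.sep _ hclose
  rwa [sub_eq_zero] at this

/-- the value group is generated by `v π` -/
theorem exists_val_eq_pow_of_le_one {x : L} (hx0 : x ≠ 0) (hx1 : v x ≤ 1) :
    ∃ k : ℕ, v x = v D.π ^ k := by
  classical
  have hex : ∃ N : ℕ, v D.π ^ N < v x := by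
    by_contra h
    push Not at h
    exact hx0 (D.sep x h)
  have hN := Nat.find_spec hex
  set N := Nat.find hex with hNdef
  have hN0 : N ≠ 0 := by
    intro h0
    rw [h0, pow_zero] at hN
    exact absurd hx1 (not_le.2 hN)
  obtain ⟨M, hM⟩ : ∃ M, N = M + 1 := ⟨N - 1, by omega⟩
  have hMnot : ¬ v D.π ^ M < v x := Nat.find_min hex (by omega)
  rw [not_lt] at hMnot
  refine ⟨M, le_antisymm hMnot ?_⟩
  by_contra hlt
  rw [not_le] at hlt
  -- `y = x / π^M` has `v π < v y < 1`
  have hπM0 : D.π ^ M ≠ 0 := pow_ne_zero _ D.π_ne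
  have hvπM : v (D.π ^ M) ≠ 0 := (v.ne_zero_iff).2 hπM0
  have hy1 : v (x / D.π ^ M) < 1 := by
    rw [map_div₀, div_lt_one₀ (zero_lt_iff.2 hvπM), map_pow]
    exact hlt
  have hy2 := D.unif _ hy1
  rw [map_div₀, div_le_iff₀ (zero_lt_iff.2 hvπM), map_pow, ← pow_succ', ← hM] at hy2
  exact absurd hN (not_lt.2 hy2)

theorem exists_val_eq_zpow {x : L} (hx0 : x ≠ 0) : ∃ k : ℤ, v x = v D.π ^ k := by
  rcases le_total (v x) 1 with h | h
  · obtain ⟨k, hk⟩ := D.exists_val_eq_pow_of_le_one hx0 h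
    exact ⟨k, by rw [hk, zpow_natCast]⟩
  · have hinv : v x⁻¹ ≤ 1 := by
      rw [map_inv₀]
      exact inv_le_one_of_one_le₀ h
    obtain ⟨k, hk⟩ := D.exists_val_eq_pow_of_le_one (inv_ne_zero hx0) hinv
    refine ⟨-k, ?_⟩
    rw [zpow_neg, zpow_natCast, ← hk, map_inv₀, inv_inv]

/-- **The norm group of an unramified extension**: a fixed `a ≠ 0` is a norm iff its valuation is a
`|G|`-th power of the valuation of the uniformizer. -/
theorem mem_norm_iff (a : L) (ha : ∀ g : G, g • a = a) (ha0 : a ≠ 0) :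
    (∃ b : L, b ≠ 0 ∧ nm G b = a) ↔
      ∃ k : ℤ, v a = v D.π ^ ((Fintype.card G : ℤ) * k) := by
  constructor
  · rintro ⟨b, hb0, rfl⟩
    -- `v b = v π ^ k` because `π` is a uniformizer
    obtain ⟨k, hk⟩ := D.exists_val_eq_zpow hb0
    refine ⟨k, ?_⟩
    rw [D.val_nm, hk, ← zpow_natCast, ← zpow_mul, mul_comm]
  · rintro ⟨k, hk⟩
    -- `a = N(π^k) * u`, `u` a fixed unit
    set u : L := a / nm G (D.π ^ k) with hu
    have hπk0 : D.π ^ k ≠ 0 := zpow_ne_zero _ D.π_ne
    have hN0 : nm G (D.π ^ k) ≠ 0 := nm_ne_zero hπk0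
    have hufix : ∀ g : G, g • u = u := by
      intro g; rw [hu, smul_div₀', ha g, smul_nm]
    have hNπ : nm G (D.π ^ k) = D.π ^ ((Fintype.card G : ℤ) * k) := by
      rw [nm_of_fixed (fun g => by rw [smul_zpow₀', D.π_fixed]), ← zpow_natCast, ← zpow_mul,
        mul_comm]
    have huv : v u = 1 := by
      rw [hu, map_div₀, hNπ, map_zpow₀, hk]
      exact div_self (zpow_ne_zero _ D.val_π_pos.ne')
    obtain ⟨b, hb, hbu⟩ := D.norm_units_surjective u hufix huv
    have hb0 : b ≠ 0 := by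
      intro h; rw [h, map_zero] at hb; exact zero_ne_one hb
    refine ⟨D.π ^ k * b, mul_ne_zero hπk0 hb0, ?_⟩
    rw [nm_mul, hbu, hu, mul_div_cancel₀ _ hN0]

end UnrDatum

end Fermat.Agent.S55.LocUnr89
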