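/-
# S55 / 13-LOC-UNR (helper89), file 4: Hilbert 90 for the units of an unramified extension

Mathlib + `LocUnr89/UnrNorm.lean`.  In the abstract setting of `UnrDatum` (a field `L` with a
valuation `v`, a finite group `G` of isometric automorphisms, a `G`-fixed uniformizer `π`,
completeness) let `σ : G` and assume the two "Hilbert 90 on the graded pieces" statements

* `resH90`    : `v a = 1`, `v (N a - 1) < 1`  ⟹ `a ≡ σ b / b  (mod π)` for a unit `b`;
* `resAddH90` : `v a ≤ 1`, `v (Tr a) < 1`     ⟹ `a ≡ σ b - b  (mod π)` for an integral `b`.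

Then every unit of norm one is of the form `σ w / w` for a unit `w`
(`Ĥ^{-1}(G, U_L) = H^1(G, U_L) = 0` for cyclic `G = ⟨σ⟩`): `UnrDatum.hilbert90_units`.
-/
import Fermat.Agent.S55.LocUnr89.UnrNorm

set_option autoImplicit false

namespace Fermat.Agent.S55.LocUnr89

open Finset

variable {L : Type*} [Field L] {G : Type*} [Group G] [Fintype G] [MulSemiringAction G L]
variable {Γ₀ : Type*} [LinearOrderedCommGroupWithZero Γ₀]

namespace UnrDatum

variable {v : Valuation L Γ₀} (D : UnrDatum G v)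

include D

/-- **Convergence of multiplicative approximations**: a sequence `P (n+1) = P n * (1 + b n π^(n+1))`
of units converges to a unit. -/
theorem exists_limit_of_steps (P b : ℕ → L) (hb : ∀ n, v (b n) ≤ 1) (hP0 : v (P 0) = 1)
    (hPs : ∀ n, P (n + 1) = P n * (1 + b n * D.π ^ (n + 1))) :
    (∀ n, v (P n) = 1) ∧ ∃ s : L, v s = 1 ∧ ∀ N, v (s - P N) ≤ v D.π ^ (N + 1) := by
  classical
  have hPv : ∀ n, v (P n) = 1 := by
    intro n
    induction n with
    | zero => exact hP0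
    | succ n ih =>
      rw [hPs, map_mul, ih, one_mul]
      exact D.val_one_add_mul_pow (hb n) (by omega)
  refine ⟨hPv, ?_⟩
  let c : ℕ → L := fun n => if n = 0 then 0 else P (n - 1) * b (n - 1)
  have hc : ∀ n, v (c n) ≤ 1 := by
    intro n
    by_cases hn : n = 0
    · simp [c, hn]
    · simp only [c, hn, if_false]
      rw [map_mul, hPv, one_mul]
      exact hb _
  have hcsum : ∀ N, ∑ n ∈ range (N + 1), c n * D.π ^ n = P N - P 0 := by
    intro N
    induction N with
    | zero => simp [c]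
    | succ N ih =>
      rw [sum_range_succ, ih]
      have : c (N + 1) = P N * b N := by
        simp only [c, Nat.succ_ne_zero, if_false, Nat.add_sub_cancel]
      rw [this, hPs]; ring
  obtain ⟨s₀, hs₀⟩ := D.complete c hc
  set s : L := s₀ + P 0 with hs
  have hsP : ∀ N, v (s - P N) ≤ v D.π ^ (N + 1) := by
    intro N
    have := hs₀ (N + 1)
    rw [hcsum] at this
    have h2 : s - P N = s₀ - (P N - P 0) := by rw [hs]; ring
    rw [h2]; exact this
  have hvs : v s = 1 := by
    have h1 : v (s - P 0) < 1 := by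
      refine (hsP 0).trans_lt ?_
      rw [zero_add, pow_one]; exact D.π_lt
    have h2 : s = (s - P 0) + P 0 := by ring
    rw [h2, v.map_add_eq_of_lt_right (by rw [hPv 0]; exact h1)]
    exact hPv 0
  exact ⟨s, hvs, hsP⟩

/-- the trace of the leading coefficient of a one-unit of norm one vanishes modulo `π`. -/
theorem val_tr_lt_of_nm_eq_one (m : ℕ) (hm : 1 ≤ m) (c : L) (hc : v c ≤ 1)
    (hN : nm G (1 + c * D.π ^ m) = 1) : v (tr G c) < 1 := by
  have hπm0 : D.π ^ m ≠ 0 := pow_ne_zero _ D.π_ne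
  have hnm : nm G (1 + c * D.π ^ m) = ∏ g : G, (1 + (g • c) * D.π ^ m) := by
    simp only [nm, smul_add, smul_one, smul_mul', smul_pow', D.π_fixed]
  have hρ : v D.π ^ m ≤ 1 := D.val_π_pow_le_one m
  have hx : ∀ g ∈ (univ : Finset G), v ((g • c) * D.π ^ m) ≤ v D.π ^ m := by
    intro g _
    rw [map_mul, map_pow, D.v_smul]
    calc v c * v D.π ^ m ≤ 1 * v D.π ^ m := mul_le_mul' hc le_rfl
      _ = v D.π ^ m := one_mul _
  have hexp := val_prod_one_add_sub v univ (fun g : G => (g • c) * D.π ^ m) hρ hx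
  have hsum : ∑ g : G, (g • c) * D.π ^ m = tr G c * D.π ^ m := by
    rw [tr, sum_mul]
  rw [← hnm, hN, sub_self, zero_sub, Valuation.map_neg, hsum, map_mul, map_pow] at hexp
  -- `v (tr c) * v π ^ m ≤ v π ^ m * v π ^ m`
  have hpos : 0 < v D.π ^ m := pow_pos D.val_π_pos m
  have h1 : v (tr G c) ≤ v D.π ^ m := by
    have := hexp
    rw [mul_comm (v D.π ^ m) (v D.π ^ m)] at this
    exact le_of_mul_le_mul_right this hpos
  calc v (tr G c) ≤ v D.π ^ m := h1
    _ ≤ v D.π ^ 1 := D.val_π_pow_anti hm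
    _ = v D.π := pow_one _
    _ < 1 := D.π_lt

/-- **One approximation step** for Hilbert 90 at level `m ≥ 1`. -/
theorem exists_step90 (σ : G)
    (resAddH90 : ∀ a : L, v a ≤ 1 → v (tr G a) < 1 →
      ∃ b : L, v b ≤ 1 ∧ v (a - (σ • b - b)) < 1)
    (m : ℕ) (hm : 1 ≤ m) (u : L) (hN : nm G u = 1) (hum : v (u - 1) ≤ v D.π ^ m) :
    ∃ b : L, v b ≤ 1 ∧
      v (u - σ • (1 + b * D.π ^ m) / (1 + b * D.π ^ m)) ≤ v D.π ^ (m + 1) := by
  have hπm0 : D.π ^ m ≠ 0 := pow_ne_zero _ D.π_ne
  set c : L := (u - 1) / D.π ^ m with hc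
  have hcv : v c ≤ 1 := by
    rw [hc, map_div₀, map_pow]
    exact div_le_one_of_le₀ hum zero_le
  have hu : u = 1 + c * D.π ^ m := by
    rw [hc, div_mul_cancel₀ _ hπm0]; ring
  have htr : v (tr G c) < 1 := D.val_tr_lt_of_nm_eq_one m hm c hcv (by rw [← hu]; exact hN)
  obtain ⟨b, hb, hbc⟩ := resAddH90 c hcv htr
  have hbc' : v (c - (σ • b - b)) ≤ v D.π := D.unif _ hbc
  refine ⟨b, hb, ?_⟩
  set t : L := 1 + b * D.π ^ m with ht
  have hvt : v t = 1 := D.val_one_add_mul_pow hb hm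
  have ht0 : t ≠ 0 := by
    intro h; rw [h, map_zero] at hvt; exact zero_ne_one hvt
  have hσt : σ • t = 1 + (σ • b) * D.π ^ m := by
    rw [ht, smul_add, smul_one, smul_mul', smul_pow', D.π_fixed]
  have hid : u - σ • t / t =
      ((c - (σ • b - b)) * D.π ^ m + c * b * (D.π ^ m * D.π ^ m)) / t := by
    rw [eq_div_iff ht0, sub_mul, div_mul_cancel₀ _ ht0, hσt]
    conv_lhs => rw [hu, ht]
    ring
  rw [hid, map_div₀, hvt, div_one]
  refine (v.map_add _ _).trans (max_le ?_ ?_)
  · rw [map_mul, map_pow, pow_succ, mul_comm]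
    exact mul_le_mul' le_rfl hbc'
  · rw [map_mul, map_mul, map_mul, map_pow]
    have h1 : v c * v b ≤ 1 := by
      calc v c * v b ≤ 1 * 1 := mul_le_mul' hcv hb
        _ = 1 := one_mul _
    calc v c * v b * (v D.π ^ m * v D.π ^ m) ≤ 1 * (v D.π ^ m * v D.π ^ m) :=
          mul_le_mul' h1 le_rfl
      _ = v D.π ^ (m + m) := by rw [one_mul, pow_add]
      _ ≤ v D.π ^ (m + 1) := D.val_π_pow_anti (by omega)

/-- `x ↦ σ x / x` is 1-Lipschitz on units. -/
theorem val_smul_div_sub_le (σ : G) {x y : L} {ε : Γ₀} (hx : v x = 1) (hy : v y = 1)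
    (hxy : v (x - y) ≤ ε) : v (σ • x / x - σ • y / y) ≤ ε := by
  have hx0 : x ≠ 0 := by
    intro h; rw [h, map_zero] at hx; exact zero_ne_one hx
  have hy0 : y ≠ 0 := by
    intro h; rw [h, map_zero] at hy; exact zero_ne_one hy
  have hid : σ • x / x - σ • y / y = (σ • (x - y) * y - σ • y * (x - y)) / (x * y) := by
    rw [smul_sub]
    field_simp
    ring
  rw [hid, map_div₀, map_mul, hx, hy, one_mul, div_one]
  refine (v.map_sub _ _).trans (max_le ?_ ?_)
  · rw [map_mul, D.v_smul, hy, mul_one]; exact hxy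
  · rw [map_mul, D.v_smul, hy, one_mul]; exact hxy

/-- **Hilbert 90 for the units of an unramified extension** (`H^1(G, U_L) = 0`, `G = ⟨σ⟩`). -/
theorem hilbert90_units (σ : G)
    (resH90 : ∀ a : L, v a = 1 → v (nm G a - 1) < 1 →
      ∃ b : L, v b = 1 ∧ v (a - σ • b / b) < 1)
    (resAddH90 : ∀ a : L, v a ≤ 1 → v (tr G a) < 1 →
      ∃ b : L, v b ≤ 1 ∧ v (a - (σ • b - b)) < 1)
    (u : L) (hu : v u = 1) (hN : nm G u = 1) :
    ∃ w : L, v w = 1 ∧ u = σ • w / w := by
  classical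
  have hu0 : u ≠ 0 := by
    intro h; rw [h, map_zero] at hu; exact zero_ne_one hu
  -- step 0
  obtain ⟨b₀, hb₀, hb₀u⟩ := resH90 u hu (by rw [hN, sub_self, map_zero]; exact zero_lt_one)
  -- norm of `σ w / w`
  have hnmdiv : ∀ w : L, w ≠ 0 → nm G (σ • w / w) = 1 := by
    intro w hw
    have h1 : nm G (σ • w) = nm G w := by
      simp only [nm, ← mul_smul]
      exact Fintype.prod_equiv (Equiv.mulRight σ) _ _ (fun g => rfl)
    rw [nm_div, h1, div_self (nm_ne_zero hw)]
  have hvdiv : ∀ w : L, v w = 1 → v (σ • w / w) = 1 := by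
    intro w hw; rw [map_div₀, D.v_smul, hw, div_one]
  -- the step function
  have step : ∀ (m : ℕ) (P : L), 1 ≤ m → v P = 1 → v (u - σ • P / P) ≤ v D.π ^ m →
      ∃ b : L, v b ≤ 1 ∧
        v (u - σ • (P * (1 + b * D.π ^ m)) / (P * (1 + b * D.π ^ m))) ≤ v D.π ^ (m + 1) := by
    intro m P hm hP hPu
    have hP0 : P ≠ 0 := by
      intro h; rw [h, map_zero] at hP; exact zero_ne_one hP
    set d : L := σ • P / P with hd
    have hd0 : d ≠ 0 := div_ne_zero (by
      intro h
      have := D.v_smul σ P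
      rw [h, map_zero, hP] at this
      exact zero_ne_one this) hP0
    have hvd : v d = 1 := hvdiv P hP
    set u' : L := u / d with hu'
    have hNu' : nm G u' = 1 := by rw [hu', nm_div, hN, hnmdiv P hP0, div_one]
    have hu'm : v (u' - 1) ≤ v D.π ^ m := by
      have : u' - 1 = (u - d) / d := by rw [hu', sub_div, div_self hd0]
      rw [this, map_div₀, hvd, div_one]; exact hPu
    obtain ⟨b, hb, hbu⟩ := D.exists_step90 σ resAddH90 m hm u' hNu' hu'm
    refine ⟨b, hb, ?_⟩
    set t : L := 1 + b * D.π ^ m with ht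
    have hvt : v t = 1 := D.val_one_add_mul_pow hb hm
    have ht0 : t ≠ 0 := by
      intro h; rw [h, map_zero] at hvt; exact zero_ne_one hvt
    have : u - σ • (P * t) / (P * t) = d * (u' - σ • t / t) := by
      rw [smul_mul', hu', hd, mul_sub, mul_div_cancel₀ _ hd0, mul_div_mul_comm]
    rw [this, map_mul, hvd, one_mul]
    exact hbu
  choose! bf hbf hbf' using step
  let P : ℕ → L := fun n => Nat.rec b₀ (fun n Pn => Pn * (1 + bf (n + 1) Pn * D.π ^ (n + 1))) n
  have hP0 : P 0 = b₀ := rfl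
  have hPs : ∀ n, P (n + 1) = P n * (1 + bf (n + 1) (P n) * D.π ^ (n + 1)) := fun n => rfl
  have hPprop : ∀ n, v (P n) = 1 ∧ v (u - σ • P n / P n) ≤ v D.π ^ (n + 1) := by
    intro n
    induction n with
    | zero =>
      refine ⟨hb₀, ?_⟩
      rw [hP0, zero_add, pow_one]
      exact D.unif _ hb₀u
    | succ n ih =>
      have h1 := hbf (n + 1) (P n) (by omega) ih.1 ih.2
      have h2 := hbf' (n + 1) (P n) (by omega) ih.1 ih.2
      refine ⟨?_, ?_⟩
      · rw [hPs, map_mul, ih.1, one_mul]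
        exact D.val_one_add_mul_pow h1 (by omega)
      · rw [hPs]; exact h2
  obtain ⟨-, s, hvs, hsP⟩ := D.exists_limit_of_steps P (fun n => bf (n + 1) (P n))
    (fun n => hbf (n + 1) (P n) (by omega) (hPprop n).1 (hPprop n).2) hb₀ hPs
  refine ⟨s, hvs, ?_⟩
  have hclose : ∀ N : ℕ, v (u - σ • s / s) ≤ v D.π ^ N := by
    intro N
    have h1 : v (σ • s / s - σ • P N / P N) ≤ v D.π ^ (N + 1) :=
      D.val_smul_div_sub_le σ hvs (hPprop N).1 (hsP N)
    have h2 : u - σ • s / s = (u - σ • P N / P N) - (σ • s / s - σ • P N / P N) := by ring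
    rw [h2]
    exact ((v.map_sub _ _).trans (max_le (hPprop N).2 h1)).trans (D.val_π_pow_succ_le N)
  have := D.sep _ hclose
  rwa [sub_eq_zero] at this

end UnrDatum

end Fermat.Agent.S55.LocUnr89
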