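/-
# S55 / 13-LOC-UNR (helper89), file 5: from a Frobenius congruence to the residue hypotheses

Mathlib + `LocUnr89/{UnrNorm,UnrH90,FinFrob}.lean`.  Setting: a field `L` with a valuation `v`,
a finite group `G` of isometric automorphisms generated by `σ`, and `Q ≥ 2` such that

* `frob` : `σ x ≡ x ^ Q (mod 𝔪)` for all integral `x`;
* `reps` : there are at least `Q ^ |G|` residue classes.

Then the residue field `k` of `v` has exactly `Q ^ |G|` elements, `σ` induces `y ↦ y ^ Q` on it, and
the four residue statements used by `UnrDatum.norm_units_surjective` / `UnrDatum.hilbert90_units`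
(`resNorm`, `resTrace`, `resH90`, `resAddH90`) follow from finite field theory (`FinFrob.lean`).
-/
import Fermat.Agent.S55.LocUnr89.UnrH90
import Fermat.Agent.S55.LocUnr89.FinFrob

set_option autoImplicit false

namespace Fermat.Agent.S55.LocUnr89

open Finset

section CyclicProd

variable {G : Type*} [Group G] [Fintype G]

/-- product over a cyclic group as a product over exponents -/
theorem prod_univ_eq_prod_range_pow {M : Type*} [CommMonoid M] (σ : G)
    (hσ : ∀ g : G, g ∈ Subgroup.zpowers σ) (f : G → M) :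
    ∏ g : G, f g = ∏ i ∈ range (Fintype.card G), f (σ ^ i) := by
  classical
  have hord : orderOf σ = Fintype.card G := by
    rw [orderOf_eq_card_of_forall_mem_zpowers hσ, Nat.card_eq_fintype_card]
  rw [← hord, ← IsCyclic.image_range_orderOf hσ, prod_image]
  intro i hi j hj hij
  exact pow_injOn_Iio_orderOf (by simpa using hi) (by simpa using hj) hij

/-- sum over a cyclic group as a sum over exponents -/
theorem sum_univ_eq_sum_range_pow {M : Type*} [AddCommMonoid M] (σ : G)
    (hσ : ∀ g : G, g ∈ Subgroup.zpowers σ) (f : G → M) :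
    ∑ g : G, f g = ∑ i ∈ range (Fintype.card G), f (σ ^ i) := by
  classical
  have hord : orderOf σ = Fintype.card G := by
    rw [orderOf_eq_card_of_forall_mem_zpowers hσ, Nat.card_eq_fintype_card]
  rw [← hord, ← IsCyclic.image_range_orderOf hσ, sum_image]
  intro i hi j hj hij
  exact pow_injOn_Iio_orderOf (by simpa using hi) (by simpa using hj) hij

end CyclicProd

section Reduction

variable {L : Type*} [Field L] {Γ₀ : Type*} [LinearOrderedCommGroupWithZero Γ₀]
variable (v : Valuation L Γ₀)

/-- the residue field of a valuation on a field -/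
abbrev ResField : Type _ := IsLocalRing.ResidueField v.valuationSubring

/-- reduction modulo the maximal ideal, extended by zero outside the integers -/
noncomputable def redL (x : L) : ResField v := by
  classical
  exact if h : v x ≤ 1 then IsLocalRing.residue v.valuationSubring ⟨x, h⟩ else 0

variable {v}

theorem redL_of_le {x : L} (h : v x ≤ 1) :
    redL v x = IsLocalRing.residue v.valuationSubring ⟨x, h⟩ := by
  classical
  rw [redL, dif_pos h]

theorem redL_coe (x : v.valuationSubring) :
    redL v (x : L) = IsLocalRing.residue v.valuationSubring x :=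
  redL_of_le x.2

theorem redL_surjective (y : ResField v) : ∃ x : L, v x ≤ 1 ∧ redL v x = y := by
  obtain ⟨x, rfl⟩ := IsLocalRing.residue_surjective y
  exact ⟨x, x.2, redL_coe x⟩

theorem redL_add {x y : L} (hx : v x ≤ 1) (hy : v y ≤ 1) :
    redL v (x + y) = redL v x + redL v y := by
  have := redL_coe (v := v) (⟨x, hx⟩ + ⟨y, hy⟩)
  rw [map_add] at this
  rw [redL_of_le hx, redL_of_le hy, ← this]; rfl

theorem redL_mul {x y : L} (hx : v x ≤ 1) (hy : v y ≤ 1) :
    redL v (x * y) = redL v x * redL v y := by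
  have := redL_coe (v := v) (⟨x, hx⟩ * ⟨y, hy⟩)
  rw [map_mul] at this
  rw [redL_of_le hx, redL_of_le hy, ← this]; rfl

theorem redL_one : redL v (1 : L) = 1 := by
  have := redL_coe (v := v) 1
  rw [map_one] at this
  exact this

theorem redL_zero : redL v (0 : L) = 0 := by
  have := redL_coe (v := v) 0
  rw [map_zero] at this
  exact this

theorem redL_neg {x : L} (hx : v x ≤ 1) : redL v (-x) = -redL v x := by
  have := redL_coe (v := v) (-⟨x, hx⟩)
  rw [map_neg] at this
  rw [redL_of_le hx, ← this]; rfl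

theorem redL_sub {x y : L} (hx : v x ≤ 1) (hy : v y ≤ 1) :
    redL v (x - y) = redL v x - redL v y := by
  rw [sub_eq_add_neg, redL_add hx (by rwa [Valuation.map_neg]), redL_neg hy, sub_eq_add_neg]

theorem redL_pow {x : L} (hx : v x ≤ 1) (n : ℕ) : redL v (x ^ n) = redL v x ^ n := by
  induction n with
  | zero => rw [pow_zero, pow_zero, redL_one]
  | succ n ih =>
    rw [pow_succ, pow_succ, redL_mul (by rw [map_pow]; exact pow_le_one' hx n) hx, ih]

theorem redL_prod {ι : Type*} (s : Finset ι) (f : ι → L) (hf : ∀ i ∈ s, v (f i) ≤ 1) :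
    redL v (∏ i ∈ s, f i) = ∏ i ∈ s, redL v (f i) := by
  classical
  induction s using Finset.induction_on with
  | empty => rw [prod_empty, prod_empty, redL_one]
  | insert a s ha ih =>
    have h1 : v (∏ i ∈ s, f i) ≤ 1 := by
      rw [map_prod]
      exact prod_le_one' fun i hi => hf i (mem_insert_of_mem hi)
    rw [prod_insert ha, prod_insert ha, redL_mul (hf a (mem_insert_self a s)) h1,
      ih fun i hi => hf i (mem_insert_of_mem hi)]

theorem redL_sum {ι : Type*} (s : Finset ι) (f : ι → L) (hf : ∀ i ∈ s, v (f i) ≤ 1) :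
    redL v (∑ i ∈ s, f i) = ∑ i ∈ s, redL v (f i) := by
  classical
  induction s using Finset.induction_on with
  | empty => rw [sum_empty, sum_empty, redL_zero]
  | insert a s ha ih =>
    have h1 : v (∑ i ∈ s, f i) ≤ 1 :=
      v.map_sum_le fun i hi => hf i (mem_insert_of_mem hi)
    rw [sum_insert ha, sum_insert ha, redL_add (hf a (mem_insert_self a s)) h1,
      ih fun i hi => hf i (mem_insert_of_mem hi)]

theorem redL_eq_zero_iff {x : L} (hx : v x ≤ 1) : redL v x = 0 ↔ v x < 1 := by
  rw [redL_of_le hx, IsLocalRing.residue_eq_zero_iff, ValuationSubring.valuation_lt_one_iff]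
  exact (v.isEquiv_valuation_valuationSubring.lt_one_iff_lt_one (x := x)).symm

theorem redL_eq_iff {x y : L} (hx : v x ≤ 1) (hy : v y ≤ 1) :
    redL v x = redL v y ↔ v (x - y) < 1 := by
  have hxy : v (x - y) ≤ 1 := (v.map_sub _ _).trans (max_le hx hy)
  rw [← redL_eq_zero_iff hxy, redL_sub hx hy, sub_eq_zero]

theorem redL_ne_zero_iff {x : L} (hx : v x ≤ 1) : redL v x ≠ 0 ↔ v x = 1 := by
  rw [Ne, redL_eq_zero_iff hx, not_lt]
  exact ⟨fun h => le_antisymm hx h, fun h => h.ge⟩

end Reduction

section Frob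

variable {L : Type*} [Field L] {G : Type*} [Group G] [Fintype G] [MulSemiringAction G L]
variable {Γ₀ : Type*} [LinearOrderedCommGroupWithZero Γ₀]

/-- **Frobenius datum**: `G = ⟨σ⟩` acts by isometries, `σ` is a `Q`-Frobenius modulo the maximal
ideal, and there are at least `Q ^ |G|` residue classes. -/
structure FrobDatum (v : Valuation L Γ₀) (σ : G) (Q : ℕ) : Prop where
  gen : ∀ g : G, g ∈ Subgroup.zpowers σ
  v_smul : ∀ (g : G) (x : L), v (g • x) = v x
  two_le : 2 ≤ Q
  frob : ∀ x : L, v x ≤ 1 → v (σ • x - x ^ Q) < 1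
  reps : ∃ T : Finset L, Q ^ Fintype.card G ≤ T.card ∧ (∀ t ∈ T, v t ≤ 1) ∧
    ∀ t ∈ T, ∀ t' ∈ T, v (t - t') < 1 → t = t'

namespace FrobDatum

variable {v : Valuation L Γ₀} {σ : G} {Q : ℕ} (F : FrobDatum v σ Q)

include F

theorem frob_pow (i : ℕ) {x : L} (hx : v x ≤ 1) : v (σ ^ i • x - x ^ Q ^ i) < 1 := by
  induction i with
  | zero => simp
  | succ i ih =>
    have hxi : v (x ^ Q ^ i) ≤ 1 := by rw [map_pow]; exact pow_le_one' hx _
    have hid : σ ^ (i + 1) • x - x ^ Q ^ (i + 1) =
        σ • (σ ^ i • x - x ^ Q ^ i) + (σ • (x ^ Q ^ i) - (x ^ Q ^ i) ^ Q) := by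
      rw [pow_succ' σ, mul_smul, smul_sub, pow_succ Q, pow_mul]; ring
    rw [hid]
    refine lt_of_le_of_lt (v.map_add _ _) (max_lt ?_ (F.frob _ hxi))
    rw [F.v_smul]; exact ih

theorem redL_smul_pow (i : ℕ) {x : L} (hx : v x ≤ 1) :
    redL v (σ ^ i • x) = redL v x ^ Q ^ i := by
  rw [← redL_pow hx]
  exact (redL_eq_iff (by rw [F.v_smul]; exact hx) (by rw [map_pow]; exact pow_le_one' hx _)).2
    (F.frob_pow i hx)

/-- every element of the residue field is fixed by `y ↦ y ^ Q ^ |G|` -/
theorem resField_pow_card (y : ResField v) : y ^ Q ^ Fintype.card G = y := by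
  obtain ⟨x, hx, rfl⟩ := redL_surjective y
  rw [← F.redL_smul_pow _ hx, pow_card_eq_one, one_smul]

theorem redL_nm {x : L} (hx : v x ≤ 1) :
    redL v (nm G x) = frobNorm Q (Fintype.card G) (redL v x) := by
  rw [nm, prod_univ_eq_prod_range_pow σ F.gen, frobNorm,
    redL_prod _ _ (fun i _ => by rw [F.v_smul]; exact hx)]
  exact prod_congr rfl fun i _ => F.redL_smul_pow i hx

theorem redL_tr {x : L} (hx : v x ≤ 1) :
    redL v (tr G x) = frobTrace Q (Fintype.card G) (redL v x) := by
  rw [tr, sum_univ_eq_sum_range_pow σ F.gen, frobTrace,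
    redL_sum _ _ (fun i _ => by rw [F.v_smul]; exact hx)]
  exact sum_congr rfl fun i _ => F.redL_smul_pow i hx

theorem val_nm_le {x : L} (hx : v x ≤ 1) : v (nm G x) ≤ 1 := by
  rw [nm, map_prod]
  exact prod_le_one' fun g _ => by rw [F.v_smul]; exact hx

theorem val_tr_le {x : L} (hx : v x ≤ 1) : v (tr G x) ≤ 1 :=
  v.map_sum_le fun g _ => by rw [F.v_smul]; exact hx

/-- the residue field is finite with exactly `Q ^ |G|` elements, and `Q` is a power of its
characteristic -/
theorem exists_fintype :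
    ∃ (_ : Fintype (ResField v)) (p a : ℕ) (_ : Fact p.Prime) (_ : CharP (ResField v) p),
      Fintype.card (ResField v) = Q ^ Fintype.card G ∧ Q = p ^ a := by
  classical
  set N : ℕ := Q ^ Fintype.card G with hN
  have hN2 : 2 ≤ N := by
    calc 2 ≤ Q := F.two_le
      _ = Q ^ 1 := (pow_one Q).symm
      _ ≤ Q ^ Fintype.card G := Nat.pow_le_pow_right (by have := F.two_le; omega) (Fintype.card_pos (α := G))
  -- finiteness: all elements are roots of `X ^ N - X`
  have hne : (Polynomial.X ^ N - Polynomial.X : Polynomial (ResField v)) ≠ 0 :=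
    FiniteField.X_pow_card_sub_X_ne_zero (ResField v) (by omega)
  have hdeg : (Polynomial.X ^ N - Polynomial.X : Polynomial (ResField v)).natDegree = N :=
    FiniteField.X_pow_card_sub_X_natDegree_eq (ResField v) (by omega)
  have hroot : ∀ y : ResField v,
      y ∈ (Polynomial.X ^ N - Polynomial.X : Polynomial (ResField v)).roots.toFinset := by
    intro y
    rw [Multiset.mem_toFinset, Polynomial.mem_roots hne, Polynomial.IsRoot.def,
      Polynomial.eval_sub, Polynomial.eval_pow, Polynomial.eval_X, F.resField_pow_card, sub_self]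
  letI : Fintype (ResField v) :=
    ⟨(Polynomial.X ^ N - Polynomial.X : Polynomial (ResField v)).roots.toFinset, hroot⟩
  have hle : Fintype.card (ResField v) ≤ N := by
    calc Fintype.card (ResField v)
        = (Polynomial.X ^ N - Polynomial.X : Polynomial (ResField v)).roots.toFinset.card := rfl
      _ ≤ Multiset.card (Polynomial.X ^ N - Polynomial.X : Polynomial (ResField v)).roots :=
        Multiset.toFinset_card_le _
      _ ≤ (Polynomial.X ^ N - Polynomial.X : Polynomial (ResField v)).natDegree :=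
        Polynomial.card_roots' _
      _ = N := hdeg
  -- lower bound from the representatives
  obtain ⟨T, hT, hT1, hTinj⟩ := F.reps
  have hge : N ≤ Fintype.card (ResField v) := by
    refine hT.trans ?_
    rw [← card_univ]
    refine card_le_card_of_injOn (redL v) (fun _ _ => mem_univ _) ?_
    intro t ht t' ht' h
    exact hTinj t ht t' ht' ((redL_eq_iff (hT1 t ht) (hT1 t' ht')).1 h)
  have hcard : Fintype.card (ResField v) = N := le_antisymm hle hge
  obtain ⟨p, hp⟩ := CharP.exists (ResField v)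
  have := hp
  obtain ⟨f, hpprime, hpf⟩ := FiniteField.card (ResField v) p
  have : Fact p.Prime := ⟨hpprime⟩
  have hdvd : Q ∣ p ^ (f : ℕ) := by
    rw [← hpf, hcard, hN]
    exact dvd_pow_self Q (Fintype.card_pos (α := G)).ne'
  obtain ⟨a, -, ha⟩ := (Nat.dvd_prime_pow hpprime).1 hdvd
  exact ⟨inferInstance, p, a, inferInstance, hp, hcard, ha⟩

/-- **Residue norm**: fixed units are norms modulo the maximal ideal. -/
theorem resNorm (a : L) (ha : ∀ g : G, g • a = a) (hva : v a = 1) :
    ∃ b : L, v b = 1 ∧ v (nm G b - a) < 1 := by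
  obtain ⟨_, p, e, _, _, hcard, hQp⟩ := F.exists_fintype
  have hfix : redL v a ^ Q = redL v a := by
    have := F.redL_smul_pow 1 hva.le
    rw [pow_one, pow_one, ha σ] at this
    exact this.symm
  obtain ⟨y, hy0, hy⟩ := exists_frobNorm_eq hcard F.two_le (redL v a)
    ((redL_ne_zero_iff hva.le).2 hva) hfix
  obtain ⟨b, hb, rfl⟩ := redL_surjective y
  refine ⟨b, (redL_ne_zero_iff hb).1 hy0, ?_⟩
  rw [← redL_eq_iff (F.val_nm_le hb) hva.le, F.redL_nm hb, hy]

/-- **Residue trace**: fixed integers are traces modulo the maximal ideal. -/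
theorem resTrace (a : L) (ha : ∀ g : G, g • a = a) (hva : v a ≤ 1) :
    ∃ b : L, v b ≤ 1 ∧ v (tr G b - a) < 1 := by
  obtain ⟨_, p, e, _, _, hcard, hQp⟩ := F.exists_fintype
  have hfix : redL v a ^ Q = redL v a := by
    have := F.redL_smul_pow 1 hva
    rw [pow_one, pow_one, ha σ] at this
    exact this.symm
  obtain ⟨y, hy⟩ := exists_frobTrace_eq hcard hQp F.two_le (Fintype.card_pos (α := G)) (redL v a) hfix
  obtain ⟨b, hb, rfl⟩ := redL_surjective y
  refine ⟨b, hb, ?_⟩
  rw [← redL_eq_iff (F.val_tr_le hb) hva, F.redL_tr hb, hy]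

/-- **Residue Hilbert 90**, multiplicative. -/
theorem resH90 (a : L) (hva : v a = 1) (hN : v (nm G a - 1) < 1) :
    ∃ b : L, v b = 1 ∧ v (a - σ • b / b) < 1 := by
  obtain ⟨_, p, e, _, _, hcard, hQp⟩ := F.exists_fintype
  have hnorm : frobNorm Q (Fintype.card G) (redL v a) = 1 := by
    rw [← F.redL_nm hva.le, ← redL_one (v := v)]
    exact (redL_eq_iff (F.val_nm_le hva.le) (by rw [map_one])).2 hN
  obtain ⟨y, hy0, hy⟩ := exists_pow_div_of_frobNorm_eq_one hcard F.two_le (Fintype.card_pos (α := G)) (redL v a)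
    ((redL_ne_zero_iff hva.le).2 hva) hnorm
  obtain ⟨b, hb, rfl⟩ := redL_surjective y
  have hvb : v b = 1 := (redL_ne_zero_iff hb).1 hy0
  have hb0 : b ≠ 0 := by
    intro h; rw [h, map_zero] at hvb; exact zero_ne_one hvb
  refine ⟨b, hvb, ?_⟩
  have hid : a - σ • b / b = (a * b - σ • b) / b := by
    rw [sub_div, mul_div_cancel_right₀ _ hb0]
  rw [hid, map_div₀, hvb, div_one]
  have hab : v (a * b) ≤ 1 := by rw [map_mul, hva, hvb, one_mul]
  have hσb : v (σ • b) ≤ 1 := by rw [F.v_smul]; exact hb
  rw [← redL_eq_iff hab hσb, redL_mul hva.le hb]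
  have := F.redL_smul_pow 1 hb
  rw [pow_one, pow_one] at this
  rw [this, hy, div_mul_cancel₀ _ hy0]

/-- **Residue Hilbert 90**, additive. -/
theorem resAddH90 (a : L) (hva : v a ≤ 1) (hT : v (tr G a) < 1) :
    ∃ b : L, v b ≤ 1 ∧ v (a - (σ • b - b)) < 1 := by
  obtain ⟨_, p, e, _, _, hcard, hQp⟩ := F.exists_fintype
  have htrace : frobTrace Q (Fintype.card G) (redL v a) = 0 := by
    rw [← F.redL_tr hva]
    exact (redL_eq_zero_iff (F.val_tr_le hva)).2 hT
  obtain ⟨y, hy⟩ := exists_pow_sub_of_frobTrace_eq_zero hcard hQp F.two_le (Fintype.card_pos (α := G)) (redL v a)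
    htrace
  obtain ⟨b, hb, rfl⟩ := redL_surjective y
  refine ⟨b, hb, ?_⟩
  have hσb : v (σ • b) ≤ 1 := by rw [F.v_smul]; exact hb
  have hsub : v (σ • b - b) ≤ 1 := (v.map_sub _ _).trans (max_le hσb hb)
  rw [← redL_eq_iff hva hsub, redL_sub hσb hb]
  have := F.redL_smul_pow 1 hb
  rw [pow_one, pow_one] at this
  rw [this, hy]

/-- a Frobenius datum together with a fixed uniformizer and completeness is an unramified
datum -/
def toUnrDatum (π : L) (π_fixed : ∀ g : G, g • π = π) (π_lt : v π < 1) (π_ne : π ≠ 0)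
    (unif : ∀ x : L, v x < 1 → v x ≤ v π)
    (sep : ∀ x : L, (∀ N : ℕ, v x ≤ v π ^ N) → x = 0)
    (complete : ∀ a : ℕ → L, (∀ n, v (a n) ≤ 1) →
      ∃ s : L, ∀ N : ℕ, v (s - ∑ n ∈ range N, a n * π ^ n) ≤ v π ^ N) : UnrDatum G v where
  v_smul := F.v_smul
  π := π
  π_fixed := π_fixed
  π_lt := π_lt
  π_ne := π_ne
  unif := unif
  sep := sep
  complete := complete
  resNorm := F.resNorm
  resTrace := F.resTrace

end FrobDatum

end Frob

end Fermat.Agent.S55.LocUnr89
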