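/-
# S55 / 13-LOC-UNR (helper89), file 6: the unramified theorems for a single Frobenius automorphism

Mathlib + `LocUnr89/UnrFrob.lean`.  Group-free packaging: a field `L` with a valuation `v`, ONE ring
automorphism `τ : L ≃+* L` of exact order `n`, isometric, with `τ x ≡ x ^ Q (mod 𝔪)` on integers,
at least `Q ^ n` residue classes, a `τ`-fixed uniformizer `π`, completeness.  With
`N x = ∏ i < n, τ^i x`:

* `CycDatum.norm_units_surjective` : fixed units are norms of units;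
* `CycDatum.mem_norm_iff`          : a fixed `a ≠ 0` is a norm iff `v a ∈ (v π)^(n ℤ)`;
* `CycDatum.hilbert90_units`       : a unit of norm `1` is `τ w / w` for a unit `w`.
-/
import Fermat.Agent.S55.LocUnr89.UnrFrob

set_option autoImplicit false
set_option linter.style.haveILetI false
set_option warn.classDefReducibility false

namespace Fermat.Agent.S55.LocUnr89

open Finset

variable {L : Type*} [Field L] {Γ₀ : Type*} [LinearOrderedCommGroupWithZero Γ₀]

/-- **Cyclic unramified datum** for one automorphism `τ` of exact order `n`. -/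
structure CycDatum (v : Valuation L Γ₀) (τ : L ≃+* L) (n Q : ℕ) (π : L) : Prop where
  n_pos : 0 < n
  order : ∀ i : ℕ, (∀ x : L, (τ ^ i) x = x) ↔ n ∣ i
  v_τ : ∀ x : L, v (τ x) = v x
  two_le : 2 ≤ Q
  frob : ∀ x : L, v x ≤ 1 → v (τ x - x ^ Q) < 1
  reps : ∃ T : Finset L, Q ^ n ≤ T.card ∧ (∀ t ∈ T, v t ≤ 1) ∧
    ∀ t ∈ T, ∀ t' ∈ T, v (t - t') < 1 → t = t'
  π_fixed : τ π = π
  π_lt : v π < 1
  π_ne : π ≠ 0
  unif : ∀ x : L, v x < 1 → v x ≤ v π
  sep : ∀ x : L, (∀ N : ℕ, v x ≤ v π ^ N) → x = 0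
  complete : ∀ a : ℕ → L, (∀ k, v (a k) ≤ 1) →
    ∃ s : L, ∀ N : ℕ, v (s - ∑ k ∈ range N, a k * π ^ k) ≤ v π ^ N

namespace CycDatum

variable {v : Valuation L Γ₀} {τ : L ≃+* L} {n Q : ℕ} {π : L} (C : CycDatum v τ n Q π)

include C

theorem orderOf_eq : orderOf τ = n := by
  have h1 : τ ^ n = 1 := by
    ext x; exact (C.order n).2 dvd_rfl x
  have h2 : n ∣ orderOf τ := by
    refine (C.order _).1 fun x => ?_
    rw [pow_orderOf_eq_one]; rfl
  exact Nat.dvd_antisymm (orderOf_dvd_of_pow_eq_one h1) h2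

theorem finite_zpowers : Finite (Subgroup.zpowers τ) := by
  refine Nat.finite_of_card_ne_zero ?_
  rw [Nat.card_zpowers, C.orderOf_eq]
  exact C.n_pos.ne'

/-- the `Fintype` structure on `⟨τ⟩` -/
noncomputable def fintypeZPowers : Fintype (Subgroup.zpowers τ) :=
  haveI := C.finite_zpowers
  Fintype.ofFinite _

theorem card_zpowers :
    @Fintype.card (Subgroup.zpowers τ) C.fintypeZPowers = n := by
  letI := C.fintypeZPowers
  rw [Fintype.card_eq_nat_card, Nat.card_zpowers, C.orderOf_eq]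

/-- the generator of `⟨τ⟩` -/
def gen : Subgroup.zpowers τ := ⟨τ, Subgroup.mem_zpowers τ⟩

omit C in
theorem gen_pow_smul (i : ℕ) (x : L) : (gen (τ := τ)) ^ i • x = (τ ^ i) x := rfl

omit C in
theorem zpowers_smul_eq_of_fixed {a : L} (ha : τ a = a) (g : Subgroup.zpowers τ) : g • a = a := by
  obtain ⟨g, hg⟩ := g
  obtain ⟨k, rfl⟩ := Subgroup.mem_zpowers_iff.1 hg
  show (τ ^ k) a = a
  have hpow : ∀ i : ℕ, (τ ^ i) a = a := by
    intro i
    induction i with
    | zero => rfl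
    | succ i ih =>
      rw [pow_succ]
      show (τ ^ i) (τ a) = a
      rw [ha, ih]
  have hinv : ∀ i : ℕ, ((τ ^ i)⁻¹) a = a := by
    intro i
    have h := hpow i
    calc ((τ ^ i)⁻¹) a = ((τ ^ i)⁻¹) ((τ ^ i) a) := by rw [h]
      _ = ((τ ^ i)⁻¹ * τ ^ i) a := rfl
      _ = a := by rw [inv_mul_cancel]; rfl
  rcases k with k | k
  · rw [Int.ofNat_eq_natCast, zpow_natCast]; exact hpow k
  · rw [zpow_negSucc]; exact hinv (k + 1)

theorem v_zpowers_smul (g : Subgroup.zpowers τ) (x : L) : v (g • x) = v x := by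
  obtain ⟨g, hg⟩ := g
  obtain ⟨k, rfl⟩ := Subgroup.mem_zpowers_iff.1 hg
  show v ((τ ^ k) x) = v x
  have hpow : ∀ (i : ℕ) (y : L), v ((τ ^ i) y) = v y := by
    intro i
    induction i with
    | zero => intro y; rfl
    | succ i ih =>
      intro y
      rw [pow_succ]
      show v ((τ ^ i) (τ y)) = v y
      rw [ih, C.v_τ]
  have hinv : ∀ (i : ℕ) (y : L), v (((τ ^ i)⁻¹) y) = v y := by
    intro i y
    have h := hpow i (((τ ^ i)⁻¹) y)
    have e : (τ ^ i) (((τ ^ i)⁻¹) y) = y := by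
      show (τ ^ i * (τ ^ i)⁻¹) y = y
      rw [mul_inv_cancel]; rfl
    rw [e] at h
    exact h.symm
  rcases k with k | k
  · rw [Int.ofNat_eq_natCast, zpow_natCast]; exact hpow k x
  · rw [zpow_negSucc]; exact hinv (k + 1) x

/-- the Frobenius datum of `⟨τ⟩` -/
theorem frobDatum :
    @FrobDatum L _ (Subgroup.zpowers τ) _ C.fintypeZPowers _ Γ₀ _ v (gen (τ := τ)) Q := by
  letI := C.fintypeZPowers
  refine
    { gen := ?_
      v_smul := C.v_zpowers_smul
      two_le := C.two_le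
      frob := C.frob
      reps := by rw [C.card_zpowers]; exact C.reps }
  rintro ⟨g, hg⟩
  obtain ⟨k, rfl⟩ := Subgroup.mem_zpowers_iff.1 hg
  refine Subgroup.mem_zpowers_iff.2 ⟨k, ?_⟩
  apply Subtype.ext
  rw [Subgroup.coe_zpow]; rfl

/-- the unramified datum of `⟨τ⟩` -/
noncomputable def unrDatum :
    @UnrDatum L _ (Subgroup.zpowers τ) _ C.fintypeZPowers _ Γ₀ _ v :=
  letI := C.fintypeZPowers
  C.frobDatum.toUnrDatum π (zpowers_smul_eq_of_fixed C.π_fixed) C.π_lt C.π_ne C.unif C.sep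
    C.complete

theorem unrDatum_π : (@UnrDatum.π L _ (Subgroup.zpowers τ) _ C.fintypeZPowers _ Γ₀ _ v
    C.unrDatum) = π := rfl

theorem nm_eq (x : L) :
    @nm L _ (Subgroup.zpowers τ) _ C.fintypeZPowers _ x = ∏ i ∈ range n, (τ ^ i) x := by
  letI := C.fintypeZPowers
  rw [nm, prod_univ_eq_prod_range_pow (gen (τ := τ)) C.frobDatum.gen, C.card_zpowers]
  rfl

/-- **Fixed units are norms of units.** -/
theorem norm_units_surjective (a : L) (ha : τ a = a) (hva : v a = 1) :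
    ∃ b : L, v b = 1 ∧ ∏ i ∈ range n, (τ ^ i) b = a := by
  letI := C.fintypeZPowers
  obtain ⟨b, hb, hba⟩ := C.unrDatum.norm_units_surjective a (zpowers_smul_eq_of_fixed ha) hva
  exact ⟨b, hb, by rw [← C.nm_eq]; exact hba⟩

/-- **The norm group**: a fixed `a ≠ 0` is a norm iff `v a` is an `n`-th power of `v π`. -/
theorem mem_norm_iff (a : L) (ha : τ a = a) (ha0 : a ≠ 0) :
    (∃ b : L, b ≠ 0 ∧ ∏ i ∈ range n, (τ ^ i) b = a) ↔ ∃ k : ℤ, v a = v π ^ ((n : ℤ) * k) := by
  letI := C.fintypeZPowers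
  have h := C.unrDatum.mem_norm_iff a (zpowers_smul_eq_of_fixed ha) ha0
  rw [C.card_zpowers, C.unrDatum_π] at h
  rw [← h]
  constructor
  · rintro ⟨b, hb, hba⟩; exact ⟨b, hb, by rw [C.nm_eq]; exact hba⟩
  · rintro ⟨b, hb, hba⟩; exact ⟨b, hb, by rw [← C.nm_eq]; exact hba⟩

/-- **Hilbert 90 for units**: a unit of norm one is `τ w / w` for a unit `w`. -/
theorem hilbert90_units (u : L) (hu : v u = 1) (hN : ∏ i ∈ range n, (τ ^ i) u = 1) :
    ∃ w : L, v w = 1 ∧ u = τ w / w := by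
  letI := C.fintypeZPowers
  exact C.unrDatum.hilbert90_units (gen (τ := τ)) C.frobDatum.resH90 C.frobDatum.resAddH90 u hu
    (by rw [C.nm_eq]; exact hN)

end CycDatum

end Fermat.Agent.S55.LocUnr89
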