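/-
# S55 / 13-LOC-UNR (helper89), file 7: the unramified theorems for complete ultrametric normed fields

Mathlib + `LocUnr89/UnrCyclic.lean`.  `F` a complete ultrametric normed field, `τ : F ≃+* F` an
isometric automorphism of exact order `n` with `‖τ x - x ^ Q‖ < 1` on the unit ball, at least `Q ^ n`
residue classes, and a `τ`-fixed uniformizer `π`.  Everything is stated with the norm; the
valuation used internally is `NormedField.valuation`.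
-/
import Fermat.Agent.S55.LocUnr89.UnrCyclic

set_option autoImplicit false

namespace Fermat.Agent.S55.LocUnr89

open Finset Filter Topology

variable {F : Type*} [NormedField F] [IsUltrametricDist F]

section NV

theorem nv_coe (x : F) : ((NormedField.valuation x : NNReal) : ℝ) = ‖x‖ := by
  rw [NormedField.valuation_apply]; rfl

theorem nv_le_one {x : F} : NormedField.valuation x ≤ 1 ↔ ‖x‖ ≤ 1 := by
  rw [← NNReal.coe_le_coe, nv_coe, NNReal.coe_one]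

theorem nv_lt_one {x : F} : NormedField.valuation x < 1 ↔ ‖x‖ < 1 := by
  rw [← NNReal.coe_lt_coe, nv_coe, NNReal.coe_one]

theorem nv_eq_one {x : F} : NormedField.valuation x = 1 ↔ ‖x‖ = 1 := by
  rw [← NNReal.coe_inj, nv_coe, NNReal.coe_one]

theorem nv_le {x y : F} : NormedField.valuation x ≤ NormedField.valuation y ↔ ‖x‖ ≤ ‖y‖ := by
  rw [← NNReal.coe_le_coe, nv_coe, nv_coe]

theorem nv_le_pow {x y : F} {N : ℕ} :
    NormedField.valuation x ≤ NormedField.valuation y ^ N ↔ ‖x‖ ≤ ‖y‖ ^ N := by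
  rw [← NNReal.coe_le_coe, NNReal.coe_pow, nv_coe, nv_coe]

theorem nv_eq_zpow {x y : F} {k : ℤ} :
    NormedField.valuation x = NormedField.valuation y ^ k ↔ ‖x‖ = ‖y‖ ^ k := by
  rw [← NNReal.coe_inj, NNReal.coe_zpow, nv_coe, nv_coe]

theorem nv_sep (π : F) (hπ : ‖π‖ < 1) (x : F) (h : ∀ N : ℕ, ‖x‖ ≤ ‖π‖ ^ N) : x = 0 := by
  have h1 : Tendsto (fun N : ℕ => ‖π‖ ^ N) atTop (𝓝 0) :=
    tendsto_pow_atTop_nhds_zero_of_lt_one (norm_nonneg _) hπ
  have h2 : ‖x‖ ≤ 0 := ge_of_tendsto' h1 h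
  exact norm_le_zero_iff.1 h2

theorem nv_complete [CompleteSpace F] (π : F) (hπ : ‖π‖ < 1) (a : ℕ → F) (ha : ∀ k, ‖a k‖ ≤ 1) :
    ∃ s : F, ∀ N : ℕ, ‖s - ∑ k ∈ range N, a k * π ^ k‖ ≤ ‖π‖ ^ N := by
  have hterm : ∀ k, ‖a k * π ^ k‖ ≤ ‖π‖ ^ k := by
    intro k
    rw [norm_mul, norm_pow]
    exact mul_le_of_le_one_left (pow_nonneg (norm_nonneg _) _) (ha k)
  have hsum : Summable (fun k => a k * π ^ k) :=
    Summable.of_norm_bounded (summable_geometric_of_lt_one (norm_nonneg π) hπ) hterm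
  refine ⟨∑' k, a k * π ^ k, fun N => ?_⟩
  have htend : Tendsto (fun M => ∑ k ∈ range M, a k * π ^ k) atTop (𝓝 (∑' k, a k * π ^ k)) :=
    hsum.hasSum.tendsto_sum_nat
  have htend' : Tendsto (fun M => ‖∑ k ∈ range M, a k * π ^ k - ∑ k ∈ range N, a k * π ^ k‖) atTop
      (𝓝 ‖∑' k, a k * π ^ k - ∑ k ∈ range N, a k * π ^ k‖) :=
    (htend.sub_const _).norm
  refine le_of_tendsto htend' ?_
  filter_upwards [eventually_ge_atTop N] with M hM
  rw [← sum_Ico_eq_sub _ hM]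
  refine IsUltrametricDist.norm_sum_le_of_forall_le_of_nonneg (pow_nonneg (norm_nonneg _) _) ?_
  intro k hk
  refine (hterm k).trans ?_
  exact pow_le_pow_of_le_one (norm_nonneg _) hπ.le (mem_Ico.1 hk).1

end NV

/-- **Cyclic unramified datum, normed form.** -/
structure NormedCycDatum (τ : F ≃+* F) (n Q : ℕ) (π : F) : Prop where
  n_pos : 0 < n
  order : ∀ i : ℕ, (∀ x : F, (τ ^ i) x = x) ↔ n ∣ i
  norm_τ : ∀ x : F, ‖τ x‖ = ‖x‖
  two_le : 2 ≤ Q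
  frob : ∀ x : F, ‖x‖ ≤ 1 → ‖τ x - x ^ Q‖ < 1
  reps : ∃ T : Finset F, Q ^ n ≤ T.card ∧ (∀ t ∈ T, ‖t‖ ≤ 1) ∧
    ∀ t ∈ T, ∀ t' ∈ T, ‖t - t'‖ < 1 → t = t'
  π_fixed : τ π = π
  π_lt : ‖π‖ < 1
  π_ne : π ≠ 0
  unif : ∀ x : F, ‖x‖ < 1 → ‖x‖ ≤ ‖π‖

namespace NormedCycDatum

variable {τ : F ≃+* F} {n Q : ℕ} {π : F} [CompleteSpace F] (C : NormedCycDatum τ n Q π)

include C

theorem cycDatum : CycDatum (NormedField.valuation (K := F)) τ n Q π where
  n_pos := C.n_pos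
  order := C.order
  v_τ x := by
    rw [← NNReal.coe_inj, nv_coe, nv_coe]; exact C.norm_τ x
  two_le := C.two_le
  frob x hx := nv_lt_one.2 (C.frob x (nv_le_one.1 hx))
  reps := by
    obtain ⟨T, hT, hT1, hT2⟩ := C.reps
    exact ⟨T, hT, fun t ht => nv_le_one.2 (hT1 t ht),
      fun t ht t' ht' h => hT2 t ht t' ht' (nv_lt_one.1 h)⟩
  π_fixed := C.π_fixed
  π_lt := nv_lt_one.2 C.π_lt
  π_ne := C.π_ne
  unif x hx := nv_le.2 (C.unif x (nv_lt_one.1 hx))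
  sep x hx := nv_sep π C.π_lt x fun N => nv_le_pow.1 (hx N)
  complete a ha := by
    obtain ⟨s, hs⟩ := nv_complete π C.π_lt a fun k => nv_le_one.1 (ha k)
    exact ⟨s, fun N => nv_le_pow.2 (hs N)⟩

/-- **Fixed units are norms of units.** -/
theorem norm_units_surjective (a : F) (ha : τ a = a) (hva : ‖a‖ = 1) :
    ∃ b : F, ‖b‖ = 1 ∧ ∏ i ∈ range n, (τ ^ i) b = a := by
  obtain ⟨b, hb, hba⟩ := C.cycDatum.norm_units_surjective a ha (nv_eq_one.2 hva)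
  exact ⟨b, nv_eq_one.1 hb, hba⟩

/-- **The norm group**: a fixed `a ≠ 0` is a norm iff `‖a‖ ∈ ‖π‖ ^ (n ℤ)`. -/
theorem mem_norm_iff (a : F) (ha : τ a = a) (ha0 : a ≠ 0) :
    (∃ b : F, b ≠ 0 ∧ ∏ i ∈ range n, (τ ^ i) b = a) ↔ ∃ k : ℤ, ‖a‖ = ‖π‖ ^ ((n : ℤ) * k) := by
  rw [C.cycDatum.mem_norm_iff a ha ha0]
  exact exists_congr fun k => nv_eq_zpow

/-- **Hilbert 90 for units.** -/
theorem hilbert90_units (u : F) (hu : ‖u‖ = 1) (hN : ∏ i ∈ range n, (τ ^ i) u = 1) :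
    ∃ w : F, ‖w‖ = 1 ∧ u = τ w / w := by
  obtain ⟨w, hw, huw⟩ := C.cycDatum.hilbert90_units u (nv_eq_one.2 hu) hN
  exact ⟨w, nv_eq_one.1 hw, huw⟩

end NormedCycDatum

end Fermat.Agent.S55.LocUnr89
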