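/-
# S55 / 13-LOC-UNR (helper89), file 8: the unramified theorems inside `PadicAlgCl q`

Mathlib + `LocUnr89/NormedCyc.lean`.  The concrete local-field model of the S55 project:
`Ω = PadicAlgCl q`, local fields are `K ≤ L : IntermediateField ℚ_[q] Ω`, `L` finite over `ℚ_[q]`,
with the norm of `Ω`; `φ : Ω ≃ₐ[ℚ_[q]] Ω` is a Frobenius of `L / K`.

`PadicUnrHyp q K L φ n Q π` collects, in the plain norm language of `Ω`, what the leaves
20-LOC-MODEL (uniformizer) and 21-LOC-UNR-EXIST (`L = K_n`, Frobenius) provide.  Consequences: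

* `PadicUnrHyp.norm_units_surjective` : units of `K` are norms of units of `L`;
* `PadicUnrHyp.mem_norm_iff` : `a ∈ K^×` is a norm from `L` iff `‖a‖ ∈ ‖π‖ ^ (n ℤ)`;
* `PadicUnrHyp.hilbert90_units` : a unit of `L` of norm one is `φ w / w`, `w` a unit of `L`.

Here the norm of `b ∈ L` is `∏ i < n, φ^i b`.
-/
import Fermat.Agent.S55.LocUnr89.NormedCyc

set_option autoImplicit false
set_option linter.style.haveILetI false

namespace Fermat.Agent.S55.LocUnr89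

open Finset

variable (q : ℕ) [Fact q.Prime]

/-- **The unramified hypotheses in the language of `PadicAlgCl q`.** -/
structure PadicUnrHyp (K L : IntermediateField ℚ_[q] (PadicAlgCl q))
    (φ : PadicAlgCl q ≃ₐ[ℚ_[q]] PadicAlgCl q) (n Q : ℕ) (π : PadicAlgCl q) : Prop where
  le : K ≤ L
  n_pos : 0 < n
  φ_fix : ∀ x ∈ K, φ x = x
  φ_stable : ∀ x ∈ L, φ x ∈ L
  order : ∀ i : ℕ, (∀ x ∈ L, (φ ^ i) x = x) ↔ n ∣ i
  two_le : 2 ≤ Q
  frob : ∀ x ∈ L, ‖x‖ ≤ 1 → ‖φ x - x ^ Q‖ < 1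
  reps : ∃ T : Finset (PadicAlgCl q), Q ^ n ≤ T.card ∧ (∀ t ∈ T, t ∈ L ∧ ‖t‖ ≤ 1) ∧
    ∀ t ∈ T, ∀ t' ∈ T, ‖t - t'‖ < 1 → t = t'
  unr : ∀ x ∈ L, x ≠ 0 → ∃ y ∈ K, ‖x‖ = ‖y‖
  π_mem : π ∈ K
  π_ne : π ≠ 0
  π_lt : ‖π‖ < 1
  π_unif : ∀ x ∈ K, ‖x‖ < 1 → ‖x‖ ≤ ‖π‖

variable {q}

/-- every `ℚ_[q]`-automorphism of `PadicAlgCl q` is an isometry -/
theorem norm_padicAlgCl_algEquiv (σ : PadicAlgCl q ≃ₐ[ℚ_[q]] PadicAlgCl q) (x : PadicAlgCl q) :
    ‖σ x‖ = ‖x‖ :=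
  (spectralNorm_eq_of_equiv σ x).symm

namespace PadicUnrHyp

variable {K L : IntermediateField ℚ_[q] (PadicAlgCl q)}
  {φ : PadicAlgCl q ≃ₐ[ℚ_[q]] PadicAlgCl q} {n Q : ℕ} {π : PadicAlgCl q}
  (H : PadicUnrHyp q K L φ n Q π)

include H

theorem pow_stable (i : ℕ) : ∀ x ∈ L, (φ ^ i) x ∈ L := by
  induction i with
  | zero => intro x hx; exact hx
  | succ i ih =>
    intro x hx
    rw [pow_succ']
    exact H.φ_stable _ (ih x hx)

/-- the restriction of `φ` to `L` as a ring homomorphism -/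
noncomputable def τHom : L →+* L :=
  ((φ : PadicAlgCl q →+* PadicAlgCl q).comp (algebraMap L (PadicAlgCl q))).codRestrict L
    fun x => H.φ_stable _ x.2

theorem τHom_coe (x : L) : ((H.τHom x : L) : PadicAlgCl q) = φ (x : PadicAlgCl q) := rfl

theorem τHom_bijective : Function.Bijective H.τHom := by
  constructor
  · intro x y h
    apply Subtype.ext
    have := congrArg (fun z : L => (z : PadicAlgCl q)) h
    simp only [τHom_coe] at this
    exact φ.injective this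
  · intro y
    obtain ⟨m, hm⟩ : ∃ m, n = m + 1 := ⟨n - 1, by have := H.n_pos; omega⟩
    refine ⟨⟨(φ ^ m) y, H.pow_stable m _ y.2⟩, ?_⟩
    apply Subtype.ext
    rw [τHom_coe]
    show φ ((φ ^ m) (y : PadicAlgCl q)) = y
    have h1 : (φ ^ n) (y : PadicAlgCl q) = y := (H.order n).2 dvd_rfl _ y.2
    rw [hm, pow_succ'] at h1
    exact h1

/-- the restriction of `φ` to `L` as a ring automorphism -/
noncomputable def τ : L ≃+* L := RingEquiv.ofBijective H.τHom H.τHom_bijective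

theorem τ_coe (x : L) : ((H.τ x : L) : PadicAlgCl q) = φ (x : PadicAlgCl q) := rfl

theorem τ_pow_coe (i : ℕ) (x : L) :
    (((H.τ ^ i) x : L) : PadicAlgCl q) = (φ ^ i) (x : PadicAlgCl q) := by
  induction i generalizing x with
  | zero => rfl
  | succ i ih =>
    rw [pow_succ, pow_succ]
    show (((H.τ ^ i) (H.τ x) : L) : PadicAlgCl q) = (φ ^ i) (φ (x : PadicAlgCl q))
    rw [ih, τ_coe]

theorem prod_τ_pow_coe (x : L) :
    ((∏ i ∈ range n, (H.τ ^ i) x : L) : PadicAlgCl q) =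
      ∏ i ∈ range n, (φ ^ i) (x : PadicAlgCl q) := by
  rw [← Finset.prod_congr rfl (fun i _ => H.τ_pow_coe i x)]
  exact map_prod (algebraMap L (PadicAlgCl q)) _ _

/-- the normed cyclic datum on the field `L` -/
theorem normedCycDatum [FiniteDimensional ℚ_[q] L] :
    NormedCycDatum (F := L) H.τ n Q ⟨π, H.le H.π_mem⟩ where
  n_pos := H.n_pos
  order i := by
    rw [← H.order i]
    constructor
    · intro h x hx
      have := congrArg (fun z : L => (z : PadicAlgCl q)) (h ⟨x, hx⟩)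
      simpa only [τ_pow_coe] using this
    · intro h x
      apply Subtype.ext
      rw [τ_pow_coe]; exact h _ x.2
  norm_τ x := norm_padicAlgCl_algEquiv φ (x : PadicAlgCl q)
  two_le := H.two_le
  frob x hx := H.frob (x : PadicAlgCl q) x.2 hx
  reps := by
    classical
    obtain ⟨T, hT, hT1, hT2⟩ := H.reps
    refine ⟨T.subtype (· ∈ L), ?_, ?_, ?_⟩
    · rw [Finset.card_subtype, Finset.filter_true_of_mem fun t ht => (hT1 t ht).1]
      exact hT
    · intro t ht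
      exact (hT1 _ (Finset.mem_subtype.1 ht)).2
    · intro t ht t' ht' h
      exact Subtype.ext (hT2 _ (Finset.mem_subtype.1 ht) _ (Finset.mem_subtype.1 ht') h)
  π_fixed := Subtype.ext (H.φ_fix π H.π_mem)
  π_lt := H.π_lt
  π_ne := fun h => H.π_ne (congrArg Subtype.val h)
  unif x hx := by
    by_cases h0 : x = 0
    · subst h0
      rw [norm_zero]; exact norm_nonneg _
    · obtain ⟨y, hy, hxy⟩ := H.unr (x : PadicAlgCl q) x.2 (fun h => h0 (Subtype.ext h))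
      have hx' : ‖(x : PadicAlgCl q)‖ < 1 := hx
      show ‖(x : PadicAlgCl q)‖ ≤ ‖π‖
      rw [hxy] at hx' ⊢
      exact H.π_unif y hy hx'

variable [FiniteDimensional ℚ_[q] L]

/-- **Units of `K` are norms of units of `L`** (`Ĥ⁰(Gal(L/K), U_L) = 0`). -/
theorem norm_units_surjective (a : PadicAlgCl q) (haL : a ∈ L) (ha : φ a = a) (hva : ‖a‖ = 1) :
    ∃ b ∈ L, ‖b‖ = 1 ∧ ∏ i ∈ range n, (φ ^ i) b = a := by
  haveI : CompleteSpace L := FiniteDimensional.complete ℚ_[q] L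
  obtain ⟨b, hb, hba⟩ := H.normedCycDatum.norm_units_surjective ⟨a, haL⟩ (Subtype.ext ha) hva
  refine ⟨b, b.2, hb, ?_⟩
  rw [← H.prod_τ_pow_coe, hba]

/-- **The norm group of `L / K`**: `a ≠ 0` fixed by `φ` is a norm from `L` iff
`‖a‖ ∈ ‖π‖ ^ (n ℤ)`. -/
theorem mem_norm_iff (a : PadicAlgCl q) (haL : a ∈ L) (ha : φ a = a) (ha0 : a ≠ 0) :
    (∃ b ∈ L, b ≠ 0 ∧ ∏ i ∈ range n, (φ ^ i) b = a) ↔ ∃ k : ℤ, ‖a‖ = ‖π‖ ^ ((n : ℤ) * k) := by
  haveI : CompleteSpace L := FiniteDimensional.complete ℚ_[q] L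
  have h := H.normedCycDatum.mem_norm_iff ⟨a, haL⟩ (Subtype.ext ha)
    (fun h => ha0 (congrArg Subtype.val h))
  have h2 : (∃ k : ℤ, ‖(⟨a, haL⟩ : L)‖ = ‖(⟨π, H.le H.π_mem⟩ : L)‖ ^ ((n : ℤ) * k)) ↔
      ∃ k : ℤ, ‖a‖ = ‖π‖ ^ ((n : ℤ) * k) := Iff.rfl
  rw [← h2, ← h]
  constructor
  · rintro ⟨b, hbL, hb0, hba⟩
    refine ⟨⟨b, hbL⟩, fun h => hb0 (congrArg Subtype.val h), Subtype.ext ?_⟩
    rw [H.prod_τ_pow_coe]; exact hba
  · rintro ⟨b, hb0, hba⟩
    refine ⟨b, b.2, fun h => hb0 (Subtype.ext h), ?_⟩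
    rw [← H.prod_τ_pow_coe, hba]

/-- **Hilbert 90 for the units of `L`** (`H¹(Gal(L/K), U_L) = 0`). -/
theorem hilbert90_units (u : PadicAlgCl q) (huL : u ∈ L) (hu : ‖u‖ = 1)
    (hN : ∏ i ∈ range n, (φ ^ i) u = 1) : ∃ w ∈ L, ‖w‖ = 1 ∧ u = φ w / w := by
  haveI : CompleteSpace L := FiniteDimensional.complete ℚ_[q] L
  obtain ⟨w, hw, huw⟩ := H.normedCycDatum.hilbert90_units ⟨u, huL⟩ hu
    (Subtype.ext (by rw [H.prod_τ_pow_coe]; exact hN))
  refine ⟨w, w.2, hw, ?_⟩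
  have := congrArg (fun z : L => (z : PadicAlgCl q)) huw
  simpa [H.τ_coe] using this

end PadicUnrHyp

end Fermat.Agent.S55.LocUnr89
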