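/-
# S55 / 13-LOC-UNR (helper89), file 9: the unramified theorems for `K_n = unr q K n`

Glue of `LocUnr89/PadicInst.lean` with `UnrExt93/Unr.lean` (helper93: existence of the unramified
extension `K_n = K(μ_{Q^n-1})`, Frobenius, `Gal(K_n/K)` cyclic of order `n`, `|k_{K_n}| = Q^n`) and
`LocField17/Basic.lean` (helper17: uniformizers).  `Ω = PadicAlgCl q`, `K` finite over `ℚ_[q]`,
`Q = resCard q K`, `φ ∈ Gal(Ω/K)` a Frobenius for `K_n/K` (`φ z = z ^ Q` on `μ_{Q^n-1}`), `π` a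
uniformizer of `K`.  Then, with `N b = ∏ i < n, φ^i b`:

* `norm_units_surjective_unr` : every unit of `K` is the norm of a unit of `K_n`;
* `mem_norm_iff_unr` : `a ∈ K^×` is a norm from `K_n` iff `‖a‖ ∈ ‖π‖ ^ (n ℤ)`;
* `hilbert90_units_unr` : a unit of `K_n` of norm `1` is `φ w / w` for a unit `w` of `K_n`.
-/
import Fermat.Agent.S55.LocUnr89.PadicInst
import Fermat.Agent.S55.UnrExt93.Unr
import Fermat.Agent.S55.LocField17.Basic

set_option autoImplicit false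
set_option linter.style.haveILetI false

namespace Fermat.Agent.S55.LocUnr89

open Finset Fermat.Agent.S55.UnrExt93

variable {q : ℕ} [Fact q.Prime]

/-- representatives of the residue field of a finite extension of `ℚ_[q]` -/
theorem exists_reps (L : IntermediateField ℚ_[q] (PadicAlgCl q)) [FiniteDimensional ℚ_[q] L] :
    ∃ T : Finset (PadicAlgCl q), T.card = resCard q L ∧ (∀ t ∈ T, t ∈ L ∧ ‖t‖ ≤ 1) ∧
      ∀ t ∈ T, ∀ t' ∈ T, ‖t - t'‖ < 1 → t = t' := by
  classical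
  haveI : Fintype (resField q L) := Fintype.ofFinite _
  have hrep : ∀ a : resField q L, ∃ x : PadicAlgCl q, x ∈ L ∧ ‖x‖ ≤ 1 ∧ red q x = a :=
    fun a => mem_resField.1 a.2
  choose rep hrepL hrep1 hrepred using hrep
  have hinj : Function.Injective rep := by
    intro a b hab
    apply Subtype.ext
    rw [← hrepred a, ← hrepred b, hab]
  refine ⟨univ.image rep, ?_, ?_, ?_⟩
  · rw [card_image_of_injective _ hinj, card_univ, resCard, Nat.card_eq_fintype_card]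
  · intro t ht
    obtain ⟨a, -, rfl⟩ := mem_image.1 ht
    exact ⟨hrepL a, hrep1 a⟩
  · intro t ht t' ht' h
    obtain ⟨a, -, rfl⟩ := mem_image.1 ht
    obtain ⟨b, -, rfl⟩ := mem_image.1 ht'
    have := (red_eq_iff (hrep1 a) (hrep1 b)).2 h
    rw [hrepred, hrepred] at this
    rw [Subtype.ext this]

variable (K : IntermediateField ℚ_[q] (PadicAlgCl q)) [FiniteDimensional ℚ_[q] K] {n : ℕ}

/-- **The unramified hypotheses hold for `K_n / K`.** -/
theorem padicUnrHyp_unr (hn : 0 < n) {φ : PadicAlgCl q ≃ₐ[ℚ_[q]] PadicAlgCl q}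
    (hφK : φ ∈ K.fixingSubgroup)
    (hφ : ∀ z : PadicAlgCl q, z ^ (resCard q K ^ n - 1) = 1 → φ z = z ^ resCard q K)
    {π : K} (hπ : LocField17.IsUnif K π) :
    PadicUnrHyp q K (unr q K n) φ n (resCard q K) (π : PadicAlgCl q) where
  le := le_unr K n
  n_pos := hn
  φ_fix x hx := (IntermediateField.mem_fixingSubgroup_iff _ _).1 hφK x hx
  φ_stable x hx := stable n φ hφK hx
  order := (cyclic hn hφK hφ).2
  two_le := one_lt_resCard K
  frob x hx hx1 := frob_congr_unr hn hφK hφ hx hx1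
  reps := by
    haveI : FiniteDimensional ℚ_[q] (unr q K n) := finiteDimensional_unr hn
    obtain ⟨T, hT, h1, h2⟩ := exists_reps (unr q K n)
    exact ⟨T, by rw [hT, resCard_unr hn], h1, h2⟩
  unr x hx _ := unramified hn hx
  π_mem := π.2
  π_ne := fun h => hπ.1 (Subtype.ext h)
  π_lt := hπ.2.1
  π_unif x hx hx1 := hπ.2.2 ⟨x, hx⟩ hx1

/-- existence of a Frobenius and a uniformizer satisfying the unramified hypotheses -/
theorem exists_padicUnrHyp_unr (hn : 0 < n) :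
    ∃ φ ∈ K.fixingSubgroup, ∃ π ∈ K,
      (∀ z : PadicAlgCl q, z ^ (resCard q K ^ n - 1) = 1 → φ z = z ^ resCard q K) ∧
      PadicUnrHyp q K (unr q K n) φ n (resCard q K) π := by
  obtain ⟨φ, hφK, hφ, -⟩ := exists_frob (K := K) hn
  obtain ⟨π, hπ⟩ := LocField17.exists_isUnif K
  exact ⟨φ, hφK, π, π.2, hφ, padicUnrHyp_unr K hn hφK hφ hπ⟩

variable {K}

/-- **Units of `K` are norms of units of `K_n`.** -/
theorem norm_units_surjective_unr (hn : 0 < n) {φ : PadicAlgCl q ≃ₐ[ℚ_[q]] PadicAlgCl q}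
    (hφK : φ ∈ K.fixingSubgroup)
    (hφ : ∀ z : PadicAlgCl q, z ^ (resCard q K ^ n - 1) = 1 → φ z = z ^ resCard q K)
    {π : K} (hπ : LocField17.IsUnif K π) (a : PadicAlgCl q) (haK : a ∈ K) (hva : ‖a‖ = 1) :
    ∃ b ∈ unr q K n, ‖b‖ = 1 ∧ ∏ i ∈ range n, (φ ^ i) b = a := by
  haveI : FiniteDimensional ℚ_[q] (unr q K n) := finiteDimensional_unr hn
  have H := padicUnrHyp_unr K hn hφK hφ hπ
  exact H.norm_units_surjective a (le_unr K n haK) (H.φ_fix a haK) hva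

/-- **The norm group of `K_n / K`.** -/
theorem mem_norm_iff_unr (hn : 0 < n) {φ : PadicAlgCl q ≃ₐ[ℚ_[q]] PadicAlgCl q}
    (hφK : φ ∈ K.fixingSubgroup)
    (hφ : ∀ z : PadicAlgCl q, z ^ (resCard q K ^ n - 1) = 1 → φ z = z ^ resCard q K)
    {π : K} (hπ : LocField17.IsUnif K π) (a : PadicAlgCl q) (haK : a ∈ K) (ha0 : a ≠ 0) :
    (∃ b ∈ unr q K n, b ≠ 0 ∧ ∏ i ∈ range n, (φ ^ i) b = a) ↔
      ∃ k : ℤ, ‖a‖ = ‖(π : PadicAlgCl q)‖ ^ ((n : ℤ) * k) := by
  haveI : FiniteDimensional ℚ_[q] (unr q K n) := finiteDimensional_unr hn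
  have H := padicUnrHyp_unr K hn hφK hφ hπ
  exact H.mem_norm_iff a (le_unr K n haK) (H.φ_fix a haK) ha0

/-- **Hilbert 90 for the units of `K_n`.** -/
theorem hilbert90_units_unr (hn : 0 < n) {φ : PadicAlgCl q ≃ₐ[ℚ_[q]] PadicAlgCl q}
    (hφK : φ ∈ K.fixingSubgroup)
    (hφ : ∀ z : PadicAlgCl q, z ^ (resCard q K ^ n - 1) = 1 → φ z = z ^ resCard q K)
    (u : PadicAlgCl q) (hu : u ∈ unr q K n) (hvu : ‖u‖ = 1)
    (hN : ∏ i ∈ range n, (φ ^ i) u = 1) : ∃ w ∈ unr q K n, ‖w‖ = 1 ∧ u = φ w / w := by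
  haveI : FiniteDimensional ℚ_[q] (unr q K n) := finiteDimensional_unr hn
  obtain ⟨π, hπ⟩ := LocField17.exists_isUnif K
  have H := padicUnrHyp_unr K hn hφK hφ hπ
  exact H.hilbert90_units u hu hvu hN

end Fermat.Agent.S55.LocUnr89
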