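/-
# S55 / 13c-LOC-TAME (helper89), file 2: units are norms from every subfield of `K_n`

`Ω = PadicAlgCl q`, `K` finite over `ℚ_[q]`, `K_n = unr q K n`, `φ` a Frobenius of `K_n / K`.
For an intermediate field `K ≤ M ≤ K_n` on which `φ` has exact order `d`:

* `norm_units_surjective_sub` : every unit of `K` is `∏ i < d, φ^i b` for a unit `b ∈ M`
  (norm in stages: `b = ∏ j < n/d, φ^(d j) b'` with `N_{K_n/K} b' = a`);
* `exists_order_on` : such a `d` exists for every `M ≤ K_n`;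
* `units_norm_of_tame_root` : the case `M = K(α)`, `α ^ m` a unit of `K`, `q ∤ m`
  (tame Kummer extensions), combining with `Tame.root_mem_unr`.
-/
import Fermat.Agent.S55.LocUnr89.Tame
import Fermat.Agent.S55.LocUnr89.UnrGlue

set_option autoImplicit false
set_option linter.style.haveILetI false

namespace Fermat.Agent.S55.LocUnr89.Tame

open Finset Fermat.Agent.S55.UnrExt93

/-- `∏ k < d e, f k = ∏ i < d, ∏ j < e, f (i + d j)` -/
theorem prod_range_mul_eq {A : Type*} [CommMonoid A] (f : ℕ → A) (d e : ℕ) :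
    ∏ k ∈ range (d * e), f k = ∏ i ∈ range d, ∏ j ∈ range e, f (i + d * j) := by
  induction e with
  | zero => simp
  | succ e ih =>
    rw [Nat.mul_succ, prod_range_add, ih]
    simp only [prod_range_succ]
    rw [prod_mul_distrib]
    congr 1
    exact prod_congr rfl fun i _ => by rw [add_comm]

variable {q : ℕ} [Fact q.Prime] {K : IntermediateField ℚ_[q] (PadicAlgCl q)}
  [FiniteDimensional ℚ_[q] K] {n : ℕ}

section Order

variable {φ : PadicAlgCl q ≃ₐ[ℚ_[q]] PadicAlgCl q}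

omit [FiniteDimensional ℚ_[q] K] in
/-- powers of `φ` as iterated application -/
theorem pow_add_apply (i j : ℕ) (x : PadicAlgCl q) : (φ ^ (i + j)) x = (φ ^ i) ((φ ^ j) x) := by
  rw [pow_add]; rfl

omit [FiniteDimensional ℚ_[q] K] in
theorem pow_mul_fix {M : Set (PadicAlgCl q)} {d : ℕ} (h : ∀ x ∈ M, (φ ^ d) x = x) (t : ℕ) :
    ∀ x ∈ M, (φ ^ (d * t)) x = x := by
  induction t with
  | zero => intro x _; simp
  | succ t ih =>
    intro x hx
    rw [Nat.mul_succ, pow_add_apply, h x hx, ih x hx]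

omit [FiniteDimensional ℚ_[q] K] in
/-- the exact order of `φ` on a set on which some positive power of `φ` is trivial -/
theorem exists_order_on {M : Set (PadicAlgCl q)} (hn : 0 < n) (hM : ∀ x ∈ M, (φ ^ n) x = x) :
    ∃ d, 0 < d ∧ d ∣ n ∧ ∀ i : ℕ, (∀ x ∈ M, (φ ^ i) x = x) ↔ d ∣ i := by
  classical
  have hex : ∃ i, 0 < i ∧ ∀ x ∈ M, (φ ^ i) x = x := ⟨n, hn, hM⟩
  set d := Nat.find hex with hd
  have hdspec : 0 < d ∧ ∀ x ∈ M, (φ ^ d) x = x := Nat.find_spec hex
  have hiff : ∀ i : ℕ, (∀ x ∈ M, (φ ^ i) x = x) ↔ d ∣ i := by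
    intro i
    constructor
    · intro hi
      -- division with remainder
      have hr : ∀ x ∈ M, (φ ^ (i % d)) x = x := by
        intro x hx
        have h1 : (φ ^ i) x = x := hi x hx
        have h2 : i = i % d + d * (i / d) := (Nat.mod_add_div i d).symm
        rw [h2, pow_add_apply, pow_mul_fix hdspec.2 (i / d) x hx] at h1
        exact h1
      by_contra hnd
      have hpos : 0 < i % d := Nat.pos_of_ne_zero fun h0 => hnd (Nat.dvd_of_mod_eq_zero h0)
      have hlt : i % d < d := Nat.mod_lt _ hdspec.1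
      exact Nat.find_min hex hlt ⟨hpos, hr⟩
    · rintro ⟨t, rfl⟩
      exact pow_mul_fix hdspec.2 t
  exact ⟨d, hdspec.1, (hiff n).1 hM, hiff⟩

end Order

/-- **Units of `K` are norms from every intermediate field of `K_n / K`.** -/
theorem norm_units_surjective_sub (hn : 0 < n) {φ : PadicAlgCl q ≃ₐ[ℚ_[q]] PadicAlgCl q}
    (hφK : φ ∈ K.fixingSubgroup)
    (hφ : ∀ z : PadicAlgCl q, z ^ (resCard q K ^ n - 1) = 1 → φ z = z ^ resCard q K)
    (M : IntermediateField ℚ_[q] (PadicAlgCl q)) (hKM : K ≤ M) (hMn : M ≤ unr q K n) {d : ℕ}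
    (hd : ∀ i : ℕ, (∀ x ∈ M, (φ ^ i) x = x) ↔ d ∣ i)
    (a : PadicAlgCl q) (haK : a ∈ K) (ha : ‖a‖ = 1) :
    ∃ b ∈ M, ‖b‖ = 1 ∧ ∏ i ∈ range d, (φ ^ i) b = a := by
  have hcyc := cyclic hn hφK hφ
  -- `d ∣ n`
  have hdn : d ∣ n := (hd n).1 fun x hx => (hcyc.2 n).2 dvd_rfl x (hMn hx)
  obtain ⟨e, rfl⟩ := hdn
  have hd0 : 0 < d := Nat.pos_of_ne_zero fun h => by rw [h, zero_mul] at hn; exact lt_irrefl _ hn
  have he0 : 0 < e := Nat.pos_of_ne_zero fun h => by rw [h, mul_zero] at hn; exact lt_irrefl _ hn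
  -- a preimage under the full norm
  obtain ⟨π, hπ⟩ := LocField17.exists_isUnif K
  obtain ⟨b', hb'Kn, hb'1, hb'⟩ := norm_units_surjective_unr hn hφK hφ hπ a haK ha
  -- powers of `φ` preserve `K_n`
  have hstab : ∀ (i : ℕ) (x : PadicAlgCl q), x ∈ unr q K (d * e) → (φ ^ i) x ∈ unr q K (d * e) := by
    intro i
    induction i with
    | zero => intro x hx; simpa using hx
    | succ i ih =>
      intro x hx
      rw [pow_succ']
      exact stable (d * e) φ hφK (ih x hx)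
  set b : PadicAlgCl q := ∏ j ∈ range e, (φ ^ (d * j)) b' with hb
  have hbKn : b ∈ unr q K (d * e) := prod_mem fun j _ => hstab _ _ hb'Kn
  have hb1 : ‖b‖ = 1 := by
    rw [hb, norm_prod]
    exact prod_eq_one fun j _ => by rw [UnrExt93.norm_map, hb'1]
  have hb'0 : b' ≠ 0 := by
    intro h; rw [h, norm_zero] at hb'1; exact zero_ne_one hb'1
  -- `φ^d` fixes `b`
  have hφdb : (φ ^ d) b = b := by
    rw [hb, map_prod]
    have h1 : ∀ j, (φ ^ d) ((φ ^ (d * j)) b') = (φ ^ (d * (j + 1))) b' := by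
      intro j
      rw [Nat.mul_succ, add_comm (d * j) d, pow_add_apply]
    simp only [h1]
    have h2 := prod_range_succ' (fun j => (φ ^ (d * j)) b') e
    have h3 := prod_range_succ (fun j => (φ ^ (d * j)) b') e
    have h4 : (φ ^ (d * e)) b' = b' := (hcyc.2 (d * e)).2 dvd_rfl b' hb'Kn
    simp only [Nat.mul_zero, pow_zero, AlgEquiv.one_apply, h4] at h2 h3
    rw [h2] at h3
    exact mul_right_cancel₀ hb'0 h3
  -- hence all of `Gal(Ω/M)` fixes `b`
  have hbM : b ∈ M := by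
    refine mem_of_fixed (K := M) fun σ hσ => ?_
    have hσK : σ ∈ K.fixingSubgroup := by
      rw [IntermediateField.mem_fixingSubgroup_iff] at hσ ⊢
      exact fun x hx => hσ x (hKM hx)
    obtain ⟨i, -, hi⟩ := hcyc.1 σ hσK
    have hdi : d ∣ i := by
      refine (hd i).1 fun x hx => ?_
      rw [← hi x (hMn hx)]
      exact (IntermediateField.mem_fixingSubgroup_iff _ _).1 hσ x hx
    obtain ⟨t, rfl⟩ := hdi
    rw [hi b hbKn]
    exact pow_mul_fix (M := {b}) (fun x hx => by rw [Set.mem_singleton_iff.1 hx]; exact hφdb) t b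
      (Set.mem_singleton b)
  refine ⟨b, hbM, hb1, ?_⟩
  -- the norm in stages
  rw [← hb', prod_range_mul_eq]
  refine prod_congr rfl fun i _ => ?_
  rw [hb, map_prod]
  exact prod_congr rfl fun j _ => (pow_add_apply i (d * j) b').symm

/-- **Tame Kummer extensions**: for a unit `x ∈ K` and `α ^ m = x` with `q ∤ m`, the field
`K(α)` lies in some `K_n`, and every unit of `K` is a norm from `K(α)`. -/
theorem units_norm_of_tame_root {m : ℕ} (hm : ¬ q ∣ m) {x α : PadicAlgCl q} (hxK : x ∈ K)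
    (hx : ‖x‖ = 1) (hα : α ^ m = x) :
    ∃ n, 0 < n ∧ K ⊔ IntermediateField.adjoin ℚ_[q] {α} ≤ unr q K n ∧
      ∀ φ ∈ K.fixingSubgroup,
        (∀ z : PadicAlgCl q, z ^ (resCard q K ^ n - 1) = 1 → φ z = z ^ resCard q K) →
        ∃ d, 0 < d ∧ d ∣ n ∧
          (∀ i : ℕ, (∀ y ∈ K ⊔ IntermediateField.adjoin ℚ_[q] {α}, (φ ^ i) y = y) ↔ d ∣ i) ∧
          ∀ a ∈ K, ‖a‖ = 1 → ∃ b ∈ K ⊔ IntermediateField.adjoin ℚ_[q] {α}, ‖b‖ = 1 ∧
            ∏ i ∈ range d, (φ ^ i) b = a := by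
  obtain ⟨n, hn, hαn⟩ := root_mem_unr hm hxK hx hα
  have hle : K ⊔ IntermediateField.adjoin ℚ_[q] {α} ≤ unr q K n := by
    refine sup_le (le_unr K n) ?_
    rw [IntermediateField.adjoin_le_iff]
    intro y hy
    rw [Set.mem_singleton_iff.1 hy]
    exact hαn
  refine ⟨n, hn, hle, fun φ hφK hφ => ?_⟩
  have hcyc := cyclic hn hφK hφ
  obtain ⟨d, hd0, hdn, hd⟩ := exists_order_on
    (M := ((K ⊔ IntermediateField.adjoin ℚ_[q] {α} : IntermediateField ℚ_[q] (PadicAlgCl q)) :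
      Set (PadicAlgCl q))) (φ := φ) hn
    (fun y hy => (hcyc.2 n).2 dvd_rfl y (hle hy))
  refine ⟨d, hd0, hdn, hd, fun a haK ha => ?_⟩
  exact norm_units_surjective_sub hn hφK hφ _ le_sup_left hle hd a haK ha

end Fermat.Agent.S55.LocUnr89.Tame
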