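/-
# S55 / 13c-LOC-TAME (helper89), file 3: the Frobenius powers as a transversal

`Ω = PadicAlgCl q`, `K ≤ M ≤ K_n = unr q K n`, `φ` a Frobenius of `K_n / K` of exact order `d` on
`M`.  Then `{φ^0, …, φ^(d-1)}` is a left transversal of `Gal(Ω/M)` in `Gal(Ω/K)`:

* `frob_transversal` : every `σ ∈ Gal(Ω/K)` has a unique `s ∈ {φ^i | i < d}` with
  `s⁻¹ * σ ∈ Gal(Ω/M)`;
* `prod_image_frob` : `∏ s ∈ {φ^i | i < d}, s z = ∏ i < d, φ^i z`.

This is the shape of the local transversal `Tx` in `Idele73.Single.sum_rho_single` (helper73), so that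
`TameNorm.norm_units_surjective_sub` plugs into the corestriction formula of the coinduced model.
-/
import Fermat.Agent.S55.LocUnr89.TameNorm

set_option autoImplicit false
set_option linter.style.haveILetI false

namespace Fermat.Agent.S55.LocUnr89.Tame

open Finset Fermat.Agent.S55.UnrExt93

variable {q : ℕ} [Fact q.Prime] {K : IntermediateField ℚ_[q] (PadicAlgCl q)}
  [FiniteDimensional ℚ_[q] K] {n : ℕ} {φ : PadicAlgCl q ≃ₐ[ℚ_[q]] PadicAlgCl q}

omit [FiniteDimensional ℚ_[q] K] in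
/-- the Frobenius powers below the exact order are pairwise distinct -/
theorem frob_pow_injOn {M : IntermediateField ℚ_[q] (PadicAlgCl q)} {d : ℕ}
    (hd : ∀ i : ℕ, (∀ x ∈ M, (φ ^ i) x = x) ↔ d ∣ i) :
    Set.InjOn (fun i : ℕ => φ ^ i) (range d : Set ℕ) := by
  have key : ∀ i j : ℕ, i ≤ j → j < d → φ ^ i = φ ^ j → i = j := by
    intro i j hij hj h
    have h1 : ∀ x ∈ M, (φ ^ (j - i)) x = x := by
      intro x _
      have h2 : (φ ^ j) x = (φ ^ i) ((φ ^ (j - i)) x) := by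
        rw [← pow_add_apply, Nat.add_sub_cancel' hij]
      rw [← h] at h2
      exact ((φ ^ i).injective h2).symm
    have h3 := (hd (j - i)).1 h1
    have h4 : j - i = 0 := Nat.eq_zero_of_dvd_of_lt h3 (by omega)
    omega
  intro i hi j hj h
  rw [mem_coe, mem_range] at hi hj
  rcases le_total i j with hij | hij
  · exact key i j hij hj h
  · exact (key j i hij hi h.symm).symm

omit [FiniteDimensional ℚ_[q] K] in
theorem prod_image_frob [DecidableEq (PadicAlgCl q ≃ₐ[ℚ_[q]] PadicAlgCl q)]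
    {M : IntermediateField ℚ_[q] (PadicAlgCl q)} {d : ℕ}
    (hd : ∀ i : ℕ, (∀ x ∈ M, (φ ^ i) x = x) ↔ d ∣ i) (z : PadicAlgCl q) :
    ∏ s ∈ (range d).image (fun i : ℕ => φ ^ i), s z = ∏ i ∈ range d, (φ ^ i) z :=
  prod_image (f := fun s : PadicAlgCl q ≃ₐ[ℚ_[q]] PadicAlgCl q => s z) (frob_pow_injOn hd)

/-- **The Frobenius powers form a left transversal of `Gal(Ω/M)` in `Gal(Ω/K)`.** -/
theorem frob_transversal [DecidableEq (PadicAlgCl q ≃ₐ[ℚ_[q]] PadicAlgCl q)] (hn : 0 < n)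
    (hφK : φ ∈ K.fixingSubgroup)
    (hφ : ∀ z : PadicAlgCl q, z ^ (resCard q K ^ n - 1) = 1 → φ z = z ^ resCard q K)
    (M : IntermediateField ℚ_[q] (PadicAlgCl q)) (hMn : M ≤ unr q K n) {d : ℕ} (hd0 : 0 < d)
    (hd : ∀ i : ℕ, (∀ x ∈ M, (φ ^ i) x = x) ↔ d ∣ i) :
    (∀ s ∈ (range d).image (fun i : ℕ => φ ^ i), s ∈ K.fixingSubgroup) ∧
      ∀ σ ∈ K.fixingSubgroup,
        ∃! s, s ∈ (range d).image (fun i : ℕ => φ ^ i) ∧ s⁻¹ * σ ∈ M.fixingSubgroup := by
  have hcyc := cyclic hn hφK hφ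
  refine ⟨?_, fun σ hσ => ?_⟩
  · intro s hs
    obtain ⟨i, -, rfl⟩ := mem_image.1 hs
    exact Subgroup.pow_mem _ hφK i
  · obtain ⟨i, -, hi⟩ := hcyc.1 σ hσ
    -- `σ` acts on `M` as `φ ^ (i % d)`
    have hσM : ∀ x ∈ M, σ x = (φ ^ (i % d)) x := by
      intro x hx
      rw [hi x (hMn hx)]
      have h2 : i = i % d + d * (i / d) := (Nat.mod_add_div i d).symm
      conv_lhs => rw [h2]
      rw [pow_add_apply, pow_mul_fix (M := (M : Set (PadicAlgCl q))) ((hd d).2 dvd_rfl) (i / d) x hx]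
    have hmem : ∀ r : ℕ, (φ ^ r)⁻¹ * σ ∈ M.fixingSubgroup ↔ ∀ x ∈ M, σ x = (φ ^ r) x := by
      intro r
      rw [IntermediateField.mem_fixingSubgroup_iff]
      constructor
      · intro h x hx
        have := h x hx
        rw [AlgEquiv.mul_apply] at this
        have h2 := congrArg (φ ^ r) this
        rw [← AlgEquiv.mul_apply, mul_inv_cancel, AlgEquiv.one_apply] at h2
        exact h2
      · intro h x hx
        rw [AlgEquiv.mul_apply, h x hx, ← AlgEquiv.mul_apply, inv_mul_cancel, AlgEquiv.one_apply]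
    refine ⟨φ ^ (i % d), ⟨mem_image.2 ⟨i % d, mem_range.2 (Nat.mod_lt _ hd0), rfl⟩,
      (hmem _).2 hσM⟩, ?_⟩
    rintro s ⟨hs, hsσ⟩
    obtain ⟨r, hr, rfl⟩ := mem_image.1 hs
    have hr' := (hmem r).1 hsσ
    -- `φ^r` and `φ^(i % d)` agree on `M`
    have hagree : ∀ x ∈ M, (φ ^ r) x = (φ ^ (i % d)) x := fun x hx => by
      rw [← hr' x hx, hσM x hx]
    have key : ∀ a b : ℕ, a ≤ b → b < d → (∀ x ∈ M, (φ ^ a) x = (φ ^ b) x) → a = b := by
      intro a b hab hb h
      have h1 : ∀ x ∈ M, (φ ^ (b - a)) x = x := by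
        intro x hx
        have h2 : (φ ^ b) x = (φ ^ a) ((φ ^ (b - a)) x) := by
          rw [← pow_add_apply, Nat.add_sub_cancel' hab]
        rw [← h x hx] at h2
        exact ((φ ^ a).injective h2).symm
      have h3 := (hd (b - a)).1 h1
      have h4 : b - a = 0 := Nat.eq_zero_of_dvd_of_lt h3 (by omega)
      omega
    have hrd : r < d := mem_range.1 hr
    have hid : i % d < d := Nat.mod_lt _ hd0
    have : r = i % d := by
      rcases le_total r (i % d) with h | h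
      · exact key r (i % d) h hid hagree
      · exact (key (i % d) r h hrd fun x hx => (hagree x hx).symm).symm
    rw [this]

end Fermat.Agent.S55.LocUnr89.Tame
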