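/-
# S55 / 13c-LOC-TAME (helper89), file 4: the tame Kummer layer of prime degree `p ≠ q`

`Ω = PadicAlgCl q`, `K ≤ Ω` finite over `ℚ_q` with `μ_p ⊆ K`, `x ∈ K` a unit, `α ^ p = x`,
`M = K(α)`.  For every Frobenius `φ` of `K_n / K` (with `M ≤ K_n`):

* `frob_pow_root` : `φ^i α = ζ^i α` with `ζ = φ α / α ∈ μ_p ⊆ K`;
* `root_mem_iff_frob_fix` : `α ∈ K ↔ φ α = α`;
* `kummer_units_norm` : if `α ∉ K` then `φ` has exact order `p` on `M` (and on `α`), and every unit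
  `a` of `K` is `∏ i < p, φ^i b` with `b` a unit of `M`;
* `exists_frob_kummer_units_norm` : the same with the existence of `φ`, plus: every
  `σ ∈ Gal(Ω/K)` acts on `M` as a `φ^i`, `i < p`.

This is the local input (`γ₀ := φ`, `w := b`, `n = p`) of
`SecondIneq74.CoindNorm.exists_norm_of_local_norm_cyclic` (helper74) for the bridge (BL)(3) of 32c.
-/
import Fermat.Agent.S55.LocUnr89.TameTransversal

set_option autoImplicit false
set_option linter.style.haveILetI false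

namespace Fermat.Agent.S55.LocUnr89.Tame

open Finset Fermat.Agent.S55.UnrExt93

variable {q : ℕ} [Fact q.Prime] {K : IntermediateField ℚ_[q] (PadicAlgCl q)}

/-- an automorphism fixing `K` pointwise and `α` fixes `K(α)` pointwise -/
theorem fix_sup_adjoin {ψ : PadicAlgCl q ≃ₐ[ℚ_[q]] PadicAlgCl q} {α : PadicAlgCl q}
    (hK : ∀ x ∈ K, ψ x = x) (hα : ψ α = α) :
    ∀ y ∈ K ⊔ IntermediateField.adjoin ℚ_[q] {α}, ψ y = y := by
  have hst : ∀ z : PadicAlgCl q, ψ z = z → ∀ f ∈ Subgroup.zpowers ψ, f z = z := by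
    intro z hz f hf
    have h1 : Subgroup.zpowers ψ ≤
        MulAction.stabilizer (PadicAlgCl q ≃ₐ[ℚ_[q]] PadicAlgCl q) z := by
      rw [Subgroup.zpowers_le, MulAction.mem_stabilizer_iff]
      exact hz
    exact MulAction.mem_stabilizer_iff.1 (h1 hf)
  have hle : K ⊔ IntermediateField.adjoin ℚ_[q] {α} ≤
      IntermediateField.fixedField (Subgroup.zpowers ψ) := by
    refine sup_le ?_ ?_
    · intro z hz
      rw [IntermediateField.mem_fixedField_iff]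
      exact hst z (hK z hz)
    · rw [IntermediateField.adjoin_le_iff]
      intro z hz
      rw [Set.mem_singleton_iff.1 hz]
      show α ∈ IntermediateField.fixedField (Subgroup.zpowers ψ)
      rw [IntermediateField.mem_fixedField_iff]
      exact hst α hα
  intro y hy
  exact (IntermediateField.mem_fixedField_iff _ _).1 (hle hy) ψ (Subgroup.mem_zpowers ψ)

/-- **Kummer**: with `μ_p ⊆ K` and `α ^ p = x ∈ K`, an automorphism `φ` over `K` multiplies `α` by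
a `p`-th root of unity `ζ ∈ K`, and `φ^i α = ζ^i α`. -/
theorem frob_pow_root {p : ℕ} {x α : PadicAlgCl q} (hxK : x ∈ K) (hα : α ^ p = x)
    (hζ : ∀ ζ : PadicAlgCl q, ζ ^ p = 1 → ζ ∈ K) {φ : PadicAlgCl q ≃ₐ[ℚ_[q]] PadicAlgCl q}
    (hφK : φ ∈ K.fixingSubgroup) :
    ∃ ζ ∈ K, ζ ^ p = 1 ∧ φ α = ζ * α ∧ ∀ i : ℕ, (φ ^ i) α = ζ ^ i * α := by
  have hfix := (IntermediateField.mem_fixingSubgroup_iff _ _).1 hφK
  by_cases hα0 : α = 0
  · subst hα0
    refine ⟨1, one_mem K, one_pow p, by simp, fun i => by simp⟩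
  · have h1 : (φ α / α) ^ p = 1 := by
      rw [div_pow, ← map_pow, hα, hfix x hxK, div_self]
      rw [← hα]; exact pow_ne_zero p hα0
    have hζK := hζ _ h1
    have h2 : φ α = φ α / α * α := by field_simp
    refine ⟨φ α / α, hζK, h1, h2, fun i => ?_⟩
    induction i with
    | zero => simp
    | succ i ih =>
      have h3 : (φ ^ (i + 1)) α = φ ((φ ^ i) α) := by
        rw [add_comm, pow_add_apply, pow_one]
      rw [h3, ih, map_mul, map_pow, hfix _ hζK, pow_succ, mul_assoc, ← h2]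

variable [FiniteDimensional ℚ_[q] K]

/-- a Frobenius fixes an element of `K_n` iff the element lies in `K` -/
theorem mem_iff_frob_fix {n : ℕ} (hn : 0 < n) {φ : PadicAlgCl q ≃ₐ[ℚ_[q]] PadicAlgCl q}
    (hφK : φ ∈ K.fixingSubgroup)
    (hφ : ∀ z : PadicAlgCl q, z ^ (resCard q K ^ n - 1) = 1 → φ z = z ^ resCard q K)
    {α : PadicAlgCl q} (hαn : α ∈ unr q K n) : α ∈ K ↔ φ α = α := by
  constructor
  · intro h
    exact (IntermediateField.mem_fixingSubgroup_iff _ _).1 hφK α h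
  · intro h
    have hcyc := cyclic hn hφK hφ
    refine mem_of_fixed fun s hs => ?_
    obtain ⟨i, -, hi⟩ := hcyc.1 s hs
    rw [hi α hαn]
    exact pow_mul_fix (M := {α}) (d := 1)
      (fun y hy => by rw [Set.mem_singleton_iff.1 hy, pow_one]; exact h) i α
      (Set.mem_singleton α) |> fun h' => by simpa using h'

/-- **(BL)(3), local form.**  `p ≠ q` primes, `μ_p ⊆ K`, `x ∈ K` a unit, `α ^ p = x`, `α ∉ K`.
Then `K(α) ≤ K_n` for some `n > 0`, and for EVERY Frobenius `φ` of `K_n / K`: `φ` has exact order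
`p` on `K(α)` and on `α`, and every unit `a` of `K` is `∏ i < p, φ^i b` with `b` a unit of `K(α)`. -/
theorem kummer_units_norm {p : ℕ} (hp : p.Prime) (hpq : p ≠ q) {x α : PadicAlgCl q}
    (hxK : x ∈ K) (hx : ‖x‖ = 1) (hα : α ^ p = x)
    (hζ : ∀ ζ : PadicAlgCl q, ζ ^ p = 1 → ζ ∈ K) (hαK : α ∉ K) :
    ∃ n, 0 < n ∧ K ⊔ IntermediateField.adjoin ℚ_[q] {α} ≤ unr q K n ∧
      ∀ φ ∈ K.fixingSubgroup,
        (∀ z : PadicAlgCl q, z ^ (resCard q K ^ n - 1) = 1 → φ z = z ^ resCard q K) →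
        φ α ≠ α ∧ (∀ i : ℕ, (φ ^ i) α = α ↔ p ∣ i) ∧
          (∀ i : ℕ, (∀ y ∈ K ⊔ IntermediateField.adjoin ℚ_[q] {α}, (φ ^ i) y = y) ↔ p ∣ i) ∧
          ∀ a ∈ K, ‖a‖ = 1 → ∃ b ∈ K ⊔ IntermediateField.adjoin ℚ_[q] {α}, ‖b‖ = 1 ∧
            ∏ i ∈ range p, (φ ^ i) b = a := by
  have hqp : ¬ q ∣ p := by
    intro h
    rcases (Nat.dvd_prime hp).1 h with h1 | h1
    · exact (Fact.out : q.Prime).one_lt.ne' h1
    · exact hpq h1.symm
  obtain ⟨n, hn, hle, H⟩ := units_norm_of_tame_root hqp hxK hx hα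
  refine ⟨n, hn, hle, fun φ hφK hφ => ?_⟩
  obtain ⟨d, hd0, -, hd, hnorm⟩ := H φ hφK hφ
  have hαM : α ∈ K ⊔ IntermediateField.adjoin ℚ_[q] {α} :=
    (le_sup_right : IntermediateField.adjoin ℚ_[q] {α} ≤ _)
      (IntermediateField.mem_adjoin_simple_self ℚ_[q] α)
  have hαn : α ∈ unr q K n := hle hαM
  have hne : φ α ≠ α := fun h => hαK ((mem_iff_frob_fix hn hφK hφ hαn).2 h)
  obtain ⟨ζ, hζK, hζp, hζ1, hζi⟩ := frob_pow_root hxK hα hζ hφK
  have hα0 : α ≠ 0 := by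
    rintro rfl
    exact hαK (zero_mem K)
  -- fixing `M` pointwise is the same as fixing `α`
  have hfixα : ∀ i : ℕ, (∀ y ∈ K ⊔ IntermediateField.adjoin ℚ_[q] {α}, (φ ^ i) y = y) ↔
      (φ ^ i) α = α := by
    intro i
    constructor
    · intro h; exact h α hαM
    · intro h
      exact fix_sup_adjoin
        ((IntermediateField.mem_fixingSubgroup_iff _ _).1 (Subgroup.pow_mem _ hφK i)) h
  have hdp : d = p := by
    have h1 : d ∣ p := by
      rw [← hd p, hfixα, hζi, hζp, one_mul]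
    rcases (Nat.dvd_prime hp).1 h1 with h2 | h2
    · exfalso
      have h3 := (hd 1).2 (by rw [h2])
      rw [hfixα, pow_one] at h3
      exact hne h3
    · exact h2
  subst hdp
  exact ⟨hne, fun i => by rw [← hfixα, hd], hd, hnorm⟩

/-- **(BL)(3), local form with the Frobenius chosen**: in addition every `σ ∈ Gal(Ω/K)` acts on
`K(α)` as a power `φ^i`, `i < p`. -/
theorem exists_frob_kummer_units_norm {p : ℕ} (hp : p.Prime) (hpq : p ≠ q) {x α : PadicAlgCl q}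
    (hxK : x ∈ K) (hx : ‖x‖ = 1) (hα : α ^ p = x)
    (hζ : ∀ ζ : PadicAlgCl q, ζ ^ p = 1 → ζ ∈ K) (hαK : α ∉ K) :
    ∃ φ ∈ K.fixingSubgroup, φ α ≠ α ∧ (∀ i : ℕ, (φ ^ i) α = α ↔ p ∣ i) ∧
      (∀ i : ℕ, (∀ y ∈ K ⊔ IntermediateField.adjoin ℚ_[q] {α}, (φ ^ i) y = y) ↔ p ∣ i) ∧
      (∀ σ ∈ K.fixingSubgroup, ∃ i < p,
        ∀ y ∈ K ⊔ IntermediateField.adjoin ℚ_[q] {α}, σ y = (φ ^ i) y) ∧
      ∀ a ∈ K, ‖a‖ = 1 → ∃ b ∈ K ⊔ IntermediateField.adjoin ℚ_[q] {α}, ‖b‖ = 1 ∧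
        ∏ i ∈ range p, (φ ^ i) b = a := by
  classical
  obtain ⟨n, hn, hle, H⟩ := kummer_units_norm hp hpq hxK hx hα hζ hαK
  obtain ⟨φ, hφK, hφ, -⟩ := exists_frob (K := K) hn
  obtain ⟨hne, hordα, hord, hnorm⟩ := H φ hφK hφ
  refine ⟨φ, hφK, hne, hordα, hord, fun σ hσ => ?_, hnorm⟩
  obtain ⟨-, htr⟩ := frob_transversal hn hφK hφ _ hle hp.pos hord
  obtain ⟨s, ⟨hs, hsσ⟩, -⟩ := htr σ hσ
  obtain ⟨i, hi, rfl⟩ := mem_image.1 hs
  refine ⟨i, mem_range.1 hi, fun y hy => ?_⟩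
  have h1 := (IntermediateField.mem_fixingSubgroup_iff _ _).1 hsσ y hy
  rw [AlgEquiv.mul_apply] at h1
  have h2 := congrArg (φ ^ i) h1
  rwa [← AlgEquiv.mul_apply, mul_inv_cancel, AlgEquiv.one_apply] at h2

end Fermat.Agent.S55.LocUnr89.Tame
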