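/-
# S55 / 32c-B (BL)(3) (helper89): tame unramified units are norms, in the coinduced idele model

`L/ℚ` a finite Galois level, `H ≤ Gal(L/ℚ)` (`K = L^H`), `N ⊴ H` of index `p` fixing `Y` with
`Y ^ p = X ∈ K` (`K' = L^N ⊇ K(Y)`), `μ_p ⊆ K`, `q ≠ p`.  Let `x₀ ∈ Gal(L/ℚ)` be (a representative
of) a place of `K` above `q` at which `X` is a unit and NOT a local `p`-th power.  Then every
`H`-invariant element `f` of `Jq q L = coind (PadicAlgCl q)ˣ` supported on the double coset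
`D x₀ H` with `f x₀` a unit is the norm of an `N`-invariant, unit-valued `z` supported on `D x₀ N`.

Glue of: `SecondIneq74.CoindNorm.exists_norm_of_local_norm_cyclic` (helper74, abstract),
`Idele73.PlaceField.{Kv, twSub_locHom_eq, mem_Kv_of_fixed}` (helper73) and
`LocUnr89.Tame.exists_frob_kummer_units_norm` (helper89, local).
-/
import Fermat.Agent.S55.LocUnr89.TameKummer
import Fermat.Agent.S55.Idele73.PlaceField
import Fermat.Agent.S55.SecondIneq74.CoindNorm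

set_option autoImplicit false
set_option linter.style.haveILetI false
set_option linter.unusedSectionVars false

namespace Fermat.Agent.S55.LocUnr89.TameCoind

open Finset Fermat.Agent.S55.Idele73.Basic Fermat.Agent.S55.Idele73.PlaceField
  Fermat.Agent.S55.Idele73 Fermat.Agent.S55.SecondIneq74.CoindNorm

variable (q : ℕ) [Fact q.Prime] (L : IntermediateField ℚ Qbar) [Normal ℚ L]
  [FiniteDimensional ℚ L] (H : Subgroup (GalL L)) (x : GalL L)

/-- `K_v` is a finite extension of `ℚ_q`. -/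
theorem finiteDimensional_Kv : FiniteDimensional ℚ_[q] (Kv q L H x) := by
  classical
  let b := Module.finBasis ℚ (IntermediateField.fixedField H)
  have hle : Kv q L H x ≤ IntermediateField.adjoin ℚ_[q]
      (Set.range fun i => embx q L x ((b i : IntermediateField.fixedField H) : L)) := by
    rw [Kv, IntermediateField.adjoin_le_iff]
    rintro _ ⟨y, hy, rfl⟩
    have h1 := b.sum_repr ⟨y, hy⟩
    have h2 : y = ∑ i, (b.repr ⟨y, hy⟩ i : ℚ) • ((b i : IntermediateField.fixedField H) : L) := by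
      have := congrArg (fun z : IntermediateField.fixedField H => (z : L)) h1
      simp only [AddSubmonoidClass.coe_finsetSum, IntermediateField.coe_smul] at this
      exact this.symm
    rw [h2, map_sum]
    refine sum_mem fun i _ => ?_
    rw [Algebra.smul_def, map_mul]
    refine mul_mem ?_ (IntermediateField.subset_adjoin _ _ ⟨i, rfl⟩)
    rw [eq_ratCast (algebraMap ℚ L), map_ratCast,
      ← map_ratCast (algebraMap ℚ_[q] (PadicAlgCl q))]
    exact IntermediateField.algebraMap_mem _ _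
  have hge : IntermediateField.adjoin ℚ_[q]
      (Set.range fun i => embx q L x ((b i : IntermediateField.fixedField H) : L)) ≤
      Kv q L H x := by
    refine IntermediateField.adjoin.mono _ _ _ ?_
    rintro _ ⟨i, rfl⟩
    exact ⟨_, (b i).2, rfl⟩
  rw [le_antisymm hle hge]
  exact IntermediateField.finiteDimensional_adjoin fun y _ => Algebra.IsIntegral.isIntegral y

/-- all `p`-th roots of unity of `PadicAlgCl q` lie in `K_v` when `μ_p ⊆ K`. -/
theorem root_of_unity_mem_Kv {p : ℕ} (hp : p.Prime) {ζ : L}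
    (hζH : ζ ∈ IntermediateField.fixedField H) (hζp : ζ ^ p = 1) (hζ1 : ζ ≠ 1)
    (ξ : PadicAlgCl q) (hξ : ξ ^ p = 1) : ξ ∈ Kv q L H x := by
  haveI := Fact.mk hp
  haveI : NeZero p := ⟨hp.ne_zero⟩
  have h1 : embx q L x ζ ^ p = 1 := by rw [← map_pow, hζp, map_one]
  have h2 : embx q L x ζ ≠ 1 := fun h =>
    hζ1 ((embx q L x).injective (h.trans (map_one _).symm))
  have h3 : orderOf (embx q L x ζ) = p := orderOf_eq_prime h1 h2
  have h4 : IsPrimitiveRoot (embx q L x ζ) p := h3 ▸ IsPrimitiveRoot.orderOf _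
  obtain ⟨i, -, rfl⟩ := h4.eq_pow_of_pow_eq_one hξ
  exact pow_mem (embx_mem_Kv q L H x hζH) i

/-- **(BL)(3) in the coinduced model.** -/
theorem exists_norm_of_tame_unit {p : ℕ} (hp : p.Prime) (hpq : p ≠ q)
    (N : Subgroup H) [N.Normal] [Fintype (H ⧸ N)] (hcard : Fintype.card (H ⧸ N) = p)
    {X Y ζ : L} (hX : X ∈ IntermediateField.fixedField H) (hY : Y ^ p = X)
    (hN : ∀ n : N, ((n : H) : GalL L) Y = Y)
    (hζH : ζ ∈ IntermediateField.fixedField H) (hζp : ζ ^ p = 1) (hζ1 : ζ ≠ 1)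
    (x₀ : GalL L) (hX1 : ‖embx q L x₀ X‖ = 1)
    (hns : ∀ β ∈ Kv q L H x₀, β ^ p ≠ embx q L x₀ X)
    {f : GalL L → Additive (PadicAlgCl q)ˣ}
    (hf : f ∈ Representation.coindV (locHom q L) (localUnits q).ρ) (hfH : RInvH H f)
    (hsupp : ∀ y, y ∉ dcH (locHom q L) H x₀ → f y = 0)
    (hfu : ‖((Additive.toMul (f x₀) : (PadicAlgCl q)ˣ) : PadicAlgCl q)‖ = 1) :
    ∃ z : GalL L → Additive (PadicAlgCl q)ˣ,
      z ∈ Representation.coindV (locHom q L) (localUnits q).ρ ∧ RInvN H N z ∧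
      (∀ y, y ∉ dcN (locHom q L) H N x₀ → z y = 0) ∧
      (∀ y, ‖((Additive.toMul (z y) : (PadicAlgCl q)ˣ) : PadicAlgCl q)‖ = 1) ∧
      ∀ r : H ⧸ N → H, (∀ c, ((r c : H) : H ⧸ N) = c) →
        ∀ y, ∑ c : H ⧸ N, z (y * ((r c : H) : GalL L)) = f y := by
  classical
  haveI := finiteDimensional_Kv q L H x₀
  -- the local data
  have hα : embx q L x₀ Y ^ p = embx q L x₀ X := by rw [← map_pow, hY]
  have hxK : embx q L x₀ X ∈ Kv q L H x₀ := embx_mem_Kv q L H x₀ hX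
  have hαK : embx q L x₀ Y ∉ Kv q L H x₀ := fun h => hns _ h hα
  have hμ : ∀ ξ : PadicAlgCl q, ξ ^ p = 1 → ξ ∈ Kv q L H x₀ :=
    root_of_unity_mem_Kv q L H x₀ hp hζH hζp hζ1
  obtain ⟨φ, hφK, hφα, -, -, -, hnorm⟩ :=
    Tame.exists_frob_kummer_units_norm hp hpq hxK hX1 hα hμ hαK
  -- `u := f x₀ ∈ K_v`
  have huK : ((Additive.toMul (f x₀) : (PadicAlgCl q)ˣ) : PadicAlgCl q) ∈ Kv q L H x₀ := by
    refine mem_Kv_of_fixed q L H x₀ fun τ hτ => ?_
    have h1 : f (locHom q L τ * x₀) = (localUnits q).ρ τ (f x₀) := hf τ x₀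
    have h2 : locHom q L τ * x₀ = x₀ * (x₀⁻¹ * locHom q L τ * x₀) := by group
    have h3 : f (locHom q L τ * x₀) = f x₀ := by
      rw [h2]; exact hfH x₀ ⟨_, hτ⟩
    rw [h3] at h1
    have h4 := congrArg
      (fun a : Additive (PadicAlgCl q)ˣ => ((Additive.toMul a : (PadicAlgCl q)ˣ) : PadicAlgCl q)) h1
    exact h4.symm
  obtain ⟨b, hbM, hb1, hprod⟩ := hnorm _ huK hfu
  have hb0 : b ≠ 0 := by
    rintro rfl
    rw [norm_zero] at hb1
    exact zero_ne_one hb1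
  -- the element `t = x₀⁻¹ φ x₀ ∈ H`
  have hφtw : φ ∈ Mackey.twSub (locHom q L) H x₀ := by
    rw [twSub_locHom_eq]; exact hφK
  have hγ₀ : locHom q L φ * x₀ =
      x₀ * ((⟨x₀⁻¹ * locHom q L φ * x₀, hφtw⟩ : H) : GalL L) := by
    show locHom q L φ * x₀ = x₀ * (x₀⁻¹ * locHom q L φ * x₀)
    group
  -- `w` is fixed by the decomposition group of the upper place
  have hw : ∀ (γ : Gq q) (n : N), locHom q L γ * x₀ = x₀ * ((n : H) : GalL L) →
      (localUnits q).ρ γ (Additive.ofMul (Units.mk0 b hb0)) = Additive.ofMul (Units.mk0 b hb0) := by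
    intro γ n hγn
    have hγtw : γ ∈ Mackey.twSub (locHom q L) H x₀ := by
      rw [Mackey.mem_twSub]
      have : x₀⁻¹ * locHom q L γ * x₀ = ((n : H) : GalL L) := by
        rw [mul_assoc, hγn]; group
      rw [this]
      exact (n : H).2
    have hγK : ∀ y ∈ Kv q L H x₀, γ y = y := fun y hy =>
      apply_eq_of_mem_Kv q L H x₀ hy hγtw
    have hγα : γ (embx q L x₀ Y) = embx q L x₀ Y := by
      rw [← embx_locHom_mul, hγn, embx_apply, embx_apply]
      congr 1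
      show x₀ (((n : H) : GalL L) Y) = x₀ Y
      rw [hN n]
    have hγb := Tame.fix_sup_adjoin hγK hγα b hbM
    show Additive.ofMul (γ • Units.mk0 b hb0) = Additive.ofMul (Units.mk0 b hb0)
    congr 1
    apply Units.ext
    exact hγb
  -- the class of `t` generates `H ⧸ N`
  have ht1 : ((⟨x₀⁻¹ * locHom q L φ * x₀, hφtw⟩ : H) : H ⧸ N) ≠ 1 := by
    intro h
    have htN : (⟨x₀⁻¹ * locHom q L φ * x₀, hφtw⟩ : H) ∈ N := (QuotientGroup.eq_one_iff _).1 h
    have h5 := hN ⟨_, htN⟩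
    apply hφα
    rw [← embx_locHom_mul, hγ₀, embx_apply, embx_apply]
    congr 1
    show x₀ ((x₀⁻¹ * locHom q L φ * x₀) Y) = x₀ Y
    exact congrArg x₀ h5
  haveI := Fact.mk hp
  have htop := zpowers_eq_top_of_prime_card (G := H ⧸ N)
    (by rw [Nat.card_eq_fintype_card, hcard]) ht1
  have ht : ∀ c : H ⧸ N,
      c ∈ Subgroup.zpowers ((⟨x₀⁻¹ * locHom q L φ * x₀, hφtw⟩ : H) : H ⧸ N) := by
    intro c; rw [htop]; trivial
  -- the local norm equation
  have hloc : f x₀ = ∑ i ∈ Finset.range (Fintype.card (H ⧸ N)),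
      (localUnits q).ρ (φ ^ i) (Additive.ofMul (Units.mk0 b hb0)) := by
    rw [hcard]
    show (f x₀ : Additive (PadicAlgCl q)ˣ) = ∑ i ∈ Finset.range p,
      (Additive.ofMul ((φ ^ i) • Units.mk0 b hb0) : Additive (PadicAlgCl q)ˣ)
    apply Additive.toMul.injective
    rw [toMul_sum]
    apply Units.ext
    rw [Units.coe_prod]
    exact hprod.symm
  obtain ⟨z, hz, hzN, hz0, hzx₀, hznorm⟩ :=
    exists_norm_of_local_norm_cyclic x₀ hf hfH hsupp _ hw φ _ hγ₀ ht hloc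
  refine ⟨z, hz, hzN, hz0, ?_, hznorm⟩
  intro y
  by_cases hy : y ∈ dcN (locHom q L) H N x₀
  · obtain ⟨γ, n, rfl⟩ := hy
    rw [hzN, hz γ x₀, hzx₀]
    show ‖γ b‖ = 1
    rw [UnrExt93.norm_map, hb1]
  · rw [hz0 y hy]
    show ‖((1 : (PadicAlgCl q)ˣ) : PadicAlgCl q)‖ = 1
    rw [Units.val_one, norm_one]

/-- **(BL)(3) for elements of `Jq q L`** (`Rep`-vocabulary: `G` acts by right translation). -/
theorem exists_norm_of_tame_unit_Jq {p : ℕ} (hp : p.Prime) (hpq : p ≠ q)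
    (N : Subgroup H) [N.Normal] [Fintype (H ⧸ N)] (hcard : Fintype.card (H ⧸ N) = p)
    {X Y ζ : L} (hX : X ∈ IntermediateField.fixedField H) (hY : Y ^ p = X)
    (hN : ∀ n : N, ((n : H) : GalL L) Y = Y)
    (hζH : ζ ∈ IntermediateField.fixedField H) (hζp : ζ ^ p = 1) (hζ1 : ζ ≠ 1)
    (x₀ : GalL L) (hX1 : ‖embx q L x₀ X‖ = 1)
    (hns : ∀ β ∈ Kv q L H x₀, β ^ p ≠ embx q L x₀ X)
    (F : (Jq q L).V) (hFH : ∀ h ∈ H, (Jq q L).ρ h F = F)
    (hsupp : ∀ y, y ∉ dcH (locHom q L) H x₀ → F.1 y = 0)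
    (hFu : ‖((Additive.toMul (F.1 x₀) : (PadicAlgCl q)ˣ) : PadicAlgCl q)‖ = 1) :
    ∃ Z : (Jq q L).V, (∀ n : N, (Jq q L).ρ ((n : H) : GalL L) Z = Z) ∧
      (∀ y, y ∉ dcN (locHom q L) H N x₀ → Z.1 y = 0) ∧
      (∀ y, ‖((Additive.toMul (Z.1 y) : (PadicAlgCl q)ˣ) : PadicAlgCl q)‖ = 1) ∧
      ∀ r : H ⧸ N → H, (∀ c, ((r c : H) : H ⧸ N) = c) →
        ∑ c : H ⧸ N, (Jq q L).ρ ((r c : H) : GalL L) Z = F := by
  have hfH : RInvH H (F.1 : GalL L → Additive (PadicAlgCl q)ˣ) := by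
    intro y h
    have := congrArg (fun F' : (Jq q L).V => F'.1 y) (hFH h h.2)
    exact this
  obtain ⟨z, hz, hzN, hz0, hz1, hznorm⟩ := exists_norm_of_tame_unit q L H hp hpq N hcard hX hY hN
    hζH hζp hζ1 x₀ hX1 hns (f := F.1) F.2 hfH hsupp hFu
  refine ⟨⟨z, hz⟩, ?_, hz0, hz1, ?_⟩
  · intro n
    apply Subtype.ext
    funext y
    exact hzN y n
  · intro r hr
    apply Subtype.ext
    funext y
    have h1 := hznorm r hr y
    rw [← h1]
    have h2 : ((∑ c : H ⧸ N, (Jq q L).ρ ((r c : H) : GalL L) ⟨z, hz⟩ : (Jq q L).V)).1 y =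
        ∑ c : H ⧸ N, ((Jq q L).ρ ((r c : H) : GalL L) ⟨z, hz⟩).1 y := by
      rw [← Submodule.coe_subtype, map_sum, Finset.sum_apply]
    rw [h2]
    rfl

/-- **(BL)(3) for single-place ideles** (`Idele73.PlaceField.singleIdele`): the idele of `K = L^H`
supported at the place `D x₀ H` with a unit value `u ∈ K_vˣ` is the norm of an `N`-invariant,
unit-valued element of `Jq q L`. -/
theorem singleIdele_eq_norm {p : ℕ} (hp : p.Prime) (hpq : p ≠ q)
    (N : Subgroup H) [N.Normal] [Fintype (H ⧸ N)] (hcard : Fintype.card (H ⧸ N) = p)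
    {X Y ζ : L} (hX : X ∈ IntermediateField.fixedField H) (hY : Y ^ p = X)
    (hN : ∀ n : N, ((n : H) : GalL L) Y = Y)
    (hζH : ζ ∈ IntermediateField.fixedField H) (hζp : ζ ^ p = 1) (hζ1 : ζ ≠ 1)
    (x₀ : GalL L) (hX1 : ‖embx q L x₀ X‖ = 1)
    (hns : ∀ β ∈ Kv q L H x₀, β ^ p ≠ embx q L x₀ X)
    (u : (PadicAlgCl q)ˣ) (hu : (u : PadicAlgCl q) ∈ Kv q L H x₀) (hu1 : ‖(u : PadicAlgCl q)‖ = 1) :
    ∃ Z : (Jq q L).V, (∀ n : N, (Jq q L).ρ ((n : H) : GalL L) Z = Z) ∧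
      (∀ y, y ∉ dcN (locHom q L) H N x₀ → Z.1 y = 0) ∧
      (∀ y, ‖((Additive.toMul (Z.1 y) : (PadicAlgCl q)ˣ) : PadicAlgCl q)‖ = 1) ∧
      ∀ r : H ⧸ N → H, (∀ c, ((r c : H) : H ⧸ N) = c) →
        ∑ c : H ⧸ N, (Jq q L).ρ ((r c : H) : GalL L) Z = singleIdele q L H x₀ u hu := by
  refine exists_norm_of_tame_unit_Jq q L H hp hpq N hcard hX hY hN hζH hζp hζ1 x₀ hX1 hns
    (singleIdele q L H x₀ u hu) ?_ ?_ ?_
  · intro h hh
    exact Single.rho_single _ hh
  · intro y hy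
    exact Single.single_apply_of_not _ hy
  · have : (singleIdele q L H x₀ u hu).1 x₀ = Additive.ofMul u := Single.single_apply_self _
    rw [this]
    exact hu1

end Fermat.Agent.S55.LocUnr89.TameCoind
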