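/-
# S55 / 32c-B (BL)(3) (helper89): tame unramified units are norms, for helper53's assembly map `Phi`

Adapter of `LocUnr89.TameCoind.exists_norm_of_tame_unit_Jq` into the vocabulary of
`SecondInst53.Assembly` (`fixK`, `Cmp`, `InPl`, `phi`, `Phi`): for a finite place `v ∤ p` of `K`,
`a ∈ K` a `v`-unit which is NOT a `p`-th power in `K_v`, `Y ∈ L` with `Y ^ p = a`, `N ⊴ Gal(L/K)` of
index `p` fixing `Y`, `μ_p ⊆ K`: for every unit `z` of `K_v` the element `Phi v z` of `Jq ℓ_v L` is the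
norm of an `N`-invariant, unit-valued element.
-/
import Fermat.Agent.S55.LocUnr89.TameCoind
import Fermat.Agent.S55.SecondInst53.Assembly

set_option autoImplicit false
set_option linter.style.haveILetI false
set_option linter.unusedSectionVars false

open IsDedekindDomain NumberField

namespace Fermat.Agent.S55.LocUnr89.TamePhi

open Fermat.Agent.S55.Idele73.Basic Fermat.Agent.S55.Idele73.PlaceField
  Fermat.Agent.S55.Idele73 Fermat.Agent.S55.SecondIneq74.CoindNorm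
  Fermat.Agent.S55.SecondInst53.PlaceModel Fermat.Agent.S55.SecondInst53.Assembly

variable {L : IntermediateField ℚ Qbar} [Normal ℚ L] [FiniteDimensional ℚ L]
variable {K : IntermediateField ℚ Qbar} [FiniteDimensional ℚ K] {hKL : K ≤ L}
variable {D : PlaceData ↥K}

/-- two elements of the double coset of `v` differ by `locHom τ * · * s`, `s ∈ Gal(L/K)`. -/
theorem mem_dcH_of_cmp {v : HeightOneSpectrum (𝓞 K)} {g g' : GalL L} {τ τ' : Gq (D.ℓ v)}
    (h : Cmp hKL D v g τ) (h' : Cmp hKL D v g' τ') :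
    g' ∈ dcH (locHom (D.ℓ v) L) (fixK L K hKL) g := by
  have key : ∀ x : K, g' (incl L K hKL x) =
      (locHom (D.ℓ v) L (τ' * τ⁻¹) * g) (incl L K hKL x) := by
    intro x
    apply iotaL_injective (D.ℓ v) L
    rw [AlgEquiv.mul_apply, iotaL_locHom, h x, h' x, AlgEquiv.mul_apply, AlgEquiv.aut_inv,
      AlgEquiv.symm_apply_apply]
  have hs : (locHom (D.ℓ v) L (τ' * τ⁻¹) * g)⁻¹ * g' ∈ fixK L K hKL := by
    intro x
    rw [AlgEquiv.mul_apply, key x, ← AlgEquiv.mul_apply, inv_mul_cancel, AlgEquiv.one_apply]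
  refine ⟨τ' * τ⁻¹, ⟨_, hs⟩, ?_⟩
  show g' = locHom (D.ℓ v) L (τ' * τ⁻¹) * g * ((locHom (D.ℓ v) L (τ' * τ⁻¹) * g)⁻¹ * g')
  group

theorem mem_dcH_of_inPl {v : HeightOneSpectrum (𝓞 K)} {g g' : GalL L}
    (h : InPl hKL D v g) (h' : InPl hKL D v g') :
    g' ∈ dcH (locHom (D.ℓ v) L) (fixK L K hKL) g := by
  obtain ⟨τ, hτ⟩ := h
  obtain ⟨τ', hτ'⟩ := h'
  exact mem_dcH_of_cmp hτ hτ'

/-- Galois correspondence in `L/ℚ`: the fixed field of `Gal(L/K)` is (the image of) `K`. -/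
theorem exists_incl_eq_of_mem_fixedField {y : L}
    (hy : y ∈ IntermediateField.fixedField (fixK L K hKL)) : ∃ x : K, incl L K hKL x = y := by
  haveI : IsGalois ℚ L := ⟨⟩
  set K' : IntermediateField ℚ L := (incl L K hKL).fieldRange with hK'
  have h1 : fixK L K hKL = K'.fixingSubgroup := by
    ext s
    rw [IntermediateField.mem_fixingSubgroup_iff, mem_fixK]
    constructor
    · rintro h _ ⟨x, rfl⟩
      exact h x
    · intro h x
      exact h _ ⟨x, rfl⟩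
  rw [h1, IsGalois.fixedField_fixingSubgroup] at hy
  exact hy

/-- the local field of the double coset of `g₀` in helper73's model is `τ₀ (K_v)`. -/
theorem inv_apply_mem_locField {v : HeightOneSpectrum (𝓞 K)} {g₀ : GalL L} {τ₀ : Gq (D.ℓ v)}
    (hτ₀ : Cmp hKL D v g₀ τ₀) {β : PadicAlgCl (D.ℓ v)}
    (hβ : β ∈ Kv (D.ℓ v) L (fixK L K hKL) g₀) : τ₀⁻¹ β ∈ D.locField v := by
  have hle : Kv (D.ℓ v) L (fixK L K hKL) g₀ ≤
      (D.locField v).comap ((τ₀⁻¹ : Gq (D.ℓ v)) :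
        PadicAlgCl (D.ℓ v) →ₐ[ℚ_[D.ℓ v]] PadicAlgCl (D.ℓ v)) := by
    rw [Kv, IntermediateField.adjoin_le_iff]
    rintro _ ⟨y, hy, rfl⟩
    obtain ⟨x, rfl⟩ := exists_incl_eq_of_mem_fixedField hy
    show τ₀⁻¹ (embx (D.ℓ v) L g₀ (incl L K hKL x)) ∈ D.locField v
    rw [embx_apply, hτ₀ x, AlgEquiv.aut_inv, AlgEquiv.symm_apply_apply]
    exact IntermediateField.subset_adjoin _ _ ⟨x, rfl⟩
  exact hle hβ

/-- **(BL)(3) for the assembly map `Phi`.** -/
theorem Phi_eq_norm_of_tame_unit {p : ℕ} (hp : p.Prime) (v : HeightOneSpectrum (𝓞 K))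
    (hpv : p ≠ D.ℓ v) (N : Subgroup (fixK L K hKL)) [N.Normal] [Fintype (fixK L K hKL ⧸ N)]
    (hcard : Fintype.card (fixK L K hKL ⧸ N) = p)
    {a ζ : K} {Y : L} (hY : Y ^ p = incl L K hKL a)
    (hN : ∀ n : N, ((n : fixK L K hKL) : GalL L) Y = Y)
    (hζp : ζ ^ p = 1) (hζ1 : ζ ≠ 1)
    (ha1 : ‖D.σ v a‖ = 1) (hns : ∀ β ∈ D.locField v, β ^ p ≠ D.σ v a)
    {g₀ : GalL L} (hg₀ : InPl hKL D v g₀)
    (z : (D.locField v)ˣ) (hz : ‖((z : D.locField v) : PadicAlgCl (D.ℓ v))‖ = 1) :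
    ∃ Z : (Jq (D.ℓ v) L).V,
      (∀ n : N, (Jq (D.ℓ v) L).ρ ((n : fixK L K hKL) : GalL L) Z = Z) ∧
      (∀ y, y ∉ dcN (locHom (D.ℓ v) L) (fixK L K hKL) N g₀ → Z.1 y = 0) ∧
      (∀ y, ‖((Additive.toMul (Z.1 y) : (PadicAlgCl (D.ℓ v))ˣ) : PadicAlgCl (D.ℓ v))‖ = 1) ∧
      ∀ r : fixK L K hKL ⧸ N → fixK L K hKL,
        (∀ c, ((r c : fixK L K hKL) : fixK L K hKL ⧸ N) = c) →
        ∑ c : fixK L K hKL ⧸ N, (Jq (D.ℓ v) L).ρ ((r c : fixK L K hKL) : GalL L) Z =
          Phi hKL D v z := by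
  obtain ⟨τ₀, hτ₀⟩ := hg₀
  have hfix : ∀ x : K, incl L K hKL x ∈ IntermediateField.fixedField (fixK L K hKL) := by
    intro x
    rw [IntermediateField.mem_fixedField_iff]
    intro s hs
    exact hs x
  refine TameCoind.exists_norm_of_tame_unit_Jq (D.ℓ v) L (fixK L K hKL) hp hpv N hcard
    (X := incl L K hKL a) (Y := Y) (ζ := incl L K hKL ζ) (hfix a) hY hN (hfix ζ) ?_ ?_ g₀ ?_ ?_
    (Phi hKL D v z) ?_ ?_ ?_
  · rw [← map_pow, hζp, map_one]
  · intro h
    exact hζ1 ((incl L K hKL).injective (h.trans (map_one _).symm))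
  · rw [embx_apply, hτ₀ a, LocField17.norm_algEquiv]
    exact ha1
  · intro β hβ h
    refine hns _ (inv_apply_mem_locField hτ₀ hβ) ?_
    rw [← map_pow, h, embx_apply, hτ₀ a, AlgEquiv.aut_inv, AlgEquiv.symm_apply_apply]
  · intro s hs
    exact rho_Phi v z hs
  · intro y hy
    have hny : ¬ InPl hKL D v y := fun h => hy (mem_dcH_of_inPl ⟨τ₀, hτ₀⟩ h)
    rw [Phi_apply, phi_of_not z hny]
    rfl
  · rw [Phi_apply]
    show ‖((phi hKL D v z g₀ : (PadicAlgCl (D.ℓ v))ˣ) : PadicAlgCl (D.ℓ v))‖ = 1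
    rw [norm_phi_of_inPl z ⟨τ₀, hτ₀⟩]
    exact hz

/-! ### The split case (BL)(2) for `Phi` -/

section SplitAbs

variable {k Γ G A : Type*} [CommRing k] [Group Γ] [Group G] [AddCommGroup A] [Module k A]
  {φ : Γ →* G} {σ : Representation k Γ A} {H : Subgroup G} {N : Subgroup H}
  [N.Normal] [Fintype (H ⧸ N)]

/-- `SecondIneq74.CoindNorm.exists_norm_of_split` with the explicit shape of the preimage:
`z = f` on the sheet `φ(Γ) x₀ N` and `0` elsewhere. -/
theorem exists_norm_of_split_explicit (x₀ : G)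
    (hsplit : ∀ (γ : Γ) (h : H), φ γ * x₀ = x₀ * (h : G) → h ∈ N)
    {f : G → A} (hf : f ∈ Representation.coindV φ σ) (hfH : RInvH H f)
    (hsupp : ∀ x, x ∉ dcH φ H x₀ → f x = 0) :
    ∃ z : G → A, z ∈ Representation.coindV φ σ ∧ RInvN H N z ∧
      (∀ x, x ∉ dcN φ H N x₀ → z x = 0) ∧ (∀ x, z x = f x ∨ z x = 0) ∧
      ∀ r : H ⧸ N → H, (∀ c, ((r c : H) : H ⧸ N) = c) →
        ∀ x, ∑ c : H ⧸ N, z (x * ((r c : H) : G)) = f x := by
  classical
  -- on the sheet the norm equation has a single term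
  refine ⟨fun x => if x ∈ dcN φ H N x₀ then f x else 0,
    indicator_mem hf _ (smul_mem_dcN_iff x₀), ?_, ?_, ?_, ?_⟩
  · intro x n
    by_cases hx : x ∈ dcN φ H N x₀
    · simp only [if_pos hx, if_pos ((mul_mem_dcN_iff x₀ x n).mpr hx)]
      exact hfH x n
    · have : ¬ x * ((n : H) : G) ∈ dcN φ H N x₀ := fun h => hx ((mul_mem_dcN_iff x₀ x n).mp h)
      simp only [if_neg hx, if_neg this]
  · intro x hx
    simp only [if_neg hx]
  · intro x
    by_cases hx : x ∈ dcN φ H N x₀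
    · left; simp only [if_pos hx]
    · right; simp only [if_neg hx]
  · intro r hr x
    -- the single-term computation of `SecondIneq74.CoindNorm.exists_norm_of_split`
    by_cases hx : x ∈ dcH φ H x₀
    · obtain ⟨γ, h, rfl⟩ := hx
      have key : ∀ c : H ⧸ N, φ γ * x₀ * (h : G) * ((r c : H) : G) ∈ dcN φ H N x₀ ↔
          c = ((h : H ⧸ N))⁻¹ := by
        intro c
        constructor
        · rintro ⟨γ', n, hn⟩
          have h1 : φ (γ'⁻¹ * γ) * x₀ = x₀ * (((n : H) * (h * r c)⁻¹ : H) : G) := by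
            have : φ γ * x₀ = φ γ' * x₀ * ((n : H) : G) * ((h * r c : H) : G)⁻¹ := by
              rw [← hn, Subgroup.coe_mul]; group
            rw [map_mul, map_inv, mul_assoc, this]
            simp only [Subgroup.coe_mul, Subgroup.coe_inv]
            group
          have h2 := hsplit _ _ h1
          have h3 : (h * r c)⁻¹ ∈ N := by
            have := N.mul_mem (N.inv_mem n.2) h2
            simpa [mul_assoc] using this
          have h4 : h * r c ∈ N := by simpa using N.inv_mem h3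
          have h5 : ((h * r c : H) : H ⧸ N) = 1 := (QuotientGroup.eq_one_iff _).mpr h4
          rw [QuotientGroup.mk_mul, hr c] at h5
          exact eq_inv_of_mul_eq_one_right h5
        · intro hc
          have h5 : ((h * r c : H) : H ⧸ N) = 1 := by
            rw [QuotientGroup.mk_mul, hr c, hc, mul_inv_cancel]
          have h4 : h * r c ∈ N := (QuotientGroup.eq_one_iff _).mp h5
          exact ⟨γ, ⟨h * r c, h4⟩, by rw [Subgroup.coe_mul]; group⟩
      rw [Finset.sum_eq_single ((h : H ⧸ N))⁻¹]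
      · dsimp only
        rw [if_pos ((key _).mpr rfl)]
        exact hfH _ _
      · intro c _ hc
        dsimp only
        rw [if_neg (fun hmem => hc ((key c).mp hmem))]
      · intro hc
        exact absurd (Finset.mem_univ _) hc
    · rw [hsupp x hx]
      apply Finset.sum_eq_zero
      intro c _
      have : ¬ x * ((r c : H) : G) ∈ dcN φ H N x₀ := fun hmem =>
        hx ((mul_mem_dcH_iff x₀ x (r c)).mp (dcN_subset_dcH x₀ hmem))
      dsimp only
      rw [if_neg this]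

end SplitAbs

/-- **(BL)(2) for the assembly map `Phi`**: if `a` is a `p`-th power in `K_v` (the place splits in
`K(a^{1/p})`), then `Phi v z` is a norm for EVERY `z ∈ K_vˣ`; the preimage is `Phi v z` cut down to
the sheet `D g₀ N`. -/
theorem Phi_eq_norm_of_split {p : ℕ} (hp : p.Prime) (v : HeightOneSpectrum (𝓞 K))
    (N : Subgroup (fixK L K hKL)) [N.Normal] [Fintype (fixK L K hKL ⧸ N)]
    {a ζ : K} {Y : L} (hY : Y ^ p = incl L K hKL a)
    (hN' : ∀ h : fixK L K hKL, (h : GalL L) Y = Y → h ∈ N)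
    (hζp : ζ ^ p = 1) (hζ1 : ζ ≠ 1)
    {β : PadicAlgCl (D.ℓ v)} (hβ : β ∈ D.locField v) (hβp : β ^ p = D.σ v a)
    {g₀ : GalL L} (hg₀ : InPl hKL D v g₀) (z : (D.locField v)ˣ) :
    ∃ Z : (Jq (D.ℓ v) L).V,
      (∀ n : N, (Jq (D.ℓ v) L).ρ ((n : fixK L K hKL) : GalL L) Z = Z) ∧
      (∀ y, y ∉ dcN (locHom (D.ℓ v) L) (fixK L K hKL) N g₀ → Z.1 y = 0) ∧
      (∀ y, Z.1 y = (Phi hKL D v z).1 y ∨ Z.1 y = 0) ∧
      ∀ r : fixK L K hKL ⧸ N → fixK L K hKL,
        (∀ c, ((r c : fixK L K hKL) : fixK L K hKL ⧸ N) = c) →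
        ∑ c : fixK L K hKL ⧸ N, (Jq (D.ℓ v) L).ρ ((r c : fixK L K hKL) : GalL L) Z =
          Phi hKL D v z := by
  obtain ⟨τ₀, hτ₀⟩ := hg₀
  have hfix : ∀ x : K, incl L K hKL x ∈ IntermediateField.fixedField (fixK L K hKL) := by
    intro x
    rw [IntermediateField.mem_fixedField_iff]
    intro s hs
    exact hs x
  -- the local root `embx g₀ Y` lies in `K_v' = Kv .. g₀`
  have hτβ : τ₀ β ∈ Kv (D.ℓ v) L (fixK L K hKL) g₀ := by
    have hle : D.locField v ≤ (Kv (D.ℓ v) L (fixK L K hKL) g₀).comap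
        ((τ₀ : Gq (D.ℓ v)) : PadicAlgCl (D.ℓ v) →ₐ[ℚ_[D.ℓ v]] PadicAlgCl (D.ℓ v)) := by
      rw [IntermediateField.adjoin_le_iff]
      rintro _ ⟨x, rfl⟩
      show τ₀ (D.σ v x) ∈ Kv (D.ℓ v) L (fixK L K hKL) g₀
      rw [← hτ₀ x, ← embx_apply]
      exact embx_mem_Kv _ L _ g₀ (hfix x)
    exact hle hβ
  have hYK : embx (D.ℓ v) L g₀ Y ∈ Kv (D.ℓ v) L (fixK L K hKL) g₀ := by
    have h1 : embx (D.ℓ v) L g₀ Y ^ p = (τ₀ β) ^ p := by
      rw [← map_pow, hY, embx_apply, hτ₀ a, ← map_pow, hβp]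
    by_cases hβ0 : τ₀ β = 0
    · rw [hβ0, zero_pow hp.ne_zero] at h1
      rw [pow_eq_zero_iff hp.ne_zero] at h1
      rw [h1]
      exact zero_mem _
    · have h2 : (embx (D.ℓ v) L g₀ Y / τ₀ β) ^ p = 1 := by
        rw [div_pow, h1, div_self (pow_ne_zero p hβ0)]
      have h3 := TameCoind.root_of_unity_mem_Kv (D.ℓ v) L (fixK L K hKL) g₀ hp (hfix ζ)
        (by rw [← map_pow, hζp, map_one])
        (fun h => hζ1 ((incl L K hKL).injective (h.trans (map_one _).symm))) _ h2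
      have h4 : embx (D.ℓ v) L g₀ Y = embx (D.ℓ v) L g₀ Y / τ₀ β * τ₀ β := by
        field_simp
      rw [h4]
      exact mul_mem h3 hτβ
  -- the splitting hypothesis of the abstract lemma
  have hsplit : ∀ (γ : Gq (D.ℓ v)) (h : fixK L K hKL),
      locHom (D.ℓ v) L γ * g₀ = g₀ * (h : GalL L) → h ∈ N := by
    intro γ h hγ
    apply hN'
    have hγtw : γ ∈ Mackey.twSub (locHom (D.ℓ v) L) (fixK L K hKL) g₀ := by
      rw [Mackey.mem_twSub]
      have : g₀⁻¹ * locHom (D.ℓ v) L γ * g₀ = (h : GalL L) := by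
        rw [mul_assoc, hγ]; group
      rw [this]
      exact h.2
    have h1 : γ (embx (D.ℓ v) L g₀ Y) = embx (D.ℓ v) L g₀ Y :=
      apply_eq_of_mem_Kv (D.ℓ v) L (fixK L K hKL) g₀ hYK hγtw
    rw [← embx_locHom_mul, hγ, embx_apply, embx_apply] at h1
    have h2 := iotaL_injective (D.ℓ v) L h1
    exact g₀.injective h2
  have hfH : RInvH (fixK L K hKL)
      ((Phi hKL D v z).1 : GalL L → Additive (PadicAlgCl (D.ℓ v))ˣ) := by
    intro y h
    have := congrArg (fun F' : (Jq (D.ℓ v) L).V => F'.1 y) (rho_Phi v z h.2)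
    exact this
  have hsupp : ∀ y, y ∉ dcH (locHom (D.ℓ v) L) (fixK L K hKL) g₀ →
      (Phi hKL D v z).1 y = 0 := by
    intro y hy
    have hny : ¬ InPl hKL D v y := fun h => hy (mem_dcH_of_inPl ⟨τ₀, hτ₀⟩ h)
    rw [Phi_apply, phi_of_not z hny]
    rfl
  obtain ⟨w, hw, hwN, hw0, hwf, hwnorm⟩ :=
    exists_norm_of_split_explicit (N := N) g₀ hsplit (Phi hKL D v z).2 hfH hsupp
  refine ⟨⟨w, hw⟩, ?_, hw0, hwf, ?_⟩
  · intro n
    apply Subtype.ext
    funext y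
    exact hwN y n
  · intro r hr
    apply Subtype.ext
    funext y
    have h1 := hwnorm r hr y
    rw [← h1]
    have h2 : ((∑ c : fixK L K hKL ⧸ N,
        (Jq (D.ℓ v) L).ρ ((r c : fixK L K hKL) : GalL L) ⟨w, hw⟩ : (Jq (D.ℓ v) L).V)).1 y =
        ∑ c : fixK L K hKL ⧸ N,
          ((Jq (D.ℓ v) L).ρ ((r c : fixK L K hKL) : GalL L) ⟨w, hw⟩).1 y := by
      rw [← Submodule.coe_subtype, map_sum, Finset.sum_apply]
    rw [h2]
    rfl

end Fermat.Agent.S55.LocUnr89.TamePhi
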