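/-
# S55 / 32c-B (BL) (helper89): the three local norm cases combined, per place

In the literal shape of `hBL` / `hfirst` of `SecondIneq74.Glue` (place model of helper53): for a
finite place `v` of `K`, the layer `(H, N)`, `H = Gal(L/K)`, `N = Stab_H(Y)` of index `p`,
`Y ^ p = a ∈ Kˣ`, `μ_p ⊆ K`, and `z ∈ A D (inl v) = (K_v)ˣ` with

  `z ∈ Pw ∨ ι v a ∈ Pw ∨ (v tame ∧ ι v a ∈ U v ∧ z ∈ U v)`,

the element `Phi v z` of `Jq ℓ_v L` is the norm `∑_{c ∈ H/N} c • Z` of an `N`-invariant `Z`.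
-/
import Fermat.Agent.S55.LocUnr89.TamePhi
import Fermat.Agent.S55.RelDict24.AssemblyAdapt

set_option autoImplicit false
set_option linter.style.haveILetI false
set_option linter.unusedSectionVars false

open IsDedekindDomain NumberField

namespace Fermat.Agent.S55.LocUnr89.PhiCases

open Fermat.Agent.S55.Idele73.Basic Fermat.Agent.S55.Idele73.PlaceField
  Fermat.Agent.S55.Idele73 Fermat.Agent.S55.SecondIneq74 Fermat.Agent.S55.SecondIneq74.CoindNorm
  Fermat.Agent.S55.SecondInst53.PlaceModel Fermat.Agent.S55.SecondInst53.Assembly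

variable {L : IntermediateField ℚ Qbar} [Normal ℚ L] [FiniteDimensional ℚ L]
variable {K : IntermediateField ℚ Qbar} [FiniteDimensional ℚ K] {hKL : K ≤ L}
variable {D : PlaceData ↥K}

/-- `F ∈ Jq q L` is a norm of the layer `(H, N)`, `H = Gal(L/K)`. -/
def IsNormJq (q : ℕ) [Fact q.Prime] (N : Subgroup (fixK L K hKL)) [Fintype (fixK L K hKL ⧸ N)]
    (F : (Jq q L).V) : Prop :=
  ∃ Z : (Jq q L).V, (∀ n : N, (Jq q L).ρ ((n : fixK L K hKL) : GalL L) Z = Z) ∧
    ∀ r : fixK L K hKL ⧸ N → fixK L K hKL,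
      (∀ c, ((r c : fixK L K hKL) : fixK L K hKL ⧸ N) = c) →
      ∑ c : fixK L K hKL ⧸ N, (Jq q L).ρ ((r c : fixK L K hKL) : GalL L) Z = F

/-- **(BL)(1)**: `p`-th powers are norms (`Phi v (c ^ p) = N (Phi v c)`). -/
theorem isNormJq_Phi_pow {p : ℕ} (v : HeightOneSpectrum (𝓞 K))
    (N : Subgroup (fixK L K hKL)) [Fintype (fixK L K hKL ⧸ N)]
    (hcard : Fintype.card (fixK L K hKL ⧸ N) = p) (c : (D.locField v)ˣ) :
    IsNormJq (D.ℓ v) N (Phi hKL D v (c ^ p)) := by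
  refine ⟨Phi hKL D v c, fun n => rho_Phi v c (n : fixK L K hKL).2, fun r _ => ?_⟩
  rw [Finset.sum_congr rfl fun c' _ => rho_Phi v c (r c').2, Finset.sum_const, Finset.card_univ,
    hcard]
  have h := map_nsmul (PhiHom hKL D v) p (Additive.ofMul c)
  exact h.symm

/-- `v` tame for `p` implies `p ≠ ℓ_v`. -/
theorem ne_of_mem_tame {p : ℕ} {v : HeightOneSpectrum (𝓞 K)}
    (hv : (Sum.inl v : V ↥K) ∈ tame (K := ↥K) p) : p ≠ D.ℓ v := by
  rintro rfl
  exact (inl_mem_tame_iff _ v).mp hv (D.natCast_mem v)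

/-- **the three (BL) cases, per place.** -/
theorem Phi_isNorm_of_cases {p : ℕ} (hp : p.Prime)
    (N : Subgroup (fixK L K hKL)) [N.Normal] [Fintype (fixK L K hKL ⧸ N)]
    (hcard : Fintype.card (fixK L K hKL ⧸ N) = p)
    {a : (↥K)ˣ} {ζ : K} {Y : L} (hY : Y ^ p = incl L K hKL (a : K))
    (hN : ∀ h : fixK L K hKL, h ∈ N ↔ (h : GalL L) Y = Y)
    (hζp : ζ ^ p = 1) (hζ1 : ζ ≠ 1)
    (v : HeightOneSpectrum (𝓞 K)) (z : A D (Sum.inl v))
    (hcase : z ∈ Pw (A D) p (Sum.inl v) ∨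
      ι D (Sum.inl v) a ∈ Pw (A D) p (Sum.inl v) ∨
      ((Sum.inl v : V ↥K) ∈ tame (K := ↥K) p ∧ ι D (Sum.inl v) a ∈ U D (Sum.inl v) ∧
        z ∈ U D (Sum.inl v))) :
    IsNormJq (D.ℓ v) N (Phi hKL D v z) := by
  change (D.locField v)ˣ at z
  obtain ⟨g₀, hg₀⟩ := RelDict24.exists_inPl hKL D v
  -- the split case as a lemma
  have hsplit : ι D (Sum.inl v) a ∈ Pw (A D) p (Sum.inl v) →
      IsNormJq (D.ℓ v) N (Phi hKL D v z) := by
    intro h
    have key : ∃ c : (D.locField v)ˣ, c ^ p = ιf D v a := h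
    obtain ⟨c, hc'⟩ := key
    have hβp : ((c : D.locField v) : PadicAlgCl (D.ℓ v)) ^ p = D.σ v (a : K) := by
      have := congrArg (fun u : (D.locField v)ˣ => ((u : D.locField v) : PadicAlgCl (D.ℓ v))) hc'
      simpa using this
    obtain ⟨Z, hZN, -, -, hZ⟩ := TamePhi.Phi_eq_norm_of_split hp v N hY
      (fun h hh => (hN h).mpr hh) hζp hζ1 (c : D.locField v).2 hβp hg₀ z
    exact ⟨Z, hZN, hZ⟩
  rcases hcase with h1 | h2 | ⟨ht, haU, hzU⟩
  · have key : ∃ c : (D.locField v)ˣ, c ^ p = z := h1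
    obtain ⟨c, hc'⟩ := key
    rw [← hc']
    exact isNormJq_Phi_pow v N hcard c
  · exact hsplit h2
  · by_cases h2 : ι D (Sum.inl v) a ∈ Pw (A D) p (Sum.inl v)
    · exact hsplit h2
    · have ha1 : ‖D.σ v (a : K)‖ = 1 := haU
      have hns : ∀ β ∈ D.locField v, β ^ p ≠ D.σ v (a : K) := by
        intro β hβ hβp
        apply h2
        have hβ0 : (⟨β, hβ⟩ : D.locField v) ≠ 0 := by
          intro h0
          have h00 : β = 0 := congrArg Subtype.val h0
          rw [h00, zero_pow hp.ne_zero] at hβp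
          have : ‖D.σ v (a : K)‖ = 0 := by rw [← hβp, norm_zero]
          rw [ha1] at this
          exact one_ne_zero this
        refine ⟨(Units.mk0 (⟨β, hβ⟩ : D.locField v) hβ0 : (D.locField v)ˣ), ?_⟩
        show (Units.mk0 (⟨β, hβ⟩ : D.locField v) hβ0 : (D.locField v)ˣ) ^ p = ιf D v a
        apply Units.ext
        apply Subtype.ext
        simpa using hβp
      obtain ⟨Z, hZN, -, -, hZ⟩ := TamePhi.Phi_eq_norm_of_tame_unit hp v (ne_of_mem_tame ht) N hcard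
        hY (fun n => (hN (n : fixK L K hKL)).mp n.2) hζp hζ1 ha1 hns hg₀ z hzU
      exact ⟨Z, hZN, hZ⟩

end Fermat.Agent.S55.LocUnr89.PhiCases
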