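/-
# S55 / 13-LOC-UNR (helper89), file 1: successive approximation in complete filtered groups

Pure algebra (Mathlib only).  `A` an abelian group with a decreasing filtration `Fil n` by
subgroups which is separated and complete (every series `∑ y n`, `y n ∈ Fil n`, converges).

* `exists_of_graded` : a pair `f, g : A →+ A` with `f ∘ g = 0`, both filtered, whose graded pieces
  are exact at `ker f = im g`, is exact at `ker f = im g`
  (Cassels–Fröhlich VI.1.2 / Serre, Local Fields XII §3 Lemma 3 for a cyclic group, in the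
  Herbrand-pair language: apply it to `(f, g) = (σ - 1, N)` and to `(N, σ - 1)`).
* `surjective_of_graded` : a filtered homomorphism `φ : A →+ B` which is surjective on graded pieces
  is surjective.
* multiplicative copies `exists_of_graded_mul`, `surjective_of_graded_mul`.
-/
import Mathlib

set_option autoImplicit false

namespace Fermat.Agent.S55.LocUnr89

open Finset

section Additive

variable {A : Type*} [AddCommGroup A]

/-- **Limit lemma, kernel/image form.** -/
theorem exists_of_graded (f g : A →+ A) (hfg : ∀ x, f (g x) = 0)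
    (Fil : ℕ → AddSubgroup A) (h0 : Fil 0 = ⊤)
    (hg : ∀ n x, x ∈ Fil n → g x ∈ Fil n)
    (hsep : ∀ x, (∀ n, x ∈ Fil n) → x = 0)
    (hcomp : ∀ y : ℕ → A, (∀ n, y n ∈ Fil n) →
      ∃ s, ∀ N, s - ∑ n ∈ range N, y n ∈ Fil N)
    (hgr : ∀ n x, x ∈ Fil n → f x ∈ Fil (n + 1) → ∃ y ∈ Fil n, x - g y ∈ Fil (n + 1)) :
    ∀ x, f x = 0 → ∃ y, g y = x := by
  intro x hx
  classical
  -- one approximation step
  have step : ∀ n (z : A), z ∈ Fil n → f z = 0 → ∃ y ∈ Fil n, z - g y ∈ Fil (n + 1) := by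
    intro n z hz hfz
    exact hgr n z hz (by rw [hfz]; exact zero_mem _)
  choose! yf hyf hyf' using step
  -- the sequence of remainders
  let z : ℕ → A := fun n => Nat.rec x (fun n zn => zn - g (yf n zn)) n
  have hz0 : z 0 = x := rfl
  have hzs : ∀ n, z (n + 1) = z n - g (yf n (z n)) := fun n => rfl
  have hzprop : ∀ n, z n ∈ Fil n ∧ f (z n) = 0 := by
    intro n
    induction n with
    | zero => exact ⟨by rw [h0]; exact AddSubgroup.mem_top _, hx⟩
    | succ n ih =>
      refine ⟨?_, ?_⟩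
      · rw [hzs]; exact hyf' n (z n) ih.1 ih.2
      · rw [hzs, map_sub, ih.2, hfg, sub_zero]
  let y : ℕ → A := fun n => yf n (z n)
  have hy : ∀ n, y n ∈ Fil n := fun n => hyf n (z n) (hzprop n).1 (hzprop n).2
  obtain ⟨s, hs⟩ := hcomp y hy
  refine ⟨s, ?_⟩
  -- `x - g (∑_{n<N} y n) = z N`
  have htel : ∀ N, x - g (∑ n ∈ range N, y n) = z N := by
    intro N
    induction N with
    | zero => simp [hz0]
    | succ N ih =>
      rw [sum_range_succ, map_add, ← sub_sub, ih, hzs]
  have hmem : ∀ N, x - g s ∈ Fil N := by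
    intro N
    have h1 : x - g s = z N - g (s - ∑ n ∈ range N, y n) := by
      rw [← htel N, map_sub]; abel
    rw [h1]
    exact sub_mem (hzprop N).1 (hg N _ (hs N))
  have := hsep _ hmem
  rw [sub_eq_zero] at this
  exact this.symm

variable {B : Type*} [AddCommGroup B]

/-- **Limit lemma, surjectivity form.** -/
theorem surjective_of_graded (φ : A →+ B)
    (FilA : ℕ → AddSubgroup A) (FilB : ℕ → AddSubgroup B) (hB0 : FilB 0 = ⊤)
    (hφ : ∀ n x, x ∈ FilA n → φ x ∈ FilB n)
    (hsepB : ∀ b, (∀ n, b ∈ FilB n) → b = 0)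
    (hcompA : ∀ y : ℕ → A, (∀ n, y n ∈ FilA n) →
      ∃ s, ∀ N, s - ∑ n ∈ range N, y n ∈ FilA N)
    (hgr : ∀ n b, b ∈ FilB n → ∃ a ∈ FilA n, b - φ a ∈ FilB (n + 1)) :
    Function.Surjective φ := by
  intro b
  classical
  choose! af haf haf' using hgr
  let z : ℕ → B := fun n => Nat.rec b (fun n zn => zn - φ (af n zn)) n
  have hz0 : z 0 = b := rfl
  have hzs : ∀ n, z (n + 1) = z n - φ (af n (z n)) := fun n => rfl
  have hzprop : ∀ n, z n ∈ FilB n := by
    intro n
    induction n with
    | zero => rw [hB0]; exact AddSubgroup.mem_top _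
    | succ n ih => rw [hzs]; exact haf' n (z n) ih
  let y : ℕ → A := fun n => af n (z n)
  have hy : ∀ n, y n ∈ FilA n := fun n => haf n (z n) (hzprop n)
  obtain ⟨s, hs⟩ := hcompA y hy
  refine ⟨s, ?_⟩
  have htel : ∀ N, b - φ (∑ n ∈ range N, y n) = z N := by
    intro N
    induction N with
    | zero => simp [hz0]
    | succ N ih =>
      rw [sum_range_succ, map_add, ← sub_sub, ih, hzs]
  have hmem : ∀ N, b - φ s ∈ FilB N := by
    intro N
    have h1 : b - φ s = z N - φ (s - ∑ n ∈ range N, y n) := by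
      rw [← htel N, map_sub]; abel
    rw [h1]
    exact sub_mem (hzprop N) (hφ N _ (hs N))
  have := hsepB _ hmem
  rw [sub_eq_zero] at this
  exact this.symm

end Additive

section Multiplicative

variable {U : Type*} [CommGroup U]

/-- **Limit lemma, kernel/image form, multiplicative notation.** -/
theorem exists_of_graded_mul (f g : U →* U) (hfg : ∀ x, f (g x) = 1)
    (Fil : ℕ → Subgroup U) (h0 : Fil 0 = ⊤)
    (hg : ∀ n x, x ∈ Fil n → g x ∈ Fil n)
    (hsep : ∀ x, (∀ n, x ∈ Fil n) → x = 1)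
    (hcomp : ∀ y : ℕ → U, (∀ n, y n ∈ Fil n) →
      ∃ s, ∀ N, s / ∏ n ∈ range N, y n ∈ Fil N)
    (hgr : ∀ n x, x ∈ Fil n → f x ∈ Fil (n + 1) → ∃ y ∈ Fil n, x / g y ∈ Fil (n + 1)) :
    ∀ x, f x = 1 → ∃ y, g y = x := by
  intro x hx
  have key := exists_of_graded (A := Additive U) (MonoidHom.toAdditive f) (MonoidHom.toAdditive g)
    (fun x => hfg (Additive.toMul x)) (fun n => (Fil n).toAddSubgroup)
    (by rw [h0]; rfl)
    (fun n x hx => hg n _ hx) (fun x hx => hsep _ hx)
    (fun y hy => by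
      obtain ⟨s, hs⟩ := hcomp (fun n => Additive.toMul (y n)) hy
      refine ⟨Additive.ofMul s, fun N => ?_⟩
      have := hs N
      have h2 : Additive.toMul (∑ n ∈ range N, y n) = ∏ n ∈ range N, Additive.toMul (y n) :=
        toMul_sum _ _
      show Additive.toMul (Additive.ofMul s - ∑ n ∈ range N, y n) ∈ Fil N
      rw [toMul_sub, h2]
      exact this)
    (fun n x hx hfx => by
      obtain ⟨y, hy, hxy⟩ := hgr n (Additive.toMul x) hx hfx
      exact ⟨Additive.ofMul y, hy, hxy⟩)
    (Additive.ofMul x) hx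
  obtain ⟨y, hy⟩ := key
  exact ⟨Additive.toMul y, hy⟩

variable {W : Type*} [CommGroup W]

/-- **Limit lemma, surjectivity form, multiplicative notation.** -/
theorem surjective_of_graded_mul (φ : U →* W)
    (FilU : ℕ → Subgroup U) (FilW : ℕ → Subgroup W) (hW0 : FilW 0 = ⊤)
    (hφ : ∀ n x, x ∈ FilU n → φ x ∈ FilW n)
    (hsepW : ∀ b, (∀ n, b ∈ FilW n) → b = 1)
    (hcompU : ∀ y : ℕ → U, (∀ n, y n ∈ FilU n) →
      ∃ s, ∀ N, s / ∏ n ∈ range N, y n ∈ FilU N)
    (hgr : ∀ n b, b ∈ FilW n → ∃ a ∈ FilU n, b / φ a ∈ FilW (n + 1)) :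
    Function.Surjective φ := by
  have key := surjective_of_graded (A := Additive U) (B := Additive W) (MonoidHom.toAdditive φ)
    (fun n => (FilU n).toAddSubgroup) (fun n => (FilW n).toAddSubgroup)
    (by rw [hW0]; rfl)
    (fun n x hx => hφ n _ hx) (fun b hb => hsepW _ hb)
    (fun y hy => by
      obtain ⟨s, hs⟩ := hcompU (fun n => Additive.toMul (y n)) hy
      refine ⟨Additive.ofMul s, fun N => ?_⟩
      have := hs N
      have h2 : Additive.toMul (∑ n ∈ range N, y n) = ∏ n ∈ range N, Additive.toMul (y n) :=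
        toMul_sum _ _
      show Additive.toMul (Additive.ofMul s - ∑ n ∈ range N, y n) ∈ FilU N
      rw [toMul_sub, h2]
      exact this)
    (fun n b hb => by
      obtain ⟨a, ha, hba⟩ := hgr n (Additive.toMul b) hb
      exact ⟨Additive.ofMul a, ha, hba⟩)
  intro b
  obtain ⟨a, ha⟩ := key (Additive.ofMul b)
  exact ⟨Additive.toMul a, ha⟩

end Multiplicative

end Fermat.Agent.S55.LocUnr89
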