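/-
# S55 / 32c-B (BL)(3) (helper89): `isNorm_Phi_of_unit` in the literal shape of helper53's FINAL CUT

`NormPred.IsNorm (fixK L K hKL) N (Jq (D.ℓ v) L) (Phi hKL D v z)` for a tame place `v`, `a` a `v`-unit
which is not a local `p`-th power, `z` a `v`-unit; `N = Stab_H(α)`, `α ^ p = a`, `μ_p ⊆ L^H`.
The index `|H/N| = p` is DERIVED here (Kummer character `h ↦ h α / α`).
-/
import Fermat.Agent.S55.LocUnr89.TamePhi
import Fermat.Agent.S55.SecondInst53.NormPred
import Fermat.Agent.S55.RelDict24.Place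

set_option autoImplicit false
set_option linter.style.haveILetI false
set_option linter.unusedSectionVars false

open IsDedekindDomain NumberField

namespace Fermat.Agent.S55.LocUnr89.TamePhi

open Fermat.Agent.S55.Idele73.Basic Fermat.Agent.S55.Idele73.PlaceField
  Fermat.Agent.S55.Idele73 Fermat.Agent.S55.SecondIneq74 Fermat.Agent.S55.SecondIneq74.CoindNorm
  Fermat.Agent.S55.SecondInst53.PlaceModel Fermat.Agent.S55.SecondInst53.Assembly
  Fermat.Agent.S55.SecondInst53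

section KummerChar

variable {F E : Type*} [Field F] [Field E] [Algebra F E] (H : Subgroup (E ≃ₐ[F] E))
  {p : ℕ} [Fact p.Prime] {α ζ : E}

/-- the Kummer character `h ↦ h α / α : H → μ_p(E)`. -/
noncomputable def kummerChar (hα0 : α ≠ 0) (hαp : ∀ h : H, (h : E ≃ₐ[F] E) (α ^ p) = α ^ p)
    (hζ : IsPrimitiveRoot ζ p) (hζH : ∀ h : H, (h : E ≃ₐ[F] E) ζ = ζ) :
    H →* rootsOfUnity p E where
  toFun h := ⟨Units.mk0 ((h : E ≃ₐ[F] E) α / α)
      (div_ne_zero ((map_ne_zero _).mpr hα0) hα0), by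
    rw [mem_rootsOfUnity]
    apply Units.ext
    rw [Units.val_pow_eq_pow_val, Units.val_mk0, div_pow, ← map_pow, hαp h,
      div_self (pow_ne_zero p hα0), Units.val_one]⟩
  map_one' := by
    apply Subtype.ext
    apply Units.ext
    show ((1 : H) : E ≃ₐ[F] E) α / α = 1
    rw [Subgroup.coe_one, AlgEquiv.one_apply, div_self hα0]
  map_mul' h h' := by
    apply Subtype.ext
    apply Units.ext
    show ((h * h' : H) : E ≃ₐ[F] E) α / α =
      ((h : E ≃ₐ[F] E) α / α) * ((h' : E ≃ₐ[F] E) α / α)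
    -- `ξ := h' α / α` is a `p`-th root of unity, hence a power of `ζ`, hence fixed by `h`
    have hξ : ((h' : E ≃ₐ[F] E) α / α) ^ p = 1 := by
      rw [div_pow, ← map_pow, hαp h', div_self (pow_ne_zero p hα0)]
    haveI : NeZero p := ⟨(Fact.out : p.Prime).ne_zero⟩
    obtain ⟨i, -, hi⟩ := hζ.eq_pow_of_pow_eq_one hξ
    have hfix : (h : E ≃ₐ[F] E) ((h' : E ≃ₐ[F] E) α / α) = (h' : E ≃ₐ[F] E) α / α := by
      rw [← hi, map_pow, hζH h]
    have h1 : (h' : E ≃ₐ[F] E) α = ((h' : E ≃ₐ[F] E) α / α) * α := by field_simp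
    rw [Subgroup.coe_mul, AlgEquiv.mul_apply]
    conv_lhs => rw [h1, map_mul, hfix]
    field_simp

theorem kummerChar_apply (hα0 : α ≠ 0) (hαp : ∀ h : H, (h : E ≃ₐ[F] E) (α ^ p) = α ^ p)
    (hζ : IsPrimitiveRoot ζ p) (hζH : ∀ h : H, (h : E ≃ₐ[F] E) ζ = ζ) (h : H) :
    ((kummerChar H hα0 hαp hζ hζH h : Eˣ) : E) = (h : E ≃ₐ[F] E) α / α := rfl

/-- the index of the stabiliser of a Kummer generator divides `p`. -/
theorem card_quot_stab_dvd (N : Subgroup H) [Fintype (H ⧸ N)] (hα0 : α ≠ 0)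
    (hαp : ∀ h : H, (h : E ≃ₐ[F] E) (α ^ p) = α ^ p)
    (hstab : ∀ h : H, (h : E ≃ₐ[F] E) α = α ↔ h ∈ N)
    (hζ : IsPrimitiveRoot ζ p) (hζH : ∀ h : H, (h : E ≃ₐ[F] E) ζ = ζ) :
    Fintype.card (H ⧸ N) ∣ p := by
  haveI : NeZero p := ⟨(Fact.out : p.Prime).ne_zero⟩
  have hker : N = (kummerChar H hα0 hαp hζ hζH).ker := by
    ext h
    rw [MonoidHom.mem_ker, ← hstab h]
    constructor
    · intro hh
      apply Subtype.ext
      apply Units.ext
      rw [kummerChar_apply, hh, div_self hα0]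
      rfl
    · intro hh
      have := congrArg (fun u : rootsOfUnity p E => ((u : Eˣ) : E)) hh
      simp only [kummerChar_apply] at this
      have h1 : (h : E ≃ₐ[F] E) α / α = 1 := this
      rwa [div_eq_one_iff_eq hα0] at h1
  have h1 : Fintype.card (H ⧸ N) = N.index := by
    rw [Subgroup.index, Nat.card_eq_fintype_card]
  rw [h1, hker, Subgroup.index_ker]
  have h2 := Subgroup.card_subgroup_dvd_card (kummerChar H hα0 hαp hζ hζH).range
  rwa [hζ.card_rootsOfUnity] at h2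

end KummerChar

variable {L : IntermediateField ℚ Qbar} [Normal ℚ L] [FiniteDimensional ℚ L]
variable {K : IntermediateField ℚ Qbar} [FiniteDimensional ℚ K] {hKL : K ≤ L}
variable {D : PlaceData ↥K}

/-- **(BL)(3) in `NormPred.IsNorm` form** (helper53's FINAL CUT #2307): `v ∤ p`, `a` a `v`-unit, not
a `p`-th power in `K_v`, `z` a `v`-unit ⇒ `Phi v z` is a norm of the layer `(Gal(L/K), Stab(α))`. -/
theorem isNorm_Phi_of_unit (N : Subgroup ↥(fixK L K hKL)) [N.Normal]
    [Fintype (↥(fixK L K hKL) ⧸ N)] {p : ℕ} [Fact p.Prime] {α : ↥L} (hα0 : α ≠ 0)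
    (hstab : ∀ h : ↥(fixK L K hKL), (h : GalL L) α = α ↔ h ∈ N) {ζ : ↥L}
    (hζ : IsPrimitiveRoot ζ p) (hζH : ∀ h : ↥(fixK L K hKL), (h : GalL L) ζ = ζ)
    (a : (↥K)ˣ) (ha : incl L K hKL (a : ↥K) = α ^ p)
    (v : HeightOneSpectrum (𝓞 K)) (hpv : p ≠ D.ℓ v)
    (haU : ι D (Sum.inl v) a ∈ U D (Sum.inl v))
    (hns : ι D (Sum.inl v) a ∉ Pw (A D) p (Sum.inl v))
    (z : (D.locField v)ˣ) (hz : z ∈ unitBall D v) :
    NormPred.IsNorm (fixK L K hKL) N (Jq (D.ℓ v) L) (Phi hKL D v z) := by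
  have hp : p.Prime := Fact.out
  have hαp : ∀ h : ↥(fixK L K hKL), (h : GalL L) (α ^ p) = α ^ p := by
    intro h
    rw [← ha]
    exact h.2 (a : K)
  -- `a` is not a `p`-th power in `K_v`, in the `PadicAlgCl` form
  have ha1 : ‖D.σ v (a : K)‖ = 1 := haU
  have hns' : ∀ β ∈ D.locField v, β ^ p ≠ D.σ v (a : K) := by
    intro β hβ hβp
    apply hns
    have hβ0 : (⟨β, hβ⟩ : D.locField v) ≠ 0 := by
      intro h0
      have h00 : β = 0 := congrArg Subtype.val h0
      rw [h00, zero_pow hp.ne_zero] at hβp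
      have : ‖D.σ v (a : K)‖ = 0 := by rw [← hβp, norm_zero]
      rw [ha1] at this
      exact one_ne_zero this
    refine ⟨(Units.mk0 (⟨β, hβ⟩ : D.locField v) hβ0 : (D.locField v)ˣ), ?_⟩
    show (Units.mk0 (⟨β, hβ⟩ : D.locField v) hβ0 : (D.locField v)ˣ) ^ p = ιf D v a
    apply Units.ext
    apply Subtype.ext
    simpa using hβp
  -- the index of `N` is `p`
  have hcard : Fintype.card (↥(fixK L K hKL) ⧸ N) = p := by
    rcases (Nat.dvd_prime hp).1
      (card_quot_stab_dvd (F := ℚ) (E := L) (fixK L K hKL) N hα0 hαp hstab hζ hζH) with h1 | h1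
    · exfalso
      -- `N = ⊤`, so `α ∈ K`, so `a` is a `p`-th power in `K`, a fortiori in `K_v`
      have hidx : N.index = 1 := by
        rw [Subgroup.index, Nat.card_eq_fintype_card, h1]
      have htop : N = ⊤ := Subgroup.index_eq_one.1 hidx
      have hαfix : α ∈ IntermediateField.fixedField (fixK L K hKL) := by
        rw [IntermediateField.mem_fixedField_iff]
        intro s hs
        exact (hstab ⟨s, hs⟩).2 (by rw [htop]; trivial)
      obtain ⟨α', hα'⟩ := exists_incl_eq_of_mem_fixedField hαfix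
      have hα'p : α' ^ p = (a : K) := by
        have hinj : Function.Injective (incl L K hKL) := (incl L K hKL).injective
        apply hinj
        rw [map_pow, hα', ha]
      have hα'0 : α' ≠ 0 := by
        rintro rfl
        rw [map_zero] at hα'
        exact hα0 hα'.symm
      apply hns
      refine ⟨ι D (Sum.inl v) (Units.mk0 α' hα'0), ?_⟩
      show (ι D (Sum.inl v) (Units.mk0 α' hα'0)) ^ p = ι D (Sum.inl v) a
      rw [← map_pow]
      congr 1
      apply Units.ext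
      simpa using hα'p
    · exact h1
  -- `ζ` comes from `K`
  have hζfix : ζ ∈ IntermediateField.fixedField (fixK L K hKL) := by
    rw [IntermediateField.mem_fixedField_iff]
    intro s hs
    exact hζH ⟨s, hs⟩
  obtain ⟨ζ', hζ'⟩ := exists_incl_eq_of_mem_fixedField hζfix
  have hζ'p : ζ' ^ p = 1 := by
    have hinj : Function.Injective (incl L K hKL) := (incl L K hKL).injective
    apply hinj
    rw [map_pow, hζ', map_one, hζ.pow_eq_one]
  have hζ'1 : ζ' ≠ 1 := by
    rintro rfl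
    rw [map_one] at hζ'
    exact hζ.ne_one hp.one_lt hζ'.symm
  obtain ⟨g₀, hg₀⟩ := Fermat.Agent.S55.RelDict24.exists_cmp hKL D v
  have hin : InPl hKL D v g₀ := ⟨1, fun x => by rw [AlgEquiv.one_apply]; exact (hg₀ x).symm⟩
  obtain ⟨Z, hZN, -, -, hZ⟩ := Phi_eq_norm_of_tame_unit hp v hpv N hcard (a := (a : K))
    (ζ := ζ') (Y := α) ha.symm (fun n => (hstab (n : fixK L K hKL)).2 n.2) hζ'p hζ'1 ha1 hns'
    (g₀ := g₀) hin z hz
  exact ⟨Z, hZN, hZ⟩

end Fermat.Agent.S55.LocUnr89.TamePhi
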